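import Fermat.Agent.S53.H53_Glue

set_option autoImplicit false
set_option linter.style.haveILetI false
set_option linter.unusedSectionVars false

open IsLocalRing

namespace Fermat.Agent.S53.H53

open GaloisRep Fermat.Agent.S53.H92

section Assembly

variable {𝒪 : Type} [CommRing 𝒪] [IsDomain 𝒪] [IsDiscreteValuationRing 𝒪]
  [IsAdicComplete (maximalIdeal 𝒪) 𝒪]
  {ρbar : ResidualGaloisRep (ResidueField 𝒪)}
  {𝒟 : ∀ ⦃A : Type⦄ [CommRing A] [IsLocalRing A] [Algebra 𝒪 A], GaloisRepAdic A → Prop}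
  (D : NFData 𝒪 ρbar)

/-- Invariance of a deformation condition under equivalence, over complete Noetherian local
algebras. -/
theorem cond_of_isEquiv (h𝒟 : IsDeformationCondition 𝒪 𝒟)
    {A : Type} [CommRing A] [IsLocalRing A] [IsNoetherianRing A]
    [IsAdicComplete (maximalIdeal A) A] [Algebra 𝒪 A] (hloc : IsLocalHom (algebraMap 𝒪 A))
    (hres : Function.Surjective (IsLocalRing.residue A ∘ algebraMap 𝒪 A))
    {ρ ρ' : GaloisRepAdic A} (he : ρ.IsEquiv ρ') (h : 𝒟 ρ) : 𝒟 ρ' := by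
  rw [h𝒟.iff_forall_surjective hloc hres] at h ⊢
  intro B _ _ _ hB q hq hsurj
  exact h𝒟.of_isEquiv hB (isEquiv_baseChangeAlong he _ hq) (h hB q hq hsurj)

/-- Coordinates of a matrix valued homomorphism. -/
noncomputable def coordOf {A : Type} [CommRing A] (xm : GQ →* M2 A) : Coord → A := fun c => xm c.1 c.2.1 c.2.2

theorem mapMat_eq_of_coord {A B : Type} [CommRing A] [CommRing B] (φ : A →+* B)
    (xm : GQ →* M2 A) (ym : GQ →* M2 B) (h : ∀ σ i j, ym σ i j = (φ ∘ coordOf xm) (σ, i, j)) :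
    mapMat φ xm = ym := by
  ext σ i j
  rw [mapMat_apply, Matrix.map_apply, h]
  rfl

theorem IsNFMat.map_residue {A : Type} [CommRing A] [IsLocalRing A] [Algebra 𝒪 A]
    [IsLocalHom (algebraMap 𝒪 A)] {xm : GQ →* M2 A} (h : IsNFMat D xm) (σ : GQ) :
    (xm σ).map (IsLocalRing.residue A) =
      (resMatOf ρbar D.b σ).map (IsLocalRing.ResidueField.map (algebraMap 𝒪 A)) := by
  ext i j
  rw [Matrix.map_apply, Matrix.map_apply, ← D.hm0 σ, Matrix.map_apply,
    IsLocalRing.ResidueField.map_residue]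
  have h1 := h.lift σ i j
  rw [← IsLocalRing.residue_eq_zero_iff, map_sub, sub_eq_zero] at h1
  exact h1

theorem IsNFMat.residual_isEquiv {A : Type} [CommRing A] [IsLocalRing A] [Algebra 𝒪 A]
    [IsLocalHom (algebraMap 𝒪 A)] {xm : GQ →* M2 A} (h : IsNFMat D xm) :
    (ofMat xm h.cont).residual.IsEquiv
      (ρbar.baseChangeAlong (IsLocalRing.ResidueField.map (algebraMap 𝒪 A))) := by
  refine residual_isEquiv_of_lift _ (Pi.basisFun A (Fin 2)) ρbar D.b _ fun σ => ?_
  rw [matOf_ofMat]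
  exact h.map_residue D σ

/-- **Assembly**: a pro-representing object for the functor of normal form lifts yields a
universal deformation ring. -/
theorem nonempty_deformationRingData_of_prorep
    (habs : ρbar.IsAbsolutelyIrreducible) (h𝒟 : IsDeformationCondition 𝒪 𝒟)
    (R : Type) [CommRing R] [IsLocalRing R] [IsNoetherianRing R]
    [IsAdicComplete (maximalIdeal R) R] [Algebra 𝒪 R] [hlocR : IsLocalHom (algebraMap 𝒪 R)]
    (hres : Function.Surjective (IsLocalRing.residue R ∘ algebraMap 𝒪 R))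
    (u : Coord → R)
    (h1 : ∀ (B : Type) [CommRing B] [IsLocalRing B] [Algebra 𝒪 B], IsArtinianTestAlgebra 𝒪 B →
      ∀ q : R →ₐ[𝒪] B, IsLocalHom (q : R →+* B) → IsNFLift D 𝒟 (q ∘ u))
    (h2 : ∀ (A : Type) [CommRing A] [IsLocalRing A] [IsNoetherianRing A]
      [IsAdicComplete (maximalIdeal A) A] [Algebra 𝒪 A] [IsLocalHom (algebraMap 𝒪 A)],
      Function.Surjective (IsLocalRing.residue A ∘ algebraMap 𝒪 A) → ∀ v : Coord → A,
      (∀ (B : Type) [CommRing B] [IsLocalRing B] [Algebra 𝒪 B], IsArtinianTestAlgebra 𝒪 B →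
        ∀ q : A →ₐ[𝒪] B, IsLocalHom (q : A →+* B) → Function.Surjective q →
          IsNFLift D 𝒟 (q ∘ v)) →
      ∃! φ : R →ₐ[𝒪] A, IsLocalHom (φ : R →+* A) ∧ φ ∘ u = v) :
    Nonempty (DeformationRingData 𝒪 ρbar 𝒟) := by
  -- Step 1: the universal matrix representation
  obtain ⟨xR, hxR, hnfR⟩ := exists_isNFMat_of_quotients D u (fun n => by
    haveI := quotPow_isLocalRing (A := R) n
    obtain ⟨xm, hxm, hnf, -⟩ := h1 (R ⧸ maximalIdeal R ^ (n + 1))
      (quotPow_isArtinianTestAlgebra 𝒪 hres n) (Ideal.Quotient.mkₐ 𝒪 _) (quotPow_isLocalHom n)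
    exact ⟨xm, hxm, hnf⟩)
  have hu : u = coordOf xR := by
    funext ⟨σ, i, j⟩
    exact (hxR σ i j).symm
  subst hu
  -- Step 2: the universal representation is of type `𝒟`
  have hDR : 𝒟 (ofMat xR hnfR.cont) := by
    rw [h𝒟.iff_forall_surjective hlocR hres]
    intro B _ _ _ hB q hq _
    obtain ⟨ym, hym, hnfy, hdy⟩ := h1 B hB q hq
    have e : mapMat (q : R →+* B) xR = ym := mapMat_eq_of_coord _ _ _ hym
    subst e
    exact h𝒟.of_isEquiv hB (isEquiv_symm (baseChangeAlong_ofMat_isEquiv _ hq xR hnfR.cont)) hdy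
  refine ⟨{ R := R
            residue_surjective := hres
            absIrr := habs
            ρ := ofMat xR hnfR.cont
            isOfType := hDR
            residual_isEquiv := hnfR.residual_isEquiv D
            universal := ?_ }⟩
  intro A _ _ _ _ _ hlocA hresA ρA hDA hresEq
  haveI : HenselianLocalRing A := henselianLocalRing_of_isAdicComplete
  obtain ⟨xA, hnfA, heA⟩ := exists_isNFMat_of_residual_isEquiv D ρA hresEq
  have hv : ∀ (B : Type) [CommRing B] [IsLocalRing B] [Algebra 𝒪 B], IsArtinianTestAlgebra 𝒪 B →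
        ∀ q : A →ₐ[𝒪] B, IsLocalHom (q : A →+* B) → Function.Surjective q →
          IsNFLift D 𝒟 (q ∘ coordOf xA) := by
    intro B _ _ _ hB q hq hsurj
    refine ⟨mapMat (q : A →+* B) xA, fun σ i j => rfl, hnfA.map D q hq, ?_⟩
    have h3 : 𝒟 (ρA.baseChangeAlong (q : A →+* B) hq) :=
      (h𝒟.iff_forall_surjective hlocA hresA ρA).mp hDA hB q hq hsurj
    exact h𝒟.of_isEquiv hB (isEquiv_trans (isEquiv_baseChangeAlong heA _ hq)
      (baseChangeAlong_ofMat_isEquiv _ hq xA hnfA.cont)) h3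
  obtain ⟨φ, ⟨hφ, hφu⟩, hφuniq⟩ := h2 A hresA (coordOf xA) hv
  have hmapφ : mapMat (φ : R →+* A) xR = xA := by
    apply mapMat_eq_of_coord
    intro σ i j
    exact (congrFun hφu (σ, i, j)).symm
  refine ⟨φ, ⟨hφ, ?_⟩, ?_⟩
  · refine isEquiv_trans (baseChangeAlong_ofMat_isEquiv _ hφ xR hnfR.cont) ?_
    have e := ofMat_congr (matCont_mapMat hnfR.cont _ hφ) hmapφ
    rw [e]
    exact isEquiv_symm heA
  · rintro φ' ⟨hφ', heφ'⟩
    apply hφuniq
    refine ⟨hφ', ?_⟩
    have hnf' : IsNFMat D (mapMat (φ' : R →+* A) xR) := hnfR.map D φ' hφ'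
    have he' : (ofMat (mapMat (φ' : R →+* A) xR) hnf'.cont).IsEquiv (ofMat xA hnfA.cont) :=
      isEquiv_trans (isEquiv_symm (baseChangeAlong_ofMat_isEquiv _ hφ' xR hnfR.cont))
        (isEquiv_trans heφ' heA)
    have e := hnf'.eq_of_isEquiv hnfA he'
    funext ⟨σ, i, j⟩
    have := congrFun (congrFun (congrArg (fun f => f σ) e) i) j
    rw [mapMat_apply, Matrix.map_apply] at this
    exact this

end Assembly

end Fermat.Agent.S53.H53
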