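import Mathlib
import Fermat.Prelude.Thm_IsLocalRing_isAdicComplete_of_module_finite

set_option autoImplicit false

namespace Fermat.Agent.S53.H93

open MvPowerSeries IsLocalRing Finsupp

section Tail

variable {σ : Type*} [Finite σ] {R : Type*} [CommRing R]

/-- A power series all of whose coefficients in total degree `< n` vanish lies in the `n`-th power
of the ideal generated by the variables. -/
theorem mem_span_range_X_pow (n : ℕ) (f : MvPowerSeries σ R)
    (hf : ∀ α : σ →₀ ℕ, α.degree < n → coeff α f = 0) :
    f ∈ (Ideal.span (Set.range (X : σ → MvPowerSeries σ R))) ^ n := by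
  classical
  cases nonempty_fintype σ
  induction n generalizing f with
  | zero => simp
  | succ n ih =>
    let pick : (σ →₀ ℕ) → Option σ := fun α =>
      if h : α.support.Nonempty then some h.choose else none
    have hpick_mem : ∀ α i, pick α = some i → 1 ≤ α i := by
      intro α i h
      simp only [pick] at h
      split_ifs at h with hne
      · have := hne.choose_spec
        rw [Option.some.injEq] at h
        rw [← h]
        exact Nat.one_le_iff_ne_zero.mpr (Finsupp.mem_support_iff.mp this)
    have hpick_ne : ∀ α, α ≠ 0 → ∃ i, pick α = some i := by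
      intro α hα
      have hne : α.support.Nonempty := Finsupp.support_nonempty_iff.mpr hα
      exact ⟨hne.choose, by simp only [pick, dif_pos hne]⟩
    let g : σ → MvPowerSeries σ R := fun i β =>
      if pick (β + single i 1) = some i then coeff (β + single i 1) f else 0
    have hg : ∀ i β, coeff β (g i) =
        if pick (β + single i 1) = some i then coeff (β + single i 1) f else 0 := fun _ _ => rfl
    have hfg : f = ∑ i, X i * g i := by
      ext α
      rw [map_sum]
      simp only [X_def, coeff_monomial_mul, one_mul, hg]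
      by_cases hα : α = 0
      · subst hα
        rw [hf 0 (by simp)]
        symm
        apply Finset.sum_eq_zero
        intro i _
        rw [if_neg]
        intro h
        simpa using h i
      · obtain ⟨i0, hi0⟩ := hpick_ne α hα
        have h1 : single i0 1 ≤ α := by
          rw [Finsupp.single_le_iff]
          exact hpick_mem α _ hi0
        rw [Finset.sum_eq_single i0]
        · rw [if_pos h1, tsub_add_cancel_of_le h1, if_pos hi0]
        · intro j _ hj
          split_ifs with h2 h3
          · rw [tsub_add_cancel_of_le h2] at h3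
            rw [hi0, Option.some.injEq] at h3
            exact absurd h3.symm hj
          · rfl
          · rfl
        · intro h; exact absurd (Finset.mem_univ _) h
    rw [hfg]
    refine Ideal.sum_mem _ fun i _ => ?_
    rw [pow_succ']
    refine Ideal.mul_mem_mul (Ideal.subset_span ⟨i, rfl⟩) (ih (g i) fun β hβ => ?_)
    rw [hg]
    split_ifs with h
    · apply hf
      rw [map_add, Finsupp.degree_single]
      omega
    · rfl

end Tail

section Filtration

variable (σ : Type*) (R : Type*) [CommRing R] [IsLocalRing R]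

/-- The ideal of power series whose coefficient at `α` lies in `𝔪 ^ (n - |α|)`. -/
def filt (n : ℕ) : Ideal (MvPowerSeries σ R) where
  carrier := {f | ∀ α : σ →₀ ℕ, coeff α f ∈ maximalIdeal R ^ (n - α.degree)}
  add_mem' := by
    intro f g hf hg α
    rw [map_add]
    exact Ideal.add_mem _ (hf α) (hg α)
  zero_mem' := by
    intro α
    rw [map_zero]
    exact Ideal.zero_mem _
  smul_mem' := by
    classical
    intro h f hf γ
    rw [smul_eq_mul, coeff_mul]
    refine Ideal.sum_mem _ fun p hp => ?_
    refine Ideal.mul_mem_left _ _ ?_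
    refine Ideal.pow_le_pow_right ?_ (hf p.2)
    have : p.1 + p.2 = γ := Finset.HasAntidiagonal.mem_antidiagonal.mp hp
    rw [← this, map_add]
    omega

variable {σ R}

theorem mem_filt {n : ℕ} {f : MvPowerSeries σ R} :
    f ∈ filt σ R n ↔ ∀ α : σ →₀ ℕ, coeff α f ∈ maximalIdeal R ^ (n - α.degree) := Iff.rfl

theorem filt_mul_le (a b : ℕ) : filt σ R a * filt σ R b ≤ filt σ R (a + b) := by
  classical
  rw [Ideal.mul_le]
  intro f hf g hg γ
  rw [coeff_mul]
  refine Ideal.sum_mem _ fun p hp => ?_
  have hsum : p.1 + p.2 = γ := Finset.HasAntidiagonal.mem_antidiagonal.mp hp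
  have h1 := Ideal.mul_mem_mul (hf p.1) (hg p.2)
  rw [← pow_add] at h1
  refine Ideal.pow_le_pow_right ?_ h1
  rw [← hsum, map_add]
  omega

theorem maximalIdeal_le_filt_one : maximalIdeal (MvPowerSeries σ R) ≤ filt σ R 1 := by
  intro f hf α
  by_cases hα : α = 0
  · subst hα
    rw [map_zero, Nat.sub_zero, pow_one]
    rw [mem_maximalIdeal, mem_nonunits_iff, isUnit_iff_constantCoeff] at hf
    exact hf
  · have : 1 - α.degree = 0 := by
      have : α.degree ≠ 0 := by
        rwa [Ne, Finsupp.degree_eq_zero_iff]
      omega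
    rw [this, pow_zero, Ideal.one_eq_top]
    exact Submodule.mem_top

theorem maximalIdeal_pow_le_filt (n : ℕ) : maximalIdeal (MvPowerSeries σ R) ^ n ≤ filt σ R n := by
  induction n with
  | zero =>
    intro f _ α
    rw [Nat.zero_sub, pow_zero, Ideal.one_eq_top]
    exact Submodule.mem_top
  | succ n ih =>
    rw [pow_succ]
    exact (Ideal.mul_mono ih maximalIdeal_le_filt_one).trans (filt_mul_le n 1)

theorem C_mem_maximalIdeal_pow {k : ℕ} {c : R} (hc : c ∈ maximalIdeal R ^ k) :
    (C c : MvPowerSeries σ R) ∈ maximalIdeal (MvPowerSeries σ R) ^ k := by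
  have hle : (maximalIdeal R).map (C : R →+* MvPowerSeries σ R) ≤
      maximalIdeal (MvPowerSeries σ R) := by
    rw [Ideal.map_le_iff_le_comap]
    intro x hx
    rw [Ideal.mem_comap, mem_maximalIdeal, mem_nonunits_iff, isUnit_iff_constantCoeff,
      constantCoeff_C]
    exact hx
  have h1 := Ideal.mem_map_of_mem (C : R →+* MvPowerSeries σ R) hc
  rw [Ideal.map_pow] at h1
  exact Ideal.pow_right_mono hle k h1

theorem X_mem_maximalIdeal (i : σ) :
    (X i : MvPowerSeries σ R) ∈ maximalIdeal (MvPowerSeries σ R) := by
  rw [mem_maximalIdeal, mem_nonunits_iff, isUnit_iff_constantCoeff, constantCoeff_X]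
  exact not_isUnit_zero

theorem span_range_X_le_maximalIdeal :
    Ideal.span (Set.range (X : σ → MvPowerSeries σ R)) ≤ maximalIdeal (MvPowerSeries σ R) := by
  rw [Ideal.span_le]
  rintro _ ⟨i, rfl⟩
  exact X_mem_maximalIdeal i

theorem monomial_mem_maximalIdeal_pow {n : ℕ} {α : σ →₀ ℕ} {c : R} (hα : α.degree ≤ n)
    (hc : c ∈ maximalIdeal R ^ (n - α.degree)) :
    monomial α c ∈ maximalIdeal (MvPowerSeries σ R) ^ n := by
  rw [monomial_eq']
  have h2 : (α.prod fun s e => (X s : MvPowerSeries σ R) ^ e) ∈
      maximalIdeal (MvPowerSeries σ R) ^ α.degree := by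
    rw [Finsupp.prod, Finsupp.degree_apply, ← Finset.prod_pow_eq_pow_sum]
    exact Ideal.prod_mem_prod fun i _ => Ideal.pow_mem_pow (X_mem_maximalIdeal i) _
  have h3 := Ideal.mul_mem_mul (C_mem_maximalIdeal_pow (σ := σ) hc) h2
  rwa [← pow_add, Nat.sub_add_cancel hα] at h3

theorem filt_le_maximalIdeal_pow [Finite σ] (n : ℕ) :
    filt σ R n ≤ maximalIdeal (MvPowerSeries σ R) ^ n := by
  classical
  intro f hf
  set S : Finset (σ →₀ ℕ) := (Finsupp.finite_of_degree_lt (σ := σ) n).toFinset with hS
  have hSmem : ∀ α, α ∈ S ↔ α.degree < n := by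
    intro α
    rw [hS, Set.Finite.mem_toFinset, Set.mem_ofPred_eq]
  have hdecomp : f = (f - ∑ α ∈ S, monomial α (coeff α f)) + ∑ α ∈ S, monomial α (coeff α f) := by
    ring
  rw [hdecomp]
  refine Ideal.add_mem _ ?_ (Ideal.sum_mem _ fun α hα => ?_)
  · refine Ideal.pow_right_mono span_range_X_le_maximalIdeal n
      (mem_span_range_X_pow n _ fun β hβ => ?_)
    rw [map_sub, map_sum, Finset.sum_eq_single β]
    · rw [coeff_monomial_same, sub_self]
    · intro γ _ hγ
      rw [coeff_monomial, if_neg (Ne.symm hγ)]
    · intro h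
      exact absurd ((hSmem β).mpr hβ) h
  · have hlt := (hSmem α).mp hα
    exact monomial_mem_maximalIdeal_pow hlt.le (hf α)

theorem maximalIdeal_pow_eq_filt [Finite σ] (n : ℕ) :
    maximalIdeal (MvPowerSeries σ R) ^ n = filt σ R n :=
  le_antisymm (maximalIdeal_pow_le_filt n) (filt_le_maximalIdeal_pow n)

theorem mem_maximalIdeal_pow_iff [Finite σ] {n : ℕ} {f : MvPowerSeries σ R} :
    f ∈ maximalIdeal (MvPowerSeries σ R) ^ n ↔
      ∀ α : σ →₀ ℕ, coeff α f ∈ maximalIdeal R ^ (n - α.degree) := by
  rw [maximalIdeal_pow_eq_filt, mem_filt]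

end Filtration

section Complete

variable (σ : Type*) [Finite σ] (R : Type*) [CommRing R] [IsLocalRing R]

theorem isHausdorff_maximalIdeal_mvPowerSeries [IsHausdorff (maximalIdeal R) R] :
    IsHausdorff (maximalIdeal (MvPowerSeries σ R)) (MvPowerSeries σ R) := by
  refine ⟨fun f hf => ?_⟩
  ext α
  rw [map_zero]
  refine IsHausdorff.haus' (I := maximalIdeal R) _ fun k => ?_
  have h1 := hf (k + α.degree)
  rw [SModEq.zero, smul_eq_mul, Ideal.mul_top, mem_maximalIdeal_pow_iff] at h1
  have h2 := h1 α
  rw [Nat.add_sub_cancel] at h2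
  rw [SModEq.zero, smul_eq_mul, Ideal.mul_top]
  exact h2

theorem isPrecomplete_maximalIdeal_mvPowerSeries [IsPrecomplete (maximalIdeal R) R] :
    IsPrecomplete (maximalIdeal (MvPowerSeries σ R)) (MvPowerSeries σ R) := by
  refine ⟨fun f hf => ?_⟩
  have hf' : ∀ {m n : ℕ}, m ≤ n → f m - f n ∈ maximalIdeal (MvPowerSeries σ R) ^ m := by
    intro m n hmn
    have := hf hmn
    rwa [SModEq.sub_mem, smul_eq_mul, Ideal.mul_top] at this
  have hex : ∀ α : σ →₀ ℕ, ∃ L : R, ∀ k : ℕ,
      coeff α (f (k + α.degree)) ≡ L [SMOD (maximalIdeal R ^ k • ⊤ : Submodule R R)] := by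
    intro α
    refine IsPrecomplete.prec' (I := maximalIdeal R) (fun k => coeff α (f (k + α.degree))) ?_
    intro m n hmn
    rw [SModEq.sub_mem, smul_eq_mul, Ideal.mul_top, ← map_sub]
    have h1 := hf' (Nat.add_le_add_right hmn α.degree)
    rw [mem_maximalIdeal_pow_iff] at h1
    have h2 := h1 α
    rwa [Nat.add_sub_cancel] at h2
  choose L hL using hex
  let Lf : MvPowerSeries σ R := fun α => L α
  have hLf : ∀ α, coeff α Lf = L α := fun α => rfl
  refine ⟨Lf, fun n => ?_⟩
  rw [SModEq.sub_mem, smul_eq_mul, Ideal.mul_top, mem_maximalIdeal_pow_iff]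
  intro α
  by_cases hn : α.degree ≤ n
  · have h1 := hL α (n - α.degree)
    rw [SModEq.sub_mem, smul_eq_mul, Ideal.mul_top, Nat.sub_add_cancel hn] at h1
    rw [map_sub, hLf]
    exact h1
  · have : n - α.degree = 0 := by omega
    rw [this, pow_zero, Ideal.one_eq_top]
    exact Submodule.mem_top

/-- For a local ring `R` complete with respect to its maximal ideal and a finite index type `σ`,
the ring of power series is complete with respect to its maximal ideal. -/
theorem isAdicComplete_maximalIdeal_mvPowerSeries [IsAdicComplete (maximalIdeal R) R] :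
    IsAdicComplete (maximalIdeal (MvPowerSeries σ R)) (MvPowerSeries σ R) :=
  { isHausdorff_maximalIdeal_mvPowerSeries σ R, isPrecomplete_maximalIdeal_mvPowerSeries σ R with }

theorem maximalIdeal_mvPowerSeries_eq :
    maximalIdeal (MvPowerSeries σ R) =
      (maximalIdeal R).map (C : R →+* MvPowerSeries σ R) ⊔
        Ideal.span (Set.range (X : σ → MvPowerSeries σ R)) := by
  refine le_antisymm (fun f hf => ?_) (sup_le ?_ span_range_X_le_maximalIdeal)
  · have hc : constantCoeff f ∈ maximalIdeal R := by
      rw [mem_maximalIdeal, mem_nonunits_iff, isUnit_iff_constantCoeff] at hf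
      exact hf
    have h1 : f = C (constantCoeff f) + (f - C (constantCoeff f)) := by ring
    rw [h1]
    refine Ideal.add_mem _ (Ideal.mem_sup_left (Ideal.mem_map_of_mem _ hc))
      (Ideal.mem_sup_right ?_)
    have h2 := mem_span_range_X_pow 1 (f - C (constantCoeff f)) fun α hα => by
      have h0 : α = 0 := by
        rw [← Finsupp.degree_eq_zero_iff]
        omega
      subst h0
      rw [map_sub, coeff_zero_C]
      exact sub_self _
    rwa [pow_one] at h2
  · rw [Ideal.map_le_iff_le_comap]
    intro x hx
    rw [Ideal.mem_comap, mem_maximalIdeal, mem_nonunits_iff, isUnit_iff_constantCoeff,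
      constantCoeff_C]
    exact hx

/-- A local ring which is the image of a complete Noetherian local ring is complete. -/
theorem isAdicComplete_of_surjective {A B : Type*} [CommRing A] [IsLocalRing A]
    [IsNoetherianRing A] [IsAdicComplete (maximalIdeal A) A] [CommRing B] [IsLocalRing B]
    (φ : A →+* B) (hφ : Function.Surjective φ) : IsAdicComplete (maximalIdeal B) B := by
  let _ : Algebra A B := φ.toAlgebra
  have : Module.Finite A B := Module.Finite.of_surjective (Algebra.linearMap A B) hφ
  have : IsLocalHom (algebraMap A B) := IsLocalHom.of_surjective φ hφ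
  exact IsLocalRing.isAdicComplete_of_module_finite (𝒪 := A) (T := B)

/-- Any local quotient of a power series ring in finitely many variables over a complete
Noetherian local ring is complete with respect to its maximal ideal. -/
theorem isAdicComplete_of_surjective_mvPowerSeries [IsNoetherianRing R]
    [IsAdicComplete (maximalIdeal R) R] {B : Type*} [CommRing B] [IsLocalRing B]
    (φ : MvPowerSeries σ R →+* B) (hφ : Function.Surjective φ) :
    IsAdicComplete (maximalIdeal B) B := by
  have := isAdicComplete_maximalIdeal_mvPowerSeries σ R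
  exact isAdicComplete_of_surjective φ hφ

end Complete

end Fermat.Agent.S53.H93
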