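import Mathlib
import Fermat.Prelude.Def_GaloisRep_DeformationCondition
import Fermat.Agent.S53.H93_PowerSeriesComplete

set_option autoImplicit false

namespace Fermat.Agent.S53.H2

open MvPowerSeries Finsupp

section LemmaA

variable {σ R : Type*} [CommRing R]

/-- A power series without constant term is a combination `∑ X i * g i`, where the `g i` vanish in
low degree as soon as `f` does. -/
theorem exists_eq_sum_X_mul [Fintype σ] (n : ℕ) (f : MvPowerSeries σ R)
    (hf : ∀ x : σ →₀ ℕ, degree x < n + 1 → coeff x f = 0) :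
    ∃ g : σ → MvPowerSeries σ R, (∀ i, ∀ y : σ →₀ ℕ, degree y < n → coeff y (g i) = 0) ∧
      f = ∑ i, X i * g i := by
  classical
  -- choose an index in the support of every nonzero exponent
  have hex : ∀ x : σ →₀ ℕ, x ≠ 0 → ∃ i, x i ≠ 0 := fun x hx => by
    by_contra h
    push Not at h
    exact hx (Finsupp.ext h)
  let idx : (σ →₀ ℕ) → Option σ := fun x => if hx : x ≠ 0 then Option.some (hex x hx).choose else Option.none
  have hidx : ∀ x i, idx x = Option.some i → x i ≠ 0 := by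
    intro x i h
    by_cases hx : x ≠ 0
    · simp only [idx, dif_pos hx, Option.some.injEq] at h
      rw [← h]; exact (hex x hx).choose_spec
    · simp only [idx, dif_neg hx, reduceCtorEq] at h
  have hidx' : ∀ x, x ≠ 0 → ∃ i, idx x = Option.some i := by
    intro x hx
    exact ⟨(hex x hx).choose, by simp only [idx, dif_pos hx]⟩
  let g : σ → MvPowerSeries σ R := fun i y =>
    if idx (y + single i 1) = Option.some i then coeff (y + single i 1) f else 0
  refine ⟨g, ?_, ?_⟩
  · intro i y hy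
    change (if idx (y + single i 1) = Option.some i then coeff (y + single i 1) f else 0) = 0
    split_ifs with h
    · apply hf
      rw [map_add, degree_single]
      omega
    · rfl
  · ext x
    rw [map_sum]
    have hterm : ∀ i, coeff x (X i * g i) =
        if idx x = Option.some i then coeff x f else 0 := by
      intro i
      rw [X_def, coeff_monomial_mul, one_mul]
      by_cases hle : single i 1 ≤ x
      · rw [if_pos hle]
        change (if idx (x - single i 1 + single i 1) = Option.some i then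
          coeff (x - single i 1 + single i 1) f else 0) = _
        rw [tsub_add_cancel_of_le hle]
      · rw [if_neg hle]
        split_ifs with h
        · exfalso
          apply hle
          have := hidx x i h
          intro j
          by_cases hj : j = i
          · subst hj
            simp only [single_eq_same]
            omega
          · rw [single_eq_of_ne hj]
            exact Nat.zero_le _
        · rfl
    simp_rw [hterm]
    by_cases hx : x = 0
    · subst hx
      have : idx (0 : σ →₀ ℕ) = Option.none := by simp [idx]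
      simp only [this, reduceCtorEq, if_false, Finset.sum_const_zero]
      apply hf
      simp
    · obtain ⟨i, hi⟩ := hidx' x hx
      rw [hi]
      simp [Finset.sum_ite_eq]

/-- A power series all of whose coefficients of degree `< n` vanish lies in the `n`-th power of the
ideal generated by the variables. -/
theorem mem_pow_span_X_of_coeff_eq_zero [Finite σ] (n : ℕ) (f : MvPowerSeries σ R)
    (hf : ∀ x : σ →₀ ℕ, degree x < n → coeff x f = 0) :
    f ∈ (Ideal.span (Set.range (X : σ → MvPowerSeries σ R))) ^ n := by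
  cases nonempty_fintype σ
  induction n generalizing f with
  | zero => simp
  | succ n ih =>
    obtain ⟨g, hg, rfl⟩ := exists_eq_sum_X_mul n f hf
    refine Ideal.sum_mem _ fun i _ => ?_
    rw [pow_succ']
    exact Ideal.mul_mem_mul (Ideal.subset_span ⟨i, rfl⟩) (ih (g i) (hg i))

end LemmaA


section Box

open IsLocalRing

variable (𝒪 : Type) [CommRing 𝒪] [IsLocalRing 𝒪]
variable (σ : Type)

omit [IsLocalRing 𝒪] in
theorem isLocalHom_algebraMap_mvPowerSeries :
    IsLocalHom (algebraMap 𝒪 (MvPowerSeries σ 𝒪)) := by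
  refine ⟨fun a ha => ?_⟩
  have h := (MvPowerSeries.isUnit_iff_constantCoeff).1 ha
  rwa [MvPowerSeries.algebraMap_apply, Algebra.algebraMap_self, RingHom.id_apply,
    MvPowerSeries.constantCoeff_C] at h

theorem mem_maximalIdeal_mvPowerSeries_iff (f : MvPowerSeries σ 𝒪) :
    f ∈ maximalIdeal (MvPowerSeries σ 𝒪) ↔ MvPowerSeries.constantCoeff f ∈ maximalIdeal 𝒪 := by
  rw [mem_maximalIdeal, mem_maximalIdeal, mem_nonunits_iff, mem_nonunits_iff,
    MvPowerSeries.isUnit_iff_constantCoeff]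

theorem X_mem_maximalIdeal (i : σ) :
    (MvPowerSeries.X i : MvPowerSeries σ 𝒪) ∈ maximalIdeal (MvPowerSeries σ 𝒪) := by
  rw [mem_maximalIdeal_mvPowerSeries_iff, MvPowerSeries.constantCoeff_X]
  exact zero_mem _

theorem residue_algebraMap_surjective :
    Function.Surjective
      (IsLocalRing.residue (MvPowerSeries σ 𝒪) ∘ algebraMap 𝒪 (MvPowerSeries σ 𝒪)) := by
  intro y
  obtain ⟨f, rfl⟩ := IsLocalRing.residue_surjective y
  refine ⟨MvPowerSeries.constantCoeff f, ?_⟩
  rw [Function.comp_apply, eq_comm, ← sub_eq_zero, ← map_sub, IsLocalRing.residue_eq_zero_iff,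
    mem_maximalIdeal_mvPowerSeries_iff, map_sub, MvPowerSeries.algebraMap_apply,
    Algebra.algebraMap_self, RingHom.id_apply, MvPowerSeries.constantCoeff_C, sub_self]
  exact zero_mem _


variable [Finite σ]

omit [IsLocalRing 𝒪] in
theorem exists_algHom_of_mem_maximalIdeal (A : Type) [CommRing A] [IsLocalRing A] [Algebra 𝒪 A]
    [IsArtinianRing A] (a : σ → A) (ha : ∀ i, a i ∈ maximalIdeal A) :
    ∃ φ : MvPowerSeries σ 𝒪 →ₐ[𝒪] A, ∀ i, φ (MvPowerSeries.X i) = a i := by
  obtain ⟨n, hn⟩ : ∃ n : ℕ, maximalIdeal A ^ n = ⊥ := by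
    have h := IsArtinianRing.isNilpotent_jacobson_bot (R := A)
    rw [IsLocalRing.jacobson_eq_maximalIdeal ⊥ bot_ne_top] at h
    exact h
  have h1 : (MvPolynomial.idealOfVars σ 𝒪).map
      ((MvPolynomial.aeval a : MvPolynomial σ 𝒪 →ₐ[𝒪] A) : MvPolynomial σ 𝒪 →+* A) ≤
      maximalIdeal A := by
    rw [Ideal.map_span, Ideal.span_le]
    rintro _ ⟨_, ⟨i, rfl⟩, rfl⟩
    simpa using ha i
  have hker : ∀ p ∈ MvPolynomial.idealOfVars σ 𝒪 ^ n,
      (MvPolynomial.aeval a : MvPolynomial σ 𝒪 →ₐ[𝒪] A) p = 0 := by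
    intro p hp
    have h2 : (MvPolynomial.aeval a : MvPolynomial σ 𝒪 →ₐ[𝒪] A) p ∈ maximalIdeal A ^ n := by
      have h3 := Ideal.mem_map_of_mem
        ((MvPolynomial.aeval a : MvPolynomial σ 𝒪 →ₐ[𝒪] A) : MvPolynomial σ 𝒪 →+* A) hp
      rw [Ideal.map_pow] at h3
      exact Ideal.pow_right_mono h1 n h3
    rw [hn] at h2
    simpa using h2
  let ψ : (MvPolynomial σ 𝒪 ⧸ MvPolynomial.idealOfVars σ 𝒪 ^ n) →ₐ[𝒪] A :=
    Ideal.Quotient.liftₐ _ (MvPolynomial.aeval a) hker
  refine ⟨ψ.comp ((MvPowerSeries.truncTotalAlgHom σ 𝒪 n).restrictScalars 𝒪), fun i => ?_⟩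
  have hX : (MvPowerSeries.X i : MvPowerSeries σ 𝒪) =
      algebraMap (MvPolynomial σ 𝒪) (MvPowerSeries σ 𝒪) (MvPolynomial.X i) := by
    rw [MvPowerSeries.algebraMap_apply', MvPolynomial.coe_X]
    simp
  rw [AlgHom.comp_apply, AlgHom.restrictScalars_apply, hX, AlgHom.commutes]
  change ψ (Ideal.Quotient.mk _ (MvPolynomial.X i)) = a i
  have h4 : ψ (Ideal.Quotient.mk _ (MvPolynomial.X i)) =
      (MvPolynomial.aeval a : MvPolynomial σ 𝒪 →ₐ[𝒪] A) (MvPolynomial.X i) := rfl
  rw [h4, MvPolynomial.aeval_X]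


omit [Finite σ] in
theorem algHom_map_maximalIdeal_le (A : Type) [CommRing A] [IsLocalRing A] [Algebra 𝒪 A]
    (hres : Function.Surjective (IsLocalRing.residue A ∘ algebraMap 𝒪 A))
    (φ : MvPowerSeries σ 𝒪 →ₐ[𝒪] A) (x : MvPowerSeries σ 𝒪)
    (hx : x ∈ maximalIdeal (MvPowerSeries σ 𝒪)) : φ x ∈ maximalIdeal A := by
  by_contra hu
  rw [mem_maximalIdeal, mem_nonunits_iff, not_not] at hu
  have hru : IsLocalRing.residue A (φ x) ≠ 0 := by
    rw [Ne, IsLocalRing.residue_eq_zero_iff, mem_maximalIdeal, mem_nonunits_iff, not_not]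
    exact hu
  obtain ⟨c, hc⟩ := hres (IsLocalRing.residue A (φ x))⁻¹
  rw [Function.comp_apply] at hc
  have hmem : algebraMap 𝒪 (MvPowerSeries σ 𝒪) c * x ∈ maximalIdeal (MvPowerSeries σ 𝒪) :=
    Ideal.mul_mem_left _ _ hx
  have hunit : IsUnit (1 - algebraMap 𝒪 (MvPowerSeries σ 𝒪) c * x) :=
    IsLocalRing.isUnit_one_sub_self_of_mem_nonunits _ hmem
  have hunit' : IsUnit (φ (1 - algebraMap 𝒪 (MvPowerSeries σ 𝒪) c * x)) := hunit.map φ
  rw [map_sub, map_one, map_mul, AlgHom.commutes] at hunit'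
  have hzero : IsLocalRing.residue A (1 - algebraMap 𝒪 A c * φ x) = 0 := by
    rw [map_sub, map_one, map_mul, hc, inv_mul_cancel₀ hru, sub_self]
  rw [IsLocalRing.residue_eq_zero_iff, mem_maximalIdeal, mem_nonunits_iff] at hzero
  exact hzero hunit'

theorem algHom_ext_of_X (A : Type) [CommRing A] [IsLocalRing A] [Algebra 𝒪 A]
    [IsArtinianRing A] (hres : Function.Surjective (IsLocalRing.residue A ∘ algebraMap 𝒪 A))
    (φ ψ : MvPowerSeries σ 𝒪 →ₐ[𝒪] A)
    (h : ∀ i, φ (MvPowerSeries.X i) = ψ (MvPowerSeries.X i)) : φ = ψ := by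
  obtain ⟨n, hn⟩ : ∃ n : ℕ, maximalIdeal A ^ n = ⊥ := by
    have h := IsArtinianRing.isNilpotent_jacobson_bot (R := A)
    rw [IsLocalRing.jacobson_eq_maximalIdeal ⊥ bot_ne_top] at h
    exact h
  -- both maps kill the `n`-th power of the ideal of variables
  have hkill : ∀ (χ : MvPowerSeries σ 𝒪 →ₐ[𝒪] A) (f : MvPowerSeries σ 𝒪),
      f ∈ (Ideal.span (Set.range (MvPowerSeries.X : σ → MvPowerSeries σ 𝒪))) ^ n → χ f = 0 := by
    intro χ f hf
    have h1 : (Ideal.span (Set.range (MvPowerSeries.X : σ → MvPowerSeries σ 𝒪))).map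
        (χ : MvPowerSeries σ 𝒪 →+* A) ≤ maximalIdeal A := by
      rw [Ideal.map_span, Ideal.span_le]
      rintro _ ⟨_, ⟨i, rfl⟩, rfl⟩
      exact algHom_map_maximalIdeal_le 𝒪 σ A hres χ _ (X_mem_maximalIdeal 𝒪 σ i)
    have h3 := Ideal.mem_map_of_mem (χ : MvPowerSeries σ 𝒪 →+* A) hf
    rw [Ideal.map_pow] at h3
    have h2 : χ f ∈ maximalIdeal A ^ n := Ideal.pow_right_mono h1 n h3
    rw [hn] at h2
    simpa using h2
  -- the maps agree on polynomials
  have hpoly : φ.comp (MvPolynomial.coeToMvPowerSeries.algHom 𝒪) =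
      ψ.comp (MvPolynomial.coeToMvPowerSeries.algHom 𝒪) := by
    apply MvPolynomial.algHom_ext
    intro i
    simp [h i]
  ext f
  have hf : f - ((MvPowerSeries.truncTotal n f : MvPolynomial σ 𝒪) : MvPowerSeries σ 𝒪) ∈
      (Ideal.span (Set.range (MvPowerSeries.X : σ → MvPowerSeries σ 𝒪))) ^ n := by
    apply mem_pow_span_X_of_coeff_eq_zero
    intro x hx
    rw [map_sub, MvPolynomial.coeff_coe, MvPowerSeries.coeff_truncTotal _ hx, sub_self]
  have e1 := hkill φ _ hf
  have e2 := hkill ψ _ hf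
  rw [map_sub, sub_eq_zero] at e1 e2
  rw [e1, e2]
  exact DFunLike.congr_fun hpoly (MvPowerSeries.truncTotal n f)

end Box


/-- The power series ring in finitely many variables over `𝒪` is a "box" through which every
family of elements of the maximal ideal of an Artinian test algebra factors uniquely. -/
theorem powerSeriesBox (𝒪 : Type) [CommRing 𝒪] [IsDomain 𝒪] [IsDiscreteValuationRing 𝒪]
    [IsAdicComplete (IsLocalRing.maximalIdeal 𝒪) 𝒪] [Finite (IsLocalRing.ResidueField 𝒪)]
    (σ : Type) [Finite σ] :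
    ∃ (P : Type) (_ : CommRing P) (_ : IsLocalRing P) (_ : IsNoetherianRing P)
      (_ : IsAdicComplete (IsLocalRing.maximalIdeal P) P) (_ : Algebra 𝒪 P)
      (_ : IsLocalHom (algebraMap 𝒪 P)),
      Function.Surjective (IsLocalRing.residue P ∘ algebraMap 𝒪 P) ∧
      ∃ T : σ → P, (∀ i, T i ∈ IsLocalRing.maximalIdeal P) ∧
        (∀ (A : Type) [CommRing A] [IsLocalRing A] [Algebra 𝒪 A],
          GaloisRep.IsArtinianTestAlgebra 𝒪 A → ∀ a : σ → A,
          (∀ i, a i ∈ IsLocalRing.maximalIdeal A) → ∃ φ : P →ₐ[𝒪] A, ∀ i, φ (T i) = a i) ∧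
        (∀ (A : Type) [CommRing A] [IsLocalRing A] [Algebra 𝒪 A],
          GaloisRep.IsArtinianTestAlgebra 𝒪 A → ∀ φ ψ : P →ₐ[𝒪] A,
          (∀ i, φ (T i) = ψ (T i)) → φ = ψ) := by
  refine ⟨MvPowerSeries σ 𝒪, inferInstance, inferInstance, inferInstance,
    Fermat.Agent.S53.H93.isAdicComplete_maximalIdeal_mvPowerSeries σ 𝒪, inferInstance,
    isLocalHom_algebraMap_mvPowerSeries 𝒪 σ, residue_algebraMap_surjective 𝒪 σ,
    MvPowerSeries.X, X_mem_maximalIdeal 𝒪 σ, ?_, ?_⟩
  · intro A _ _ _ hA a ha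
    have := hA.isArtinian
    exact exists_algHom_of_mem_maximalIdeal 𝒪 σ A a ha
  · intro A _ _ _ hA φ ψ h
    have := hA.isArtinian
    exact algHom_ext_of_X 𝒪 σ A hA.residue_surjective φ ψ h

end Fermat.Agent.S53.H2
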