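import Mathlib

set_option autoImplicit false

namespace Fermat.Agent.S53.H57

open IsLocalRing

variable {R : Type*} [CommRing R] [IsLocalRing R] [IsNoetherianRing R]

/-- Ideals of a noetherian local ring are closed for the adic topology of the maximal ideal. -/
theorem iInf_sup_pow_eq (J : Ideal R) : ⨅ j : ℕ, J ⊔ maximalIdeal R ^ j = J := by
  by_cases hJ : J = ⊤
  · simp [hJ]
  apply le_antisymm _ (le_iInf fun j => le_sup_left)
  have : Nontrivial (R ⧸ J) := Ideal.Quotient.nontrivial_iff.mpr hJ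
  have : IsLocalRing (R ⧸ J) :=
    IsLocalRing.of_surjective' (Ideal.Quotient.mk J) Ideal.Quotient.mk_surjective
  have : IsNoetherianRing (R ⧸ J) :=
    isNoetherianRing_of_surjective R _ (Ideal.Quotient.mk J) Ideal.Quotient.mk_surjective
  have hmax : (maximalIdeal R).map (Ideal.Quotient.mk J) = maximalIdeal (R ⧸ J) :=
    map_maximalIdeal_of_surjective _ Ideal.Quotient.mk_surjective
  have hK : ⨅ j : ℕ, maximalIdeal (R ⧸ J) ^ j = ⊥ :=
    Ideal.iInf_pow_eq_bot_of_isLocalRing _ (maximalIdeal.isMaximal _).ne_top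
  intro x hx
  rw [← Ideal.Quotient.eq_zero_iff_mem, ← Ideal.mem_bot, ← hK, Ideal.mem_iInf]
  intro j
  rw [Ideal.mem_iInf] at hx
  obtain ⟨a, ha, b, hb, rfl⟩ := Submodule.mem_sup.mp (hx j)
  rw [map_add, Ideal.Quotient.eq_zero_iff_mem.mpr ha, zero_add, ← hmax, ← Ideal.map_pow]
  exact Ideal.mem_map_of_mem _ hb

/-- the quotient of a noetherian local ring by a power of the maximal ideal is artinian -/
theorem isArtinianRing_quotient_pow (j : ℕ) : IsArtinianRing (R ⧸ maximalIdeal R ^ j) := by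
  by_cases hj : maximalIdeal R ^ j = ⊤
  · have : Subsingleton (R ⧸ maximalIdeal R ^ j) := Ideal.Quotient.subsingleton_iff.mpr hj
    infer_instance
  have : Nontrivial (R ⧸ maximalIdeal R ^ j) := Ideal.Quotient.nontrivial_iff.mpr hj
  have : IsLocalRing (R ⧸ maximalIdeal R ^ j) :=
    IsLocalRing.of_surjective' (Ideal.Quotient.mk _) Ideal.Quotient.mk_surjective
  have : IsNoetherianRing (R ⧸ maximalIdeal R ^ j) :=
    isNoetherianRing_of_surjective R _ (Ideal.Quotient.mk _) Ideal.Quotient.mk_surjective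
  rw [isArtinianRing_iff_isNilpotent_maximalIdeal]
  refine ⟨j, ?_⟩
  rw [← map_maximalIdeal_of_surjective (Ideal.Quotient.mk (maximalIdeal R ^ j))
    Ideal.Quotient.mk_surjective, ← Ideal.map_pow, Ideal.zero_eq_bot,
    Ideal.map_eq_bot_iff_le_ker, Ideal.mk_ker]

/-- a decreasing sequence of ideals is stationary modulo any power of the maximal ideal -/
theorem exists_stable (J : ℕ → Ideal R) (hJ : Antitone J) (j : ℕ) :
    ∃ N, ∀ n, N ≤ n → J n ⊔ maximalIdeal R ^ j = J N ⊔ maximalIdeal R ^ j := by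
  have hart : IsArtinianRing (R ⧸ maximalIdeal R ^ j) := isArtinianRing_quotient_pow j
  let f : ℕ →o (Ideal (R ⧸ maximalIdeal R ^ j))ᵒᵈ :=
    ⟨fun n => OrderDual.toDual ((J n).map (Ideal.Quotient.mk (maximalIdeal R ^ j))),
      fun a b hab => Ideal.map_mono (hJ hab)⟩
  obtain ⟨N, hN⟩ := IsArtinian.monotone_stabilizes f
  refine ⟨N, fun n hn => ?_⟩
  have h1 : (J N).map (Ideal.Quotient.mk (maximalIdeal R ^ j)) =
      (J n).map (Ideal.Quotient.mk (maximalIdeal R ^ j)) := hN n hn
  have h2 := congrArg (Ideal.comap (Ideal.Quotient.mk (maximalIdeal R ^ j))) h1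
  rw [Ideal.comap_map_of_surjective _ Ideal.Quotient.mk_surjective,
    Ideal.comap_map_of_surjective _ Ideal.Quotient.mk_surjective,
    ← RingHom.ker_eq_comap_bot, Ideal.mk_ker] at h2
  exact h2.symm

/-- **Chevalley's lemma.** In a complete noetherian local ring, a decreasing sequence of ideals
with zero intersection is cofinal with the powers of the maximal ideal. -/
theorem chevalley [IsAdicComplete (maximalIdeal R) R] (J : ℕ → Ideal R) (hJ : Antitone J)
    (hbot : ⨅ n, J n = ⊥) (k : ℕ) : ∃ n, J n ≤ maximalIdeal R ^ k := by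
  by_contra! hcon
  choose N hN using fun j => exists_stable J hJ j
  let n : ℕ → ℕ := fun j => j + ∑ i ∈ Finset.range (j + 1), N i
  have hn_mono : Monotone n := by
    intro a b hab
    exact Nat.add_le_add hab (Finset.sum_le_sum_of_subset
      (Finset.range_subset_range.mpr (Nat.succ_le_succ hab)))
  have hn_ge : ∀ j, j ≤ n j := fun j => Nat.le_add_right _ _
  have hn_N : ∀ j, N j ≤ n j := fun j =>
    le_trans (Finset.single_le_sum (f := N) (fun _ _ => Nat.zero_le _)
      (Finset.mem_range.mpr (Nat.lt_succ_self j))) (Nat.le_add_left _ _)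
  have hstab : ∀ j, J (n j) ⊔ maximalIdeal R ^ j = J (n (j + 1)) ⊔ maximalIdeal R ^ j := by
    intro j
    rw [hN j (n j) (hn_N j), hN j (n (j + 1)) (le_trans (hn_N j) (hn_mono (Nat.le_succ j)))]
  have step : ∀ j (a : R), a ∈ J (n j) → ∃ b ∈ J (n (j + 1)), a - b ∈ maximalIdeal R ^ j := by
    intro j a ha
    have h1 : a ∈ J (n (j + 1)) ⊔ maximalIdeal R ^ j := hstab j ▸ Ideal.mem_sup_left ha
    obtain ⟨b, hb, c, hc, rfl⟩ := Submodule.mem_sup.mp h1
    exact ⟨b, hb, by simpa using hc⟩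
  obtain ⟨a0, ha0, ha0'⟩ := SetLike.not_le_iff_exists.mp (hcon (n k))
  -- the sequence
  let y : (i : ℕ) → {a : R // a ∈ J (n (k + i))} := fun i =>
    Nat.rec (motive := fun i => {a : R // a ∈ J (n (k + i))}) ⟨a0, ha0⟩
      (fun i yi => ⟨(step (k + i) yi.1 yi.2).choose, (step (k + i) yi.1 yi.2).choose_spec.1⟩) i
  have hy0 : (y 0).1 = a0 := rfl
  have hy_succ : ∀ i, (y i).1 - (y (i + 1)).1 ∈ maximalIdeal R ^ (k + i) := fun i =>
    (step (k + i) (y i).1 (y i).2).choose_spec.2
  have hy_le : ∀ i d, (y i).1 - (y (i + d)).1 ∈ maximalIdeal R ^ (k + i) := by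
    intro i d
    induction d with
    | zero => simp
    | succ d ih =>
      change (y i).1 - (y (i + d + 1)).1 ∈ maximalIdeal R ^ (k + i)
      have h1 : (y i).1 - (y (i + d + 1)).1 =
          ((y i).1 - (y (i + d)).1) + ((y (i + d)).1 - (y (i + d + 1)).1) := by ring
      rw [h1]
      exact Ideal.add_mem _ ih
        (Ideal.pow_le_pow_right (by omega) (hy_succ (i + d)))
  -- limit
  obtain ⟨L, hL⟩ := IsPrecomplete.prec (I := maximalIdeal R) (M := R) inferInstance
    (f := fun i => (y i).1) (by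
      intro a b hab
      obtain ⟨d, rfl⟩ := Nat.exists_eq_add_of_le hab
      rw [SModEq.sub_mem, smul_eq_mul, Ideal.mul_top]
      exact Ideal.pow_le_pow_right (Nat.le_add_left _ _) (hy_le a d))
  have hL' : ∀ i, (y i).1 - L ∈ maximalIdeal R ^ i := by
    intro i
    have := hL i
    rwa [SModEq.sub_mem, smul_eq_mul, Ideal.mul_top] at this
  -- L - y i ∈ m^(k+i)
  have hL2 : ∀ i, (y i).1 - L ∈ maximalIdeal R ^ (k + i) := by
    intro i
    have h1 : (y i).1 - L = ((y i).1 - (y (i + (k + i))).1) + ((y (i + (k + i))).1 - L) := by ring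
    rw [h1]
    exact Ideal.add_mem _ (hy_le i (k + i))
      (Ideal.pow_le_pow_right (by omega) (hL' (i + (k + i))))
  -- L lies in every J (n (k + i))
  have hLJ : ∀ i, L ∈ J (n (k + i)) := by
    intro i
    rw [← iInf_sup_pow_eq (J (n (k + i))), Ideal.mem_iInf]
    intro j
    have h1 : L = (y (i + j)).1 - ((y (i + j)).1 - L) := by ring
    rw [h1]
    refine Ideal.sub_mem _ (Ideal.mem_sup_left ?_) (Ideal.mem_sup_right ?_)
    · exact hJ (hn_mono (by omega)) (y (i + j)).2
    · exact Ideal.pow_le_pow_right (by omega) (hL' (i + j))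
  have hL0 : L = 0 := by
    rw [← Ideal.mem_bot, ← hbot, Ideal.mem_iInf]
    intro m
    exact hJ (le_trans (Nat.le_add_left m k) (hn_ge (k + m))) (hLJ m)
  apply ha0'
  have h2 := hL2 0
  rwa [hL0, sub_zero, hy0, add_zero] at h2

end Fermat.Agent.S53.H57
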