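import Mathlib
import Fermat.Prelude.Def_GaloisRep_DeformationCondition
import Fermat.Agent.S53.H57_Chevalley

/-!
S53, package CA5 (helper57): "Artinian-universal ⇒ complete-universal".

If `(R, u)` represents a functor `F` on Artinian test algebras, then it also represents the
pro-extension of `F` on complete noetherian local `𝒪`-algebras with residue field that of `𝒪`.
-/

set_option autoImplicit false

namespace Fermat.Agent.S53.H57

open IsLocalRing

section quot

variable {A : Type*} [CommRing A] [IsLocalRing A]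

theorem maximalIdeal_pow_succ_ne_top (N : ℕ) : maximalIdeal A ^ (N + 1) ≠ ⊤ := by
  intro h
  have h1 : maximalIdeal A ^ (N + 1) ≤ maximalIdeal A := Ideal.pow_le_self (Nat.succ_ne_zero N)
  rw [h] at h1
  exact (maximalIdeal.isMaximal A).ne_top (top_le_iff.mp h1)

theorem nontrivial_quot_pow_succ (N : ℕ) : Nontrivial (A ⧸ maximalIdeal A ^ (N + 1)) :=
  Ideal.Quotient.nontrivial_iff.mpr (maximalIdeal_pow_succ_ne_top N)

theorem isLocalRing_quot_pow_succ (N : ℕ) : IsLocalRing (A ⧸ maximalIdeal A ^ (N + 1)) :=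
  have := nontrivial_quot_pow_succ (A := A) N
  IsLocalRing.of_surjective' (Ideal.Quotient.mk _) Ideal.Quotient.mk_surjective

attribute [local instance] isLocalRing_quot_pow_succ nontrivial_quot_pow_succ

theorem isLocalHom_mk_pow_succ (N : ℕ) :
    IsLocalHom (Ideal.Quotient.mk (maximalIdeal A ^ (N + 1))) :=
  IsLocalHom.of_surjective _ Ideal.Quotient.mk_surjective

/-- Two elements of a noetherian local ring agreeing modulo all powers of the maximal ideal are
equal. -/
theorem eq_of_forall_mk_pow_succ_eq [IsNoetherianRing A] {a b : A}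
    (h : ∀ N : ℕ, Ideal.Quotient.mk (maximalIdeal A ^ (N + 1)) a =
      Ideal.Quotient.mk (maximalIdeal A ^ (N + 1)) b) : a = b := by
  have hK : ⨅ j : ℕ, maximalIdeal A ^ j = ⊥ :=
    Ideal.iInf_pow_eq_bot_of_isLocalRing _ (maximalIdeal.isMaximal _).ne_top
  rw [← sub_eq_zero, ← Ideal.mem_bot, ← hK, Ideal.mem_iInf]
  intro j
  have h1 : a - b ∈ maximalIdeal A ^ (j + 1) := by
    rw [← Ideal.Quotient.eq]
    exact h j
  exact Ideal.pow_le_pow_right (Nat.le_succ j) h1

end quot

theorem isLocalHom_algHom_iff {𝒪 R B : Type*} [CommSemiring 𝒪] [Semiring R] [Semiring B]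
    [Algebra 𝒪 R] [Algebra 𝒪 B] (ψ : R →ₐ[𝒪] B) :
    IsLocalHom (ψ : R →+* B) ↔ ∀ r, IsUnit (ψ r) → IsUnit r :=
  ⟨fun h r hr => h.map_nonunit r hr, fun h => ⟨h⟩⟩

section test

variable (𝒪 : Type) [CommRing 𝒪]
  (A : Type) [CommRing A] [IsLocalRing A] [IsNoetherianRing A] [Algebra 𝒪 A]

attribute [local instance] isLocalRing_quot_pow_succ nontrivial_quot_pow_succ

/-- The truncations `A ⧸ 𝔪^(N+1)` of a noetherian local `𝒪`-algebra are Artinian test
algebras. -/
theorem isArtinianTestAlgebra_quot_pow_succ [IsLocalRing 𝒪] [IsLocalHom (algebraMap 𝒪 A)]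
    (hres : Function.Surjective (residue A ∘ algebraMap 𝒪 A)) (N : ℕ) :
    GaloisRep.IsArtinianTestAlgebra 𝒪 (A ⧸ maximalIdeal A ^ (N + 1)) where
  isLocalHom := by
    have := isLocalHom_mk_pow_succ (A := A) N
    refine ⟨fun o ho => ?_⟩
    have h1 : algebraMap 𝒪 (A ⧸ maximalIdeal A ^ (N + 1)) o =
        Ideal.Quotient.mk (maximalIdeal A ^ (N + 1)) (algebraMap 𝒪 A o) := rfl
    rw [h1] at ho
    exact IsLocalHom.map_nonunit (f := algebraMap 𝒪 A) o
      (IsLocalHom.map_nonunit (f := Ideal.Quotient.mk (maximalIdeal A ^ (N + 1))) _ ho)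
  residue_surjective := by
    have := isLocalHom_mk_pow_succ (A := A) N
    intro y
    obtain ⟨b, rfl⟩ := residue_surjective y
    obtain ⟨a, rfl⟩ := Ideal.Quotient.mk_surjective b
    obtain ⟨o, ho⟩ := hres (residue A a)
    refine ⟨o, ?_⟩
    change residue _ (Ideal.Quotient.mk (maximalIdeal A ^ (N + 1)) (algebraMap 𝒪 A o)) =
      residue _ (Ideal.Quotient.mk (maximalIdeal A ^ (N + 1)) a)
    have h2 : algebraMap 𝒪 A o - a ∈ maximalIdeal A := by
      have : residue A (algebraMap 𝒪 A o) = residue A a := ho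
      rw [← sub_eq_zero, ← map_sub, residue_eq_zero_iff] at this
      exact this
    rw [← sub_eq_zero, ← map_sub, ← map_sub, residue_eq_zero_iff]
    rw [mem_maximalIdeal, mem_nonunits_iff] at h2 ⊢
    exact fun hu => h2 (IsLocalHom.map_nonunit
      (f := Ideal.Quotient.mk (maximalIdeal A ^ (N + 1))) _ hu)
  isArtinian := isArtinianRing_quotient_pow (N + 1)

end test

section main

attribute [local instance] isLocalRing_quot_pow_succ nontrivial_quot_pow_succ

/-- **Artinian-universal ⇒ complete-universal.** -/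
theorem completeUniversal_of_artinianUniversal
    (𝒪 : Type) [CommRing 𝒪] [IsLocalRing 𝒪]
    (R : Type) [CommRing R] [Algebra 𝒪 R]
    (X : Type) (u : X → R)
    (F : ∀ ⦃A : Type⦄ [CommRing A] [IsLocalRing A] [Algebra 𝒪 A], (X → A) → Prop)
    (hArt : ∀ (B : Type) [CommRing B] [IsLocalRing B] [Algebra 𝒪 B],
      GaloisRep.IsArtinianTestAlgebra 𝒪 B → ∀ w : X → B, F w →
        ∃! ψ : R →ₐ[𝒪] B, IsLocalHom (ψ : R →+* B) ∧ ⇑ψ ∘ u = w)
    (A : Type) [CommRing A] [IsLocalRing A] [IsNoetherianRing A]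
    [IsAdicComplete (maximalIdeal A) A] [Algebra 𝒪 A] [IsLocalHom (algebraMap 𝒪 A)]
    (hres : Function.Surjective (residue A ∘ algebraMap 𝒪 A))
    (v : X → A)
    (hv : ∀ ⦃B : Type⦄ [CommRing B] [IsLocalRing B] [Algebra 𝒪 B],
      GaloisRep.IsArtinianTestAlgebra 𝒪 B → ∀ q : A →ₐ[𝒪] B, IsLocalHom (q : A →+* B) →
        Function.Surjective q → F (⇑q ∘ v)) :
    ∃! φ : R →ₐ[𝒪] A, IsLocalHom (φ : R →+* A) ∧ ⇑φ ∘ u = v := by
  have htest : ∀ N : ℕ, GaloisRep.IsArtinianTestAlgebra 𝒪 (A ⧸ maximalIdeal A ^ (N + 1)) :=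
    isArtinianTestAlgebra_quot_pow_succ 𝒪 A hres
  -- the truncation maps
  have hqloc : ∀ N : ℕ, IsLocalHom
      ((Ideal.Quotient.mkₐ 𝒪 (maximalIdeal A ^ (N + 1)) :
        A →ₐ[𝒪] A ⧸ maximalIdeal A ^ (N + 1)) : A →+* A ⧸ maximalIdeal A ^ (N + 1)) := fun N =>
    isLocalHom_mk_pow_succ (A := A) N
  have hFq : ∀ N : ℕ, F (⇑(Ideal.Quotient.mkₐ 𝒪 (maximalIdeal A ^ (N + 1))) ∘ v) := fun N =>
    hv (htest N) _ (hqloc N) (Ideal.Quotient.mkₐ_surjective _ _)
  have hEU := fun N : ℕ => hArt _ (htest N) _ (hFq N)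
  choose ψ hψ using fun N : ℕ => (hEU N).exists
  -- compatibility of the `ψ N`
  have hcompat : ∀ {M N : ℕ} (hMN : M ≤ N),
      (Ideal.Quotient.factorₐ 𝒪 (Ideal.pow_le_pow_right (I := maximalIdeal A)
        (Nat.succ_le_succ hMN))).comp (ψ N) = ψ M := by
    intro M N hMN
    refine (hEU M).unique ⟨?_, ?_⟩ (hψ M)
    · rw [isLocalHom_algHom_iff]
      intro r hr
      refine (isLocalHom_algHom_iff (ψ N)).mp (hψ N).1 r ?_
      have : IsLocalHom (Ideal.Quotient.factor (Ideal.pow_le_pow_right (I := maximalIdeal A)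
          (Nat.succ_le_succ hMN))) :=
        IsLocalHom.of_surjective _ (Ideal.Quotient.factor_surjective _)
      exact IsLocalHom.map_nonunit (f := Ideal.Quotient.factor (Ideal.pow_le_pow_right
        (I := maximalIdeal A) (Nat.succ_le_succ hMN))) _ hr
    · funext x
      have h1 := congrFun (hψ N).2 x
      simp only [Function.comp_apply] at h1 ⊢
      rw [AlgHom.comp_apply, h1]
      rfl
  -- the compatible family indexed by all of `ℕ`
  let f : ∀ n : ℕ, R →ₐ[𝒪] A ⧸ maximalIdeal A ^ n := fun n =>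
    (Ideal.Quotient.factorₐ 𝒪 (Ideal.pow_le_pow_right (I := maximalIdeal A)
      (Nat.le_succ n))).comp (ψ n)
  have hf : ∀ {a b : ℕ} (hle : a ≤ b),
      (Ideal.Quotient.factorₐ 𝒪 (Ideal.pow_le_pow_right (I := maximalIdeal A) hle)).comp (f b) =
        f a := by
    intro a b hle
    ext x
    simp only [f, AlgHom.comp_apply]
    rw [← hcompat hle, AlgHom.comp_apply]
    obtain ⟨y, hy⟩ := Ideal.Quotient.mk_surjective (ψ b x)
    rw [← hy]
    rfl
  let φ : R →ₐ[𝒪] A := IsAdicComplete.liftAlgHom (maximalIdeal A) f hf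
  have key : ∀ (N : ℕ) (x : R),
      Ideal.Quotient.mk (maximalIdeal A ^ (N + 1)) (φ x) = ψ N x := by
    intro N x
    have h1 : Ideal.Quotient.mk (maximalIdeal A ^ (N + 1)) (φ x) = f (N + 1) x :=
      IsAdicComplete.mk_liftAlgHom (maximalIdeal A) f hf (N + 1) x
    rw [h1, ← hcompat (Nat.le_succ N)]
  refine ⟨φ, ⟨?_, ?_⟩, ?_⟩
  · rw [isLocalHom_algHom_iff]
    intro r hr
    refine (isLocalHom_algHom_iff (ψ 0)).mp (hψ 0).1 r ?_
    rw [← key 0 r]
    exact hr.map _
  · funext x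
    refine eq_of_forall_mk_pow_succ_eq fun N => ?_
    rw [Function.comp_apply, key]
    exact congrFun (hψ N).2 x
  · rintro φ' ⟨hφ'loc, hφ'u⟩
    ext x
    refine eq_of_forall_mk_pow_succ_eq fun N => ?_
    rw [key]
    have h1 : (Ideal.Quotient.mkₐ 𝒪 (maximalIdeal A ^ (N + 1))).comp φ' = ψ N := by
      refine (hEU N).unique ⟨?_, ?_⟩ (hψ N)
      · rw [isLocalHom_algHom_iff]
        intro r hr
        refine (isLocalHom_algHom_iff φ').mp hφ'loc r ?_
        have := isLocalHom_mk_pow_succ (A := A) N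
        exact IsLocalHom.map_nonunit (f := Ideal.Quotient.mk (maximalIdeal A ^ (N + 1))) _ hr
      · funext x
        have h2 := congrFun hφ'u x
        simp only [Function.comp_apply] at h2 ⊢
        rw [AlgHom.comp_apply, h2]
    rw [← h1]
    rfl

end main

end Fermat.Agent.S53.H57
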