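import Mathlib

set_option autoImplicit false
set_option linter.style.haveILetI false
set_option linter.unusedSectionVars false

open IsLocalRing

namespace Fermat.Agent.S53.H68

variable {P : Type} [CommRing P] [IsLocalRing P] [IsNoetherianRing P]

/-- ideals are closed (Krull) -/
theorem mem_of_forall_mem_sup_pow (𝔞 : Ideal P) (b : P)
    (h : ∀ M : ℕ, b ∈ 𝔞 ⊔ maximalIdeal P ^ M) : b ∈ 𝔞 := by
  haveI : IsHausdorff (maximalIdeal P) (P ⧸ 𝔞) := inferInstance
  rw [← Ideal.Quotient.eq_zero_iff_mem]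
  apply IsHausdorff.haus ‹IsHausdorff (maximalIdeal P) (P ⧸ 𝔞)›
  intro M
  rw [SModEq.zero]
  obtain ⟨a, ha, y, hy, rfl⟩ := Submodule.mem_sup.mp (h M)
  have e : Ideal.Quotient.mk 𝔞 (a + y) = y • (Ideal.Quotient.mk 𝔞 1) := by
    rw [map_add, Ideal.Quotient.eq_zero_iff_mem.mpr ha, zero_add]
    rw [Algebra.smul_def, map_one, mul_one]
    rfl
  rw [e]
  exact Submodule.smul_mem_smul hy Submodule.mem_top

variable [Finite (ResidueField P)]

theorem exists_stable (𝔞 : ℕ → Ideal P) (hanti : Antitone 𝔞) (M : ℕ) :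
    ∃ n0, ∀ n, n0 ≤ n → 𝔞 n ⊔ maximalIdeal P ^ M = 𝔞 n0 ⊔ maximalIdeal P ^ M := by
  haveI : Finite (P ⧸ maximalIdeal P ^ M) := by
    haveI : Finite (P ⧸ maximalIdeal P) := ‹Finite (ResidueField P)›
    exact Ideal.finite_quotient_pow (IsNoetherian.noetherian _) M
  haveI : IsArtinian P (P ⧸ maximalIdeal P ^ M) := isArtinian_of_finite
  let f : ℕ →o (Submodule P (P ⧸ maximalIdeal P ^ M))ᵒᵈ :=
    ⟨fun n => OrderDual.toDual (Submodule.map (maximalIdeal P ^ M).mkQ (𝔞 n)), fun m n hmn => by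
      change Submodule.map _ (𝔞 n) ≤ Submodule.map _ (𝔞 m)
      exact Submodule.map_mono (hanti hmn)⟩
  obtain ⟨n0, hn0⟩ := IsArtinian.monotone_stabilizes f
  refine ⟨n0, fun n hn => ?_⟩
  have h1 : Submodule.map (maximalIdeal P ^ M).mkQ (𝔞 n0) =
      Submodule.map (maximalIdeal P ^ M).mkQ (𝔞 n) := hn0 n hn
  have h2 := congrArg (Submodule.comap (maximalIdeal P ^ M).mkQ) h1
  rw [Submodule.comap_map_mkQ, Submodule.comap_map_mkQ] at h2
  rw [sup_comm, ← h2, sup_comm]


theorem chevalley [IsAdicComplete (maximalIdeal P) P] (𝔞 : ℕ → Ideal P) (hanti : Antitone 𝔞)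
    (N : ℕ) : ∃ n, 𝔞 n ≤ (⨅ i, 𝔞 i) ⊔ maximalIdeal P ^ N := by
  by_contra hcon
  push Not at hcon
  choose n0 hn0 using exists_stable 𝔞 hanti
  set 𝔠 : ℕ → Ideal P := fun M => 𝔞 (n0 M) ⊔ maximalIdeal P ^ M with h𝔠
  have h𝔠le : ∀ M n, 𝔠 M ≤ 𝔞 n ⊔ maximalIdeal P ^ M := by
    intro M n
    have := hn0 M (max n (n0 M)) (le_max_right _ _)
    rw [h𝔠]
    dsimp only
    rw [← this]
    exact sup_le_sup_right (hanti (le_max_left _ _)) _
  have hstep : ∀ M, ∀ b ∈ 𝔠 M, ∃ b' ∈ 𝔠 (M + 1), b - b' ∈ maximalIdeal P ^ M := by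
    intro M b hb
    have hb' := h𝔠le M (n0 (M + 1)) hb
    obtain ⟨a, ha, y, hy, rfl⟩ := Submodule.mem_sup.mp hb'
    exact ⟨a, Submodule.mem_sup_left ha, by simpa using hy⟩
  obtain ⟨b0, hb0, hb0'⟩ := SetLike.not_le_iff_exists.mp (hcon (n0 N))
  classical
  let g : ℕ → P → P := fun M b => if h : b ∈ 𝔠 M then Classical.choose (hstep M b h) else 0
  have hg : ∀ M b, b ∈ 𝔠 M → g M b ∈ 𝔠 (M + 1) ∧ b - g M b ∈ maximalIdeal P ^ M := by
    intro M b hb
    have : g M b = Classical.choose (hstep M b hb) := dif_pos hb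
    rw [this]
    exact Classical.choose_spec (hstep M b hb)
  let seq : ℕ → P := fun k => Nat.rec b0 (fun k b => g (N + k) b) k
  have hseq0 : seq 0 = b0 := rfl
  have hseqS : ∀ k, seq (k + 1) = g (N + k) (seq k) := fun k => rfl
  have hseqmem : ∀ k, seq k ∈ 𝔠 (N + k) := by
    intro k
    induction k with
    | zero => exact Submodule.mem_sup_left hb0
    | succ k ih => rw [hseqS]; exact (hg _ _ ih).1
  have hseqs : ∀ k, seq k - seq (k + 1) ∈ maximalIdeal P ^ (N + k) := fun k => by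
    rw [hseqS]; exact (hg _ _ (hseqmem k)).2
  have hseqj : ∀ k j, seq k - seq (k + j) ∈ maximalIdeal P ^ (N + k) := by
    intro k j
    induction j with
    | zero => simp
    | succ j ih =>
      have h1 := hseqs (k + j)
      have h2 : maximalIdeal P ^ (N + (k + j)) ≤ maximalIdeal P ^ (N + k) :=
        Ideal.pow_le_pow_right (by omega)
      have e : seq k - seq (k + (j + 1)) =
          (seq k - seq (k + j)) + (seq (k + j) - seq (k + j + 1)) := by
        rw [← add_assoc]; ring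
      rw [e]
      exact Ideal.add_mem _ ih (h2 h1)
  let f : ℕ → P := fun m => seq (m - N)
  have hcauchy : ∀ {m n}, m ≤ n →
      f m ≡ f n [SMOD (maximalIdeal P ^ m • ⊤ : Submodule P P)] := by
    intro m n hmn
    rw [SModEq.sub_mem, smul_eq_mul, Ideal.mul_top]
    have h1 := hseqj (m - N) ((n - N) - (m - N))
    have e : m - N + (n - N - (m - N)) = n - N := by omega
    rw [e] at h1
    have h2 : maximalIdeal P ^ (N + (m - N)) ≤ maximalIdeal P ^ m :=
      Ideal.pow_le_pow_right (by omega)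
    exact h2 h1
  obtain ⟨L, hL⟩ := IsPrecomplete.prec (inferInstance : IsPrecomplete (maximalIdeal P) P) hcauchy
  have hL' : ∀ n, f n - L ∈ maximalIdeal P ^ n := by
    intro n
    have := hL n
    rwa [SModEq.sub_mem, smul_eq_mul, Ideal.mul_top] at this
  have hLmem : L ∈ ⨅ i, 𝔞 i := by
    rw [Ideal.mem_iInf]
    intro n
    apply mem_of_forall_mem_sup_pow
    intro M
    have h1 : f (max M N) ∈ 𝔠 (max M N) := by
      have := hseqmem (max M N - N)
      have e : N + (max M N - N) = max M N := by omega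
      rwa [e] at this
    have h2 := h𝔠le _ n h1
    have h3 := hL' (max M N)
    have h4 : maximalIdeal P ^ (max M N) ≤ maximalIdeal P ^ M :=
      Ideal.pow_le_pow_right (le_max_left _ _)
    have e : L = f (max M N) - (f (max M N) - L) := by ring
    rw [e]
    refine Ideal.sub_mem _ (sup_le_sup_left h4 _ h2) (Submodule.mem_sup_right (h4 h3))
  apply hb0'
  have h5 := hL' N
  have e1 : f N = b0 := by
    change seq (N - N) = b0
    rw [Nat.sub_self, hseq0]
  rw [e1] at h5
  have e : b0 = L + (b0 - L) := by ring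
  rw [e]
  exact Ideal.add_mem _ (Submodule.mem_sup_left hLmem) (Submodule.mem_sup_right h5)

end Fermat.Agent.S53.H68
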