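import Mathlib
import Fermat.Prelude.Def_GaloisRep_DeformationCondition

set_option autoImplicit false
set_option linter.style.haveILetI false
set_option linter.unusedSectionVars false

open IsLocalRing GaloisRep

namespace Fermat.Agent.S53.H68

variable {𝒪 : Type} [CommRing 𝒪] [IsLocalRing 𝒪]

section basics

variable {A : Type} [CommRing A] [IsLocalRing A] [Algebra 𝒪 A]

theorem maximalIdeal_nilpotent (hA : IsArtinianTestAlgebra 𝒪 A) :
    ∃ n : ℕ, maximalIdeal A ^ n = ⊥ := by
  haveI := hA.isArtinian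
  obtain ⟨n, hn⟩ := (isArtinianRing_iff_isNilpotent_maximalIdeal A).mp inferInstance
  exact ⟨n, hn⟩

theorem mem_maximalIdeal_nilpotent (hA : IsArtinianTestAlgebra 𝒪 A) {a : A}
    (ha : a ∈ maximalIdeal A) : IsNilpotent a := by
  obtain ⟨n, hn⟩ := maximalIdeal_nilpotent hA
  refine ⟨n, ?_⟩
  have : a ^ n ∈ maximalIdeal A ^ n := Ideal.pow_mem_pow ha n
  rw [hn] at this
  simpa using this

theorem finite_residueField (hA : IsArtinianTestAlgebra 𝒪 A) [Finite (ResidueField 𝒪)] :
    Finite (ResidueField A) := by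
  haveI := hA.isLocalHom
  have hs : Function.Surjective (ResidueField.map (algebraMap 𝒪 A)) := by
    intro y
    obtain ⟨c, hc⟩ := hA.residue_surjective y
    exact ⟨residue 𝒪 c, by simpa using hc⟩
  exact Finite.of_surjective _ hs

theorem finite_of_test (hA : IsArtinianTestAlgebra 𝒪 A) [Finite (ResidueField 𝒪)] : Finite A := by
  haveI := hA.isArtinian
  haveI := finite_residueField hA
  obtain ⟨n, hn⟩ := maximalIdeal_nilpotent hA
  haveI : Finite (A ⧸ maximalIdeal A) := inferInstanceAs (Finite (ResidueField A))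
  have h := Ideal.finite_quotient_pow (IsNoetherian.noetherian (maximalIdeal A)) n
  rw [hn] at h
  exact Finite.of_equiv _ (RingEquiv.quotientBot A).toEquiv

/-- every element is congruent to a scalar mod the maximal ideal -/
theorem exists_sub_mem (hA : IsArtinianTestAlgebra 𝒪 A) (a : A) :
    ∃ c : 𝒪, a - algebraMap 𝒪 A c ∈ maximalIdeal A := by
  obtain ⟨c, hc⟩ := hA.residue_surjective (residue A a)
  refine ⟨c, ?_⟩
  rw [← Ideal.Quotient.eq_zero_iff_mem, map_sub]
  change residue A a - residue A (algebraMap 𝒪 A c) = 0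
  rw [sub_eq_zero]
  exact hc.symm

end basics

section homs

variable {A B : Type} [CommRing A] [IsLocalRing A] [Algebra 𝒪 A]
  [CommRing B] [IsLocalRing B] [Algebra 𝒪 B]

/-- algebra homs between Artinian test algebras are local. -/
theorem isLocalHom_of_test (hA : IsArtinianTestAlgebra 𝒪 A) (φ : A →ₐ[𝒪] B) :
    IsLocalHom (φ : A →+* B) := by
  constructor
  intro a ha
  by_contra hna
  have hmem : a ∈ maximalIdeal A := (mem_maximalIdeal a).mpr hna
  have hnil : IsNilpotent (φ a) := (mem_maximalIdeal_nilpotent hA hmem).map φ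
  exact hnil.not_isUnit (by simpa using ha)

/-- surjective image of an Artinian test algebra is an Artinian test algebra. -/
theorem test_of_surjective (hA : IsArtinianTestAlgebra 𝒪 A) (φ : A →ₐ[𝒪] B)
    (hφ : Function.Surjective φ) : IsArtinianTestAlgebra 𝒪 B := by
  haveI := hA.isArtinian
  haveI := hA.isLocalHom
  haveI := isLocalHom_of_test hA φ
  refine ⟨⟨?_⟩, ?_, ?_⟩
  · intro c hc
    have h1 : (algebraMap 𝒪 B) c = φ (algebraMap 𝒪 A c) := by simp
    rw [h1] at hc
    have h2 : IsUnit (algebraMap 𝒪 A c) := isUnit_of_map_unit (φ : A →+* B) _ (by simpa using hc)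
    exact isUnit_of_map_unit (algebraMap 𝒪 A) _ h2
  · intro y
    obtain ⟨b, rfl⟩ := residue_surjective y
    obtain ⟨a, rfl⟩ := hφ b
    obtain ⟨c, hc⟩ := exists_sub_mem hA a
    refine ⟨c, ?_⟩
    change residue B (algebraMap 𝒪 B c) = residue B (φ a)
    rw [eq_comm, ← sub_eq_zero, ← map_sub, residue_eq_zero_iff]
    have h1 : φ a - (algebraMap 𝒪 B) c = φ (a - algebraMap 𝒪 A c) := by simp
    rw [h1]
    exact map_nonunit (φ : A →+* B) _ hc
  · exact Function.Surjective.isArtinianRing (f := (φ : A →+* B)) hφ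

end homs

section injective

variable {A B : Type} [CommRing A] [Algebra 𝒪 A]
  [CommRing B] [IsLocalRing B] [Algebra 𝒪 B] [Finite (ResidueField 𝒪)]

theorem isUnit_iff_of_injective (hB : IsArtinianTestAlgebra 𝒪 B) (φ : A →ₐ[𝒪] B)
    (hφ : Function.Injective φ) (a : A) : IsUnit a ↔ IsUnit (φ a) := by
  refine ⟨fun h => h.map φ, fun h => ?_⟩
  haveI : Finite B := finite_of_test hB
  haveI : Finite A := Finite.of_injective _ hφ
  rw [isUnit_iff_mem_nonZeroDivisors_of_finite]
  rw [mem_nonZeroDivisors_iff_right]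
  intro x hx
  apply hφ
  have : φ x * φ a = 0 := by rw [← map_mul, hx, map_zero]
  rw [map_zero]
  exact (IsUnit.mul_left_eq_zero h).mp this

theorem isLocalRing_of_injective (hB : IsArtinianTestAlgebra 𝒪 B) (φ : A →ₐ[𝒪] B)
    (hφ : Function.Injective φ) : IsLocalRing A := by
  haveI : Nontrivial A := ⟨⟨0, 1, fun h => by
    have := congrArg φ h
    simp at this⟩⟩
  refine IsLocalRing.of_nonunits_add ?_
  intro a b ha hb
  simp only [mem_nonunits_iff] at *
  rw [isUnit_iff_of_injective hB φ hφ] at *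
  rw [map_add]
  have ha' : φ a ∈ maximalIdeal B := (mem_maximalIdeal _).mpr ha
  have hb' : φ b ∈ maximalIdeal B := (mem_maximalIdeal _).mpr hb
  exact (mem_maximalIdeal _).mp (Ideal.add_mem _ ha' hb')

theorem test_of_injective [IsLocalRing A] (hB : IsArtinianTestAlgebra 𝒪 B) (φ : A →ₐ[𝒪] B)
    (hφ : Function.Injective φ) : IsArtinianTestAlgebra 𝒪 A := by
  haveI : Finite B := finite_of_test hB
  haveI : Finite A := Finite.of_injective _ hφ
  haveI := hB.isLocalHom
  refine ⟨⟨?_⟩, ?_, ?_⟩
  · intro c hc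
    have h1 : IsUnit (φ (algebraMap 𝒪 A c)) := hc.map φ
    rw [AlgHom.commutes] at h1
    exact isUnit_of_map_unit (algebraMap 𝒪 B) _ h1
  · intro y
    obtain ⟨a, rfl⟩ := residue_surjective y
    obtain ⟨c, hc⟩ := exists_sub_mem hB (φ a)
    refine ⟨c, ?_⟩
    change residue A (algebraMap 𝒪 A c) = residue A a
    rw [eq_comm, ← sub_eq_zero, ← map_sub, residue_eq_zero_iff, mem_maximalIdeal, mem_nonunits_iff,
      isUnit_iff_of_injective hB φ hφ, map_sub, AlgHom.commutes]
    exact (mem_maximalIdeal _).mp hc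
  · exact IsArtinianRing.of_finite A A

theorem isLocalHom_of_injective [IsLocalRing A] (hB : IsArtinianTestAlgebra 𝒪 B) (φ : A →ₐ[𝒪] B)
    (hφ : Function.Injective φ) : IsLocalHom (φ : A →+* B) :=
  ⟨fun a ha => (isUnit_iff_of_injective hB φ hφ a).mpr (by simpa using ha)⟩

end injective

end Fermat.Agent.S53.H68
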