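import Mathlib
import Fermat.Prelude.Def_GaloisRep_DeformationCondition
import Fermat.Agent.S53.H68_TestAlg

set_option autoImplicit false
set_option linter.style.haveILetI false
set_option linter.unusedSectionVars false

open IsLocalRing GaloisRep

namespace Fermat.Agent.S53.H68

variable {𝒪 : Type} [CommRing 𝒪] [IsLocalRing 𝒪]

section resk

variable {A : Type} [CommRing A] [IsLocalRing A] [Algebra 𝒪 A]

theorem residueMap_bijective (h1 : IsLocalHom (algebraMap 𝒪 A))
    (h2 : Function.Surjective (residue A ∘ algebraMap 𝒪 A)) :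
    Function.Bijective (ResidueField.map (algebraMap 𝒪 A)) := by
  refine ⟨(ResidueField.map (algebraMap 𝒪 A)).injective, fun y => ?_⟩
  obtain ⟨c, hc⟩ := h2 y
  exact ⟨residue 𝒪 c, by simpa using hc⟩

/-- the residue field identification `k ≃ κ(A)` -/
noncomputable def residueEquiv (h1 : IsLocalHom (algebraMap 𝒪 A))
    (h2 : Function.Surjective (residue A ∘ algebraMap 𝒪 A)) :
    ResidueField 𝒪 ≃+* ResidueField A :=
  RingEquiv.ofBijective (ResidueField.map (algebraMap 𝒪 A)) (residueMap_bijective h1 h2)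

theorem residueEquiv_apply (h1 : IsLocalHom (algebraMap 𝒪 A))
    (h2 : Function.Surjective (residue A ∘ algebraMap 𝒪 A)) (x : ResidueField 𝒪) :
    residueEquiv h1 h2 x = ResidueField.map (algebraMap 𝒪 A) x := rfl

/-- the residue map to `k = ResidueField 𝒪` as an `𝒪`-algebra hom. -/
noncomputable def resk (h1 : IsLocalHom (algebraMap 𝒪 A))
    (h2 : Function.Surjective (residue A ∘ algebraMap 𝒪 A)) : A →ₐ[𝒪] ResidueField 𝒪 :=
  { ((residueEquiv h1 h2).symm : ResidueField A →+* ResidueField 𝒪).comp (residue A) with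
    commutes' := fun c => by
      simp only [RingHom.toMonoidHom_eq_coe, OneHom.toFun_eq_coe, MonoidHom.toOneHom_coe,
        MonoidHom.coe_coe, RingHom.coe_comp, RingHom.coe_coe, Function.comp_apply]
      rw [RingEquiv.symm_apply_eq, residueEquiv_apply, ResidueField.algebraMap_eq,
        ResidueField.map_residue] }

theorem resk_apply (h1 : IsLocalHom (algebraMap 𝒪 A))
    (h2 : Function.Surjective (residue A ∘ algebraMap 𝒪 A)) (a : A) :
    resk h1 h2 a = (residueEquiv h1 h2).symm (residue A a) := rfl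

theorem resk_eq_zero_iff (h1 : IsLocalHom (algebraMap 𝒪 A))
    (h2 : Function.Surjective (residue A ∘ algebraMap 𝒪 A)) (a : A) :
    resk h1 h2 a = 0 ↔ a ∈ maximalIdeal A := by
  rw [resk_apply, map_eq_zero_iff _ (residueEquiv h1 h2).symm.injective, residue_eq_zero_iff]

theorem resk_surjective (h1 : IsLocalHom (algebraMap 𝒪 A))
    (h2 : Function.Surjective (residue A ∘ algebraMap 𝒪 A)) :
    Function.Surjective (resk h1 h2) := by
  intro y
  obtain ⟨a, ha⟩ := residue_surjective ((residueEquiv h1 h2) y)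
  exact ⟨a, by rw [resk_apply, ha, RingEquiv.symm_apply_apply]⟩

theorem resk_algebraMap (h1 : IsLocalHom (algebraMap 𝒪 A))
    (h2 : Function.Surjective (residue A ∘ algebraMap 𝒪 A)) (c : 𝒪) :
    resk h1 h2 (algebraMap 𝒪 A c) = residue 𝒪 c := by
  rw [AlgHom.commutes]; rfl

end resk

section fieldTest

variable (𝒪)

theorem residueField_test : IsArtinianTestAlgebra 𝒪 (ResidueField 𝒪) := by
  refine ⟨?_, ?_, inferInstance⟩
  · exact inferInstanceAs (IsLocalHom (residue 𝒪))
  · intro y
    obtain ⟨z, rfl⟩ := residue_surjective y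
    obtain ⟨c, rfl⟩ := residue_surjective z
    exact ⟨c, rfl⟩

end fieldTest

end Fermat.Agent.S53.H68
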