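import Mathlib
import Fermat.Prelude.Def_GaloisRep_DeformationCondition
import Fermat.Agent.S53.H68_Resk

set_option autoImplicit false
set_option linter.style.haveILetI false
set_option linter.unusedSectionVars false

open IsLocalRing GaloisRep TrivSqZeroExt

namespace Fermat.Agent.S53.H68

variable (𝒪 : Type) [CommRing 𝒪] [IsLocalRing 𝒪]

/-- the algebra structure on `k[ε]` used in `GaloisRep.TangentFinite`. -/
@[reducible] noncomputable def dualAlg : Algebra 𝒪 (DualNumber (ResidueField 𝒪)) :=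
  ((algebraMap (ResidueField 𝒪) (DualNumber (ResidueField 𝒪))).comp
      (algebraMap 𝒪 (ResidueField 𝒪))).toAlgebra

theorem dualAlg_algebraMap (c : 𝒪) :
    @algebraMap 𝒪 (DualNumber (ResidueField 𝒪)) _ _ (dualAlg 𝒪) c = inl (residue 𝒪 c) := rfl

theorem dual_test : @IsArtinianTestAlgebra 𝒪 _ (DualNumber (ResidueField 𝒪)) _ _ (dualAlg 𝒪) := by
  letI := dualAlg 𝒪
  refine ⟨⟨?_⟩, ?_, ?_⟩
  · intro c hc
    rw [dualAlg_algebraMap, isUnit_iff_isUnit_fst, fst_inl] at hc
    exact isUnit_of_map_unit (residue 𝒪) c hc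
  · intro y
    obtain ⟨x, rfl⟩ := residue_surjective y
    obtain ⟨c, hc⟩ := residue_surjective (R := 𝒪) x.fst
    refine ⟨c, ?_⟩
    change residue _ (algebraMap 𝒪 _ c) = residue _ x
    rw [dualAlg_algebraMap, hc, ← sub_eq_zero, ← map_sub, residue_eq_zero_iff, mem_maximalIdeal,
      mem_nonunits_iff, isUnit_iff_isUnit_fst]
    simp
  · rw [isArtinianRing_iff_isNilpotent_maximalIdeal]
    refine ⟨2, ?_⟩
    rw [DualNumber.maximalIdeal_eq_span_singleton_eps, Ideal.span_singleton_pow]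
    simp [pow_two]

end Fermat.Agent.S53.H68

namespace Fermat.Agent.S53.H68

variable {𝒪 : Type} [CommRing 𝒪] [IsLocalRing 𝒪]
variable {A : Type} [CommRing A] [IsLocalRing A] [Algebra 𝒪 A]

theorem exists_sub_mem' (h2 : Function.Surjective (residue A ∘ algebraMap 𝒪 A)) (a : A) :
    ∃ c : 𝒪, a - algebraMap 𝒪 A c ∈ maximalIdeal A := by
  obtain ⟨c, hc⟩ := h2 (residue A a)
  refine ⟨c, ?_⟩
  rw [← Ideal.Quotient.eq_zero_iff_mem, map_sub]
  change residue A a - residue A (algebraMap 𝒪 A c) = 0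
  rw [sub_eq_zero]
  exact hc.symm

theorem resk_eq_of_sub_mem (h1 : IsLocalHom (algebraMap 𝒪 A))
    (h2 : Function.Surjective (residue A ∘ algebraMap 𝒪 A)) {a : A} {c : 𝒪}
    (h : a - algebraMap 𝒪 A c ∈ maximalIdeal A) : resk h1 h2 a = residue 𝒪 c := by
  have := (resk_eq_zero_iff h1 h2 _).mpr h
  rw [map_sub, sub_eq_zero, resk_algebraMap] at this
  exact this

theorem leibniz_of_sq_zero (h1 : IsLocalHom (algebraMap 𝒪 A))
    (h2 : Function.Surjective (residue A ∘ algebraMap 𝒪 A))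
    (D : A →ₗ[𝒪] ResidueField 𝒪) (hD1 : D 1 = 0)
    (hD2 : ∀ a ∈ maximalIdeal A, ∀ b ∈ maximalIdeal A, D (a * b) = 0) (a b : A) :
    D (a * b) = resk h1 h2 a * D b + resk h1 h2 b * D a := by
  obtain ⟨α, hα⟩ := exists_sub_mem' h2 a
  obtain ⟨β, hβ⟩ := exists_sub_mem' h2 b
  have h := hD2 _ hα _ hβ
  rw [resk_eq_of_sub_mem h1 h2 hα, resk_eq_of_sub_mem h1 h2 hβ]
  have e : (a - algebraMap 𝒪 A α) * (b - algebraMap 𝒪 A β) =
      a * b - α • b - β • a + (α * β) • (1 : A) := by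
    simp only [Algebra.smul_def, map_mul]
    ring
  rw [e] at h
  simp only [map_add, map_sub, map_smul, hD1, smul_zero, add_zero] at h
  rw [sub_sub, sub_eq_zero] at h
  rw [h, Algebra.smul_def, Algebra.smul_def]
  rfl

/-- the algebra hom `A → k[ε]` attached to a "derivation" `D`. -/
noncomputable def derivHom (h1 : IsLocalHom (algebraMap 𝒪 A))
    (h2 : Function.Surjective (residue A ∘ algebraMap 𝒪 A))
    (D : A →ₗ[𝒪] ResidueField 𝒪) (hD1 : D 1 = 0)
    (hD2 : ∀ a ∈ maximalIdeal A, ∀ b ∈ maximalIdeal A, D (a * b) = 0) :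
    @AlgHom 𝒪 A (DualNumber (ResidueField 𝒪)) _ _ _ _ (dualAlg 𝒪) :=
  letI := dualAlg 𝒪
  { toFun := fun a => inl (resk h1 h2 a) + inr (D a)
    map_one' := by simp [hD1]
    map_mul' := fun a b => by
      rw [leibniz_of_sq_zero h1 h2 D hD1 hD2]
      ext
      · simp
      · simp [mul_comm]
    map_zero' := by simp
    map_add' := fun a b => by
      simp only [map_add, inl_add, inr_add]
      abel
    commutes' := fun c => by
      rw [dualAlg_algebraMap, resk_algebraMap]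
      have : D (algebraMap 𝒪 A c) = 0 := by
        rw [Algebra.algebraMap_eq_smul_one, map_smul, hD1, smul_zero]
      rw [this]
      simp }

theorem derivHom_apply (h1 : IsLocalHom (algebraMap 𝒪 A))
    (h2 : Function.Surjective (residue A ∘ algebraMap 𝒪 A))
    (D : A →ₗ[𝒪] ResidueField 𝒪) (hD1 : D 1 = 0)
    (hD2 : ∀ a ∈ maximalIdeal A, ∀ b ∈ maximalIdeal A, D (a * b) = 0) (a : A) :
    derivHom h1 h2 D hD1 hD2 a = inl (resk h1 h2 a) + inr (D a) := rfl

end Fermat.Agent.S53.H68
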