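import Mathlib
import Fermat.Prelude.Def_GaloisRep_DeformationCondition
import Fermat.Agent.S53.H68_Dual

set_option autoImplicit false
set_option linter.style.haveILetI false
set_option linter.unusedSectionVars false

open IsLocalRing GaloisRep

namespace Fermat.Agent.S53.H68

variable (𝒪 : Type) [CommRing 𝒪] [IsLocalRing 𝒪] (X : Type)

/-- predicates on points of test algebras -/
abbrev PointPred : Type 1 :=
  ∀ ⦃A : Type⦄ [CommRing A] [IsLocalRing A] [Algebra 𝒪 A], (X → A) → Prop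

/-- a "closed rigid deformation problem" -/
structure IsRigid (F : PointPred 𝒪 X) : Prop where
  map : ∀ ⦃A B : Type⦄ [CommRing A] [IsLocalRing A] [Algebra 𝒪 A]
    [CommRing B] [IsLocalRing B] [Algebra 𝒪 B],
    IsArtinianTestAlgebra 𝒪 A → IsArtinianTestAlgebra 𝒪 B →
    ∀ (φ : A →ₐ[𝒪] B), IsLocalHom (φ : A →+* B) → ∀ ⦃x : X → A⦄, F x → F (φ ∘ x)
  of_injective : ∀ ⦃A B : Type⦄ [CommRing A] [IsLocalRing A] [Algebra 𝒪 A]
    [CommRing B] [IsLocalRing B] [Algebra 𝒪 B],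
    IsArtinianTestAlgebra 𝒪 A → IsArtinianTestAlgebra 𝒪 B →
    ∀ (φ : A →ₐ[𝒪] B), IsLocalHom (φ : A →+* B) → Function.Injective φ →
      ∀ ⦃x : X → A⦄, F (φ ∘ x) → F x
  of_fibreProduct : ∀ ⦃A B C P : Type⦄ [CommRing A] [IsLocalRing A] [Algebra 𝒪 A]
    [CommRing B] [IsLocalRing B] [Algebra 𝒪 B] [CommRing C] [IsLocalRing C] [Algebra 𝒪 C]
    [CommRing P] [IsLocalRing P] [Algebra 𝒪 P],
    IsArtinianTestAlgebra 𝒪 A → IsArtinianTestAlgebra 𝒪 B → IsArtinianTestAlgebra 𝒪 C →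
    IsArtinianTestAlgebra 𝒪 P →
    ∀ (f : A →ₐ[𝒪] C) (g : B →ₐ[𝒪] C) (pA : P →ₐ[𝒪] A) (pB : P →ₐ[𝒪] B),
      IsLocalHom (pA : P →+* A) → IsLocalHom (pB : P →+* B) →
      f.comp pA = g.comp pB →
      Function.Injective (fun x => (pA x, pB x)) →
      (∀ a b, f a = g b → ∃ x, pA x = a ∧ pB x = b) →
      ∀ ⦃x : X → P⦄, F (pA ∘ x) → F (pB ∘ x) → F x
  residual_unique : ∀ x y : X → ResidueField 𝒪, F x → F y → x = y
  residual_exists : ∃ x : X → ResidueField 𝒪, F x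
  tangent_finite : Finite {t : X → DualNumber (ResidueField 𝒪) //
    @F (DualNumber (ResidueField 𝒪)) _ _ (dualAlg 𝒪) t}

variable {𝒪 X}

/-- the coordinate point of `Λ ⧸ J` -/
noncomputable def coord (J : Ideal (MvPolynomial X 𝒪)) : X → MvPolynomial X 𝒪 ⧸ J :=
  fun i => Ideal.Quotient.mk J (MvPolynomial.X i)

/-- the family of ideals `J` such that `Λ ⧸ J` is a test algebra carrying a point of `F`. -/
def InS (F : PointPred 𝒪 X) (J : Ideal (MvPolynomial X 𝒪)) : Prop :=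
  ∃ (h : IsLocalRing (MvPolynomial X 𝒪 ⧸ J)),
    IsArtinianTestAlgebra 𝒪 (MvPolynomial X 𝒪 ⧸ J) ∧ @F (MvPolynomial X 𝒪 ⧸ J) _ h _ (coord J)

variable {F : PointPred 𝒪 X}

section ker

variable [Finite (ResidueField 𝒪)]
variable {A : Type} [CommRing A] [IsLocalRing A] [Algebra 𝒪 A]

theorem kerLift_comp_coord (v : X → A) :
    (Ideal.kerLiftAlg (MvPolynomial.aeval v : MvPolynomial X 𝒪 →ₐ[𝒪] A)) ∘
      coord (RingHom.ker (MvPolynomial.aeval v : MvPolynomial X 𝒪 →ₐ[𝒪] A)) = v := by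
  funext i
  simp [coord]

theorem inS_ker (hF : IsRigid 𝒪 X F) (hA : IsArtinianTestAlgebra 𝒪 A) {v : X → A} (hv : F v) :
    InS F (RingHom.ker (MvPolynomial.aeval v : MvPolynomial X 𝒪 →ₐ[𝒪] A)) := by
  set φ := Ideal.kerLiftAlg (MvPolynomial.aeval v : MvPolynomial X 𝒪 →ₐ[𝒪] A) with hφ
  have hinj : Function.Injective φ := Ideal.kerLiftAlg_injective _
  have hloc : IsLocalRing (MvPolynomial X 𝒪 ⧸
      RingHom.ker (MvPolynomial.aeval v : MvPolynomial X 𝒪 →ₐ[𝒪] A)) :=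
    isLocalRing_of_injective hA φ hinj
  have htest := test_of_injective hA φ hinj
  refine ⟨hloc, htest, ?_⟩
  refine hF.of_injective htest hA φ (isLocalHom_of_injective hA φ hinj) hinj ?_
  rw [hφ, kerLift_comp_coord]
  exact hv

end ker


section mono

variable [Finite (ResidueField 𝒪)]

theorem factor_comp_coord {J J' : Ideal (MvPolynomial X 𝒪)} (h : J ≤ J') :
    (Ideal.Quotient.factorₐ 𝒪 h) ∘ coord J = coord J' := by
  funext i
  simp [coord]

theorem inS_mono (hF : IsRigid 𝒪 X F) {J J' : Ideal (MvPolynomial X 𝒪)} (hJ : InS F J)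
    (h : J ≤ J') (hne : J' ≠ ⊤) : InS F J' := by
  obtain ⟨hloc, htest, hFJ⟩ := hJ
  haveI : Nontrivial (MvPolynomial X 𝒪 ⧸ J') := Ideal.Quotient.nontrivial_iff.mpr hne
  have hsurj : Function.Surjective (Ideal.Quotient.factorₐ 𝒪 h) :=
    Ideal.Quotient.factor_surjective h
  have hloc' : IsLocalRing (MvPolynomial X 𝒪 ⧸ J') :=
    IsLocalRing.of_surjective' (Ideal.Quotient.factor h) (Ideal.Quotient.factor_surjective h)
  have htest' := test_of_surjective htest (Ideal.Quotient.factorₐ 𝒪 h) hsurj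
  refine ⟨hloc', htest', ?_⟩
  have := hF.map htest htest' (Ideal.Quotient.factorₐ 𝒪 h) (isLocalHom_of_test htest _) hFJ
  rwa [factor_comp_coord] at this

end mono


section maxideal

variable [Finite (ResidueField 𝒪)]

/-- the residual point -/
noncomputable def xbar (hF : IsRigid 𝒪 X F) : X → ResidueField 𝒪 := hF.residual_exists.choose

theorem F_xbar (hF : IsRigid 𝒪 X F) : F (xbar hF) := hF.residual_exists.choose_spec

/-- evaluation at the residual point -/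
noncomputable def evbar (hF : IsRigid 𝒪 X F) : MvPolynomial X 𝒪 →ₐ[𝒪] ResidueField 𝒪 :=
  MvPolynomial.aeval (xbar hF)

/-- the maximal ideal of `Λ` at the residual point -/
noncomputable def mLam (hF : IsRigid 𝒪 X F) : Ideal (MvPolynomial X 𝒪) := RingHom.ker (evbar hF)

theorem evbar_surjective (hF : IsRigid 𝒪 X F) : Function.Surjective (evbar hF) := by
  intro y
  obtain ⟨c, rfl⟩ := residue_surjective y
  refine ⟨MvPolynomial.C c, ?_⟩
  simp [evbar]

instance mLam_isMaximal (hF : IsRigid 𝒪 X F) : (mLam hF).IsMaximal :=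
  RingHom.ker_isMaximal_of_surjective _ (evbar_surjective hF)

theorem mLam_ne_top (hF : IsRigid 𝒪 X F) : mLam hF ≠ ⊤ := (mLam_isMaximal hF).ne_top

theorem resk_comp_mk (hF : IsRigid 𝒪 X F) {J : Ideal (MvPolynomial X 𝒪)}
    [IsLocalRing (MvPolynomial X 𝒪 ⧸ J)] (htest : IsArtinianTestAlgebra 𝒪 (MvPolynomial X 𝒪 ⧸ J))
    (hFJ : F (coord J)) :
    (resk htest.isLocalHom htest.residue_surjective).comp (Ideal.Quotient.mkₐ 𝒪 J) = evbar hF := by
  apply MvPolynomial.algHom_ext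
  intro i
  have h1 := hF.map htest (residueField_test 𝒪) (resk htest.isLocalHom htest.residue_surjective)
    (isLocalHom_of_test htest _) hFJ
  have h2 := hF.residual_unique _ _ h1 (F_xbar hF)
  have h3 := congrFun h2 i
  simpa [evbar, coord] using h3

theorem mk_mem_maximalIdeal_iff (hF : IsRigid 𝒪 X F) {J : Ideal (MvPolynomial X 𝒪)}
    [IsLocalRing (MvPolynomial X 𝒪 ⧸ J)] (htest : IsArtinianTestAlgebra 𝒪 (MvPolynomial X 𝒪 ⧸ J))
    (hFJ : F (coord J)) (p : MvPolynomial X 𝒪) :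
    Ideal.Quotient.mk J p ∈ maximalIdeal (MvPolynomial X 𝒪 ⧸ J) ↔ p ∈ mLam hF := by
  rw [← resk_eq_zero_iff htest.isLocalHom htest.residue_surjective, mLam, RingHom.mem_ker,
    ← resk_comp_mk hF htest hFJ]
  rfl

theorem inS_le_mLam (hF : IsRigid 𝒪 X F) {J : Ideal (MvPolynomial X 𝒪)} (hJ : InS F J) :
    J ≤ mLam hF := by
  obtain ⟨hloc, htest, hFJ⟩ := hJ
  intro p hp
  rw [← mk_mem_maximalIdeal_iff hF htest hFJ, Ideal.Quotient.eq_zero_iff_mem.mpr hp]
  exact zero_mem _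

theorem mLam_pow_le (hF : IsRigid 𝒪 X F) {J : Ideal (MvPolynomial X 𝒪)} (hJ : InS F J) :
    ∃ n : ℕ, mLam hF ^ n ≤ J := by
  obtain ⟨hloc, htest, hFJ⟩ := hJ
  obtain ⟨n, hn⟩ := maximalIdeal_nilpotent htest
  refine ⟨n, ?_⟩
  have h1 : mLam hF ≤ (maximalIdeal (MvPolynomial X 𝒪 ⧸ J)).comap (Ideal.Quotient.mk J) := by
    intro p hp
    exact (mk_mem_maximalIdeal_iff hF htest hFJ p).mpr hp
  calc mLam hF ^ n ≤ ((maximalIdeal (MvPolynomial X 𝒪 ⧸ J)).comap (Ideal.Quotient.mk J)) ^ n :=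
        Ideal.pow_right_mono h1 n
    _ ≤ (maximalIdeal (MvPolynomial X 𝒪 ⧸ J) ^ n).comap (Ideal.Quotient.mk J) :=
        Ideal.le_comap_pow _ n
    _ = J := by rw [hn, ← RingHom.ker_eq_comap_bot, Ideal.mk_ker]

theorem inS_mLam (hF : IsRigid 𝒪 X F) : InS F (mLam hF) := by
  have h := inS_ker hF (residueField_test 𝒪) (F_xbar hF)
  exact h

end maxideal


section inf

variable [Finite (ResidueField 𝒪)]

theorem factor_pair_injective (J K : Ideal (MvPolynomial X 𝒪)) :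
    Function.Injective (fun x : MvPolynomial X 𝒪 ⧸ (J ⊓ K) =>
      (Ideal.Quotient.factorₐ 𝒪 (inf_le_left : J ⊓ K ≤ J) x,
       Ideal.Quotient.factorₐ 𝒪 (inf_le_right : J ⊓ K ≤ K) x)) := by
  intro x y hxy
  obtain ⟨p, rfl⟩ := Ideal.Quotient.mk_surjective x
  obtain ⟨q, rfl⟩ := Ideal.Quotient.mk_surjective y
  simp only [Prod.mk.injEq, Ideal.Quotient.factorₐ_apply_mk] at hxy
  rw [Ideal.Quotient.eq] at hxy ⊢
  rw [Ideal.Quotient.eq] at hxy
  exact ⟨hxy.1, hxy.2⟩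

theorem factor_pair_surjective (J K : Ideal (MvPolynomial X 𝒪))
    (a : MvPolynomial X 𝒪 ⧸ J) (b : MvPolynomial X 𝒪 ⧸ K)
    (hab : Ideal.Quotient.factorₐ 𝒪 (le_sup_left : J ≤ J ⊔ K) a =
      Ideal.Quotient.factorₐ 𝒪 (le_sup_right : K ≤ J ⊔ K) b) :
    ∃ x : MvPolynomial X 𝒪 ⧸ (J ⊓ K),
      Ideal.Quotient.factorₐ 𝒪 (inf_le_left : J ⊓ K ≤ J) x = a ∧
      Ideal.Quotient.factorₐ 𝒪 (inf_le_right : J ⊓ K ≤ K) x = b := by
  obtain ⟨p, rfl⟩ := Ideal.Quotient.mk_surjective a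
  obtain ⟨q, rfl⟩ := Ideal.Quotient.mk_surjective b
  simp only [Ideal.Quotient.factorₐ_apply_mk] at hab
  rw [Ideal.Quotient.eq, Submodule.mem_sup] at hab
  obtain ⟨j, hj, k, hk, hjk⟩ := hab
  refine ⟨Ideal.Quotient.mk _ (p - j), ?_, ?_⟩
  · simp only [Ideal.Quotient.factorₐ_apply_mk]
    rw [Ideal.Quotient.eq]
    simpa using J.neg_mem hj
  · simp only [Ideal.Quotient.factorₐ_apply_mk]
    rw [Ideal.Quotient.eq]
    have : p - j - q = k := by linear_combination -hjk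
    rw [this]
    exact hk

theorem inS_inf (hF : IsRigid 𝒪 X F) {J K : Ideal (MvPolynomial X 𝒪)} (hJ : InS F J)
    (hK : InS F K) : InS F (J ⊓ K) := by
  have hJm := inS_le_mLam hF hJ
  have hKm := inS_le_mLam hF hK
  have hsup : J ⊔ K ≠ ⊤ := fun h => mLam_ne_top hF (top_le_iff.mp (h ▸ sup_le hJm hKm))
  obtain ⟨hlocC, htestC, -⟩ := inS_mono hF hJ (le_sup_left : J ≤ J ⊔ K) hsup
  obtain ⟨hlocA, htestA, hFA⟩ := hJ
  obtain ⟨hlocB, htestB, hFB⟩ := hK
  haveI : Finite (MvPolynomial X 𝒪 ⧸ J) := finite_of_test htestA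
  haveI : Finite (MvPolynomial X 𝒪 ⧸ K) := finite_of_test htestB
  set pA := Ideal.Quotient.factorₐ 𝒪 (inf_le_left : J ⊓ K ≤ J) with hpA
  set pB := Ideal.Quotient.factorₐ 𝒪 (inf_le_right : J ⊓ K ≤ K) with hpB
  have hinj := factor_pair_injective (𝒪 := 𝒪) J K
  haveI : Finite (MvPolynomial X 𝒪 ⧸ (J ⊓ K)) := Finite.of_injective _ hinj
  have hne : J ⊓ K ≠ ⊤ := fun h => mLam_ne_top hF (top_le_iff.mp (h ▸ inf_le_left.trans hJm))
  haveI : Nontrivial (MvPolynomial X 𝒪 ⧸ (J ⊓ K)) := Ideal.Quotient.nontrivial_iff.mpr hne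
  -- unit criterion
  have hunit : ∀ p : MvPolynomial X 𝒪,
      IsUnit (Ideal.Quotient.mk (J ⊓ K) p) ↔ p ∉ mLam hF := by
    intro p
    constructor
    · intro hu hp
      have h1 : IsUnit (pA (Ideal.Quotient.mk (J ⊓ K) p)) := hu.map pA
      rw [hpA, Ideal.Quotient.factorₐ_apply_mk] at h1
      have h2 := (mk_mem_maximalIdeal_iff hF htestA hFA p).mpr hp
      exact (mem_maximalIdeal _).mp h2 h1
    · intro hp
      have hA : IsUnit (Ideal.Quotient.mk J p) := by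
        by_contra h
        exact hp ((mk_mem_maximalIdeal_iff hF htestA hFA p).mp ((mem_maximalIdeal _).mpr h))
      have hB : IsUnit (Ideal.Quotient.mk K p) := by
        by_contra h
        exact hp ((mk_mem_maximalIdeal_iff hF htestB hFB p).mp ((mem_maximalIdeal _).mpr h))
      rw [isUnit_iff_mem_nonZeroDivisors_of_finite, mem_nonZeroDivisors_iff_right]
      intro x hx
      apply hinj
      have h1 : pA x * Ideal.Quotient.mk J p = 0 := by
        have := congrArg pA hx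
        rwa [map_mul, map_zero, hpA, Ideal.Quotient.factorₐ_apply_mk] at this
      have h2 : pB x * Ideal.Quotient.mk K p = 0 := by
        have := congrArg pB hx
        rwa [map_mul, map_zero, hpB, Ideal.Quotient.factorₐ_apply_mk] at this
      have h1' := (IsUnit.mul_left_eq_zero hA).mp h1
      have h2' := (IsUnit.mul_left_eq_zero hB).mp h2
      simp only [map_zero, Prod.mk.injEq]
      exact ⟨h1', h2'⟩
  have hlocP : IsLocalRing (MvPolynomial X 𝒪 ⧸ (J ⊓ K)) := by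
    refine IsLocalRing.of_nonunits_add ?_
    intro a b ha hb
    obtain ⟨p, rfl⟩ := Ideal.Quotient.mk_surjective a
    obtain ⟨q, rfl⟩ := Ideal.Quotient.mk_surjective b
    simp only [mem_nonunits_iff, hunit, not_not] at ha hb
    rw [← map_add, mem_nonunits_iff, hunit, not_not]
    exact Ideal.add_mem _ ha hb
  have htestP : IsArtinianTestAlgebra 𝒪 (MvPolynomial X 𝒪 ⧸ (J ⊓ K)) := by
    haveI := htestA.isLocalHom
    refine ⟨⟨?_⟩, ?_, IsArtinianRing.of_finite (MvPolynomial X 𝒪 ⧸ (J ⊓ K)) _⟩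
    · intro c hc
      have h1 : IsUnit (pA (algebraMap 𝒪 _ c)) := hc.map pA
      rw [AlgHom.commutes] at h1
      exact isUnit_of_map_unit (algebraMap 𝒪 (MvPolynomial X 𝒪 ⧸ J)) _ h1
    · intro y
      obtain ⟨a, rfl⟩ := residue_surjective y
      obtain ⟨p, rfl⟩ := Ideal.Quotient.mk_surjective a
      obtain ⟨c, hc⟩ := residue_surjective (evbar hF p)
      refine ⟨c, ?_⟩
      change residue _ (algebraMap 𝒪 _ c) = residue _ (Ideal.Quotient.mk (J ⊓ K) p)
      rw [eq_comm, ← sub_eq_zero, ← map_sub, residue_eq_zero_iff, mem_maximalIdeal,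
        mem_nonunits_iff]
      have e : Ideal.Quotient.mk (J ⊓ K) p - algebraMap 𝒪 _ c =
          Ideal.Quotient.mk (J ⊓ K) (p - MvPolynomial.C c) := by
        rw [map_sub]; rfl
      rw [e, hunit, not_not, mLam, RingHom.mem_ker, map_sub, ← hc]
      simp [evbar]
  refine ⟨hlocP, htestP, ?_⟩
  refine hF.of_fibreProduct htestA htestB htestC htestP
    (Ideal.Quotient.factorₐ 𝒪 (le_sup_left : J ≤ J ⊔ K))
    (Ideal.Quotient.factorₐ 𝒪 (le_sup_right : K ≤ J ⊔ K)) pA pB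
    (isLocalHom_of_test htestP _) (isLocalHom_of_test htestP _) ?_ hinj
    (factor_pair_surjective J K) ?_ ?_
  · apply AlgHom.ext
    intro x
    obtain ⟨p, rfl⟩ := Ideal.Quotient.mk_surjective x
    simp [hpA, hpB]
  · rw [hpA, factor_comp_coord]; exact hFA
  · rw [hpB, factor_comp_coord]; exact hFB

end inf

end Fermat.Agent.S53.H68
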