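import Mathlib
import Fermat.Prelude.Def_GaloisRep_DeformationCondition
import Fermat.Agent.S53.H68_Family

set_option autoImplicit false
set_option linter.style.haveILetI false
set_option linter.unusedSectionVars false

open IsLocalRing GaloisRep

namespace Fermat.Agent.S53.H68

section separating

theorem exists_separating_finset {ι X Y : Type} [Finite ι] (f : ι → X → Y)
    (hf : Function.Injective f) :
    ∃ s : Finset X, ∀ a b : ι, (∀ i ∈ s, f a i = f b i) → a = b := by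
  classical
  haveI := Fintype.ofFinite {p : ι × ι // p.1 ≠ p.2}
  have h : ∀ p : {p : ι × ι // p.1 ≠ p.2}, ∃ i : X, f p.1.1 i ≠ f p.1.2 i := fun p =>
    Function.ne_iff.mp (hf.ne p.2)
  choose g hg using h
  refine ⟨Finset.univ.image g, fun a b hab => ?_⟩
  by_contra hne
  exact hg ⟨(a, b), hne⟩ (hab _ (Finset.mem_image_of_mem g (Finset.mem_univ _)))

end separating

section subalgebra

variable {𝒪 : Type} [CommRing 𝒪] [IsLocalRing 𝒪]
variable {A : Type} [CommRing A] [IsLocalRing A] [Algebra 𝒪 A]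

/-- one step: `E + m^(n+1) = A` implies `E + m^(n+2) = A`, given `E + m^2 = A`. -/
theorem sup_pow_step (E : Subalgebra 𝒪 A)
    (h2 : Subalgebra.toSubmodule E ⊔ (maximalIdeal A ^ 2).restrictScalars 𝒪 = ⊤) (n : ℕ)
    (hn : Subalgebra.toSubmodule E ⊔ (maximalIdeal A ^ (n + 1)).restrictScalars 𝒪 = ⊤) :
    Subalgebra.toSubmodule E ⊔ (maximalIdeal A ^ (n + 2)).restrictScalars 𝒪 = ⊤ := by
  rw [eq_top_iff, ← hn]
  refine sup_le le_sup_left ?_
  intro y hy
  rw [Submodule.restrictScalars_mem, pow_succ] at hy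
  refine Submodule.mul_induction_on hy ?_ ?_
  · intro u hu v hv
    -- decompose v
    have hv' : v ∈ Subalgebra.toSubmodule E ⊔ (maximalIdeal A ^ 2).restrictScalars 𝒪 := by
      rw [h2]; trivial
    obtain ⟨c, hc, d, hd, rfl⟩ := Submodule.mem_sup.mp hv'
    have hu' : u ∈ Subalgebra.toSubmodule E ⊔ (maximalIdeal A ^ (n + 1)).restrictScalars 𝒪 := by
      rw [hn]; trivial
    obtain ⟨e, he, w, hw, rfl⟩ := Submodule.mem_sup.mp hu'
    rw [Submodule.restrictScalars_mem] at hd hw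
    have hcm : c ∈ maximalIdeal A := by
      have : c = (c + d) - d := by ring
      rw [this]
      exact Ideal.sub_mem _ hv (Ideal.pow_le_self two_ne_zero hd)
    have e1 : (e + w) * (c + d) = e * c + (w * c + (e + w) * d) := by ring
    rw [e1]
    refine Submodule.add_mem _ (Submodule.mem_sup_left (E.mul_mem he hc))
      (Submodule.mem_sup_right ?_)
    rw [Submodule.restrictScalars_mem]
    refine Ideal.add_mem _ ?_ ?_
    · rw [pow_succ]
      exact Ideal.mul_mem_mul hw hcm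
    · have : (e + w) * d ∈ maximalIdeal A ^ n * maximalIdeal A ^ 2 := Ideal.mul_mem_mul hu hd
      rwa [← pow_add] at this
  · intro x y hx hy
    exact Submodule.add_mem _ hx hy

theorem subalgebra_eq_top_of_sup_sq (hA : IsArtinianTestAlgebra 𝒪 A) (E : Subalgebra 𝒪 A)
    (h2 : Subalgebra.toSubmodule E ⊔ (maximalIdeal A ^ 2).restrictScalars 𝒪 = ⊤) : E = ⊤ := by
  have h : ∀ n : ℕ,
      Subalgebra.toSubmodule E ⊔ (maximalIdeal A ^ (n + 1)).restrictScalars 𝒪 = ⊤ := by
    intro n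
    induction n with
    | zero =>
      rw [eq_top_iff, ← h2]
      refine sup_le le_sup_left (le_trans ?_ le_sup_right)
      intro y hy
      rw [Submodule.restrictScalars_mem] at hy ⊢
      rw [zero_add, pow_one]
      exact Ideal.pow_le_self two_ne_zero hy
    | succ n ih => exact sup_pow_step E h2 n ih
  obtain ⟨n, hn⟩ := maximalIdeal_nilpotent hA
  have h1 := h n
  have h3 : maximalIdeal A ^ (n + 1) = ⊥ := by rw [pow_succ, hn, Ideal.bot_mul]
  rw [h3] at h1
  have h4 : Subalgebra.toSubmodule E = ⊤ := by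
    rw [← h1]
    simp
  rw [eq_top_iff]
  intro x _
  have : x ∈ Subalgebra.toSubmodule E := by rw [h4]; trivial
  exact this

end subalgebra


section functional

variable {𝒪 : Type} [CommRing 𝒪] [IsLocalRing 𝒪]
variable {A : Type} [AddCommGroup A] [Module 𝒪 A] [Module.Finite 𝒪 A]

/-- a proper submodule of a finite module over a local ring is killed by a nonzero
functional to the residue field. -/
theorem exists_functional_of_ne_top (N : Submodule 𝒪 A) (hN : N ≠ ⊤) :
    ∃ D : A →ₗ[𝒪] ResidueField 𝒪, (∀ x ∈ N, D x = 0) ∧ ∃ a, D a ≠ 0 := by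
  obtain ⟨N', hN', hle⟩ := (eq_top_or_exists_le_coatom N).resolve_left hN
  have hs : IsSimpleModule 𝒪 (A ⧸ N') := isSimpleModule_iff_isCoatom.mpr hN'
  obtain ⟨I, hI, ⟨e⟩⟩ := isSimpleModule_iff_quot_maximal.mp hs
  have hIm : I = maximalIdeal 𝒪 := (IsLocalRing.eq_maximalIdeal hI)
  subst hIm
  let D : A →ₗ[𝒪] ResidueField 𝒪 := (e : (A ⧸ N') →ₗ[𝒪] 𝒪 ⧸ maximalIdeal 𝒪).comp N'.mkQ
  refine ⟨D, ?_, ?_⟩
  · intro x hx
    have : N'.mkQ x = 0 := (Submodule.Quotient.mk_eq_zero N').mpr (hle hx)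
    change e (N'.mkQ x) = 0
    rw [this, map_zero]
  · obtain ⟨y, hy⟩ := e.surjective (1 : 𝒪 ⧸ maximalIdeal 𝒪)
    obtain ⟨a, rfl⟩ := N'.mkQ_surjective y
    refine ⟨a, ?_⟩
    change e (N'.mkQ a) ≠ 0
    rw [hy]
    exact one_ne_zero

end functional


section main

open TrivSqZeroExt

variable {𝒪 : Type} [CommRing 𝒪] [IsLocalRing 𝒪] [Finite (ResidueField 𝒪)]
variable {X : Type} {F : PointPred 𝒪 X}

/-- `s` separates the tangent points of `F`. -/
def Separates (F : PointPred 𝒪 X) (s : Finset X) : Prop :=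
  ∀ t t' : X → DualNumber (ResidueField 𝒪),
    @F (DualNumber (ResidueField 𝒪)) _ _ (dualAlg 𝒪) t →
    @F (DualNumber (ResidueField 𝒪)) _ _ (dualAlg 𝒪) t' → (∀ i ∈ s, t i = t' i) → t = t'

theorem exists_separates (hF : IsRigid 𝒪 X F) : ∃ s : Finset X, Separates F s := by
  haveI := hF.tangent_finite
  obtain ⟨s, hs⟩ := exists_separating_finset
    (fun t : {t : X → DualNumber (ResidueField 𝒪) //
      @F (DualNumber (ResidueField 𝒪)) _ _ (dualAlg 𝒪) t} => t.1) Subtype.val_injective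
  refine ⟨s, fun t t' ht ht' h => ?_⟩
  have := hs ⟨t, ht⟩ ⟨t', ht'⟩ h
  exact congrArg Subtype.val this

theorem adjoin_coord_eq_top (hF : IsRigid 𝒪 X F) {s : Finset X} (hs : Separates F s)
    {J : Ideal (MvPolynomial X 𝒪)} (hJ : InS F J) :
    Algebra.adjoin 𝒪 ((coord J) '' (s : Set X)) = ⊤ := by
  obtain ⟨hloc, htest, hFJ⟩ := hJ
  set E := Algebra.adjoin 𝒪 ((coord J) '' (s : Set X)) with hE
  by_contra hne
  have hN : Subalgebra.toSubmodule E ⊔
      (maximalIdeal (MvPolynomial X 𝒪 ⧸ J) ^ 2).restrictScalars 𝒪 ≠ ⊤ :=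
    fun h => hne (subalgebra_eq_top_of_sup_sq htest E h)
  haveI : Finite (MvPolynomial X 𝒪 ⧸ J) := finite_of_test htest
  haveI : Module.Finite 𝒪 (MvPolynomial X 𝒪 ⧸ J) := Module.Finite.of_finite
  obtain ⟨D, hD0, a, ha⟩ := exists_functional_of_ne_top _ hN
  have hD1 : D 1 = 0 := hD0 1 (Submodule.mem_sup_left E.one_mem)
  have hD2 : ∀ a ∈ maximalIdeal (MvPolynomial X 𝒪 ⧸ J), ∀ b ∈ maximalIdeal (MvPolynomial X 𝒪 ⧸ J),
      D (a * b) = 0 := by
    intro a ha b hb
    refine hD0 _ (Submodule.mem_sup_right ?_)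
    rw [Submodule.restrictScalars_mem, pow_two]
    exact Ideal.mul_mem_mul ha hb
  have h1 := htest.isLocalHom
  have h2 := htest.residue_surjective
  set f := derivHom h1 h2 D hD1 hD2 with hf
  set g := derivHom h1 h2 (0 : (MvPolynomial X 𝒪 ⧸ J) →ₗ[𝒪] ResidueField 𝒪) (by simp)
    (by simp) with hg
  have hFf := @IsRigid.map 𝒪 _ _ X F hF _ _ _ _ _ _ _ (dualAlg 𝒪) htest (dual_test 𝒪) f
    (@isLocalHom_of_test 𝒪 _ _ _ _ _ _ _ _ _ (dualAlg 𝒪) htest f) _ hFJ
  have hFg := @IsRigid.map 𝒪 _ _ X F hF _ _ _ _ _ _ _ (dualAlg 𝒪) htest (dual_test 𝒪) g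
    (@isLocalHom_of_test 𝒪 _ _ _ _ _ _ _ _ _ (dualAlg 𝒪) htest g) _ hFJ
  have hagree : ∀ i ∈ s, (f ∘ coord J) i = (g ∘ coord J) i := by
    intro i hi
    have hmem : coord J i ∈ E := Algebra.subset_adjoin ⟨i, hi, rfl⟩
    have : D (coord J i) = 0 := hD0 _ (Submodule.mem_sup_left hmem)
    simp only [Function.comp_apply, hf, hg, derivHom_apply, this, LinearMap.zero_apply]
  have heq := hs _ _ hFf hFg hagree
  -- now compare on all of `Λ`
  letI := dualAlg 𝒪
  have hcomp : f.comp (Ideal.Quotient.mkₐ 𝒪 J) = g.comp (Ideal.Quotient.mkₐ 𝒪 J) := by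
    apply MvPolynomial.algHom_ext
    intro i
    exact congrFun heq i
  obtain ⟨p, rfl⟩ := Ideal.Quotient.mk_surjective a
  have h3 := congrArg (fun φ => φ p) hcomp
  simp only [AlgHom.comp_apply, Ideal.Quotient.mkₐ_eq_mk, hf, hg, derivHom_apply,
    LinearMap.zero_apply] at h3
  have h4 := congrArg TrivSqZeroExt.snd h3
  simp at h4
  exact ha h4

end main

end Fermat.Agent.S53.H68
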