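import Mathlib
import Fermat.Prelude.Def_GaloisRep_DeformationCondition
import Fermat.Agent.S53.H68_Tangent

set_option autoImplicit false
set_option linter.style.haveILetI false
set_option linter.unusedSectionVars false

open IsLocalRing GaloisRep

namespace Fermat.Agent.S53.H68

variable {𝒪 : Type} [CommRing 𝒪] [IsLocalRing 𝒪]

/-- the properties of the power series "box" `P` with variables `T`. -/
structure IsBox (𝒪 : Type) [CommRing 𝒪] [IsLocalRing 𝒪] {σ : Type} (P : Type) [CommRing P]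
    [IsLocalRing P] [Algebra 𝒪 P] (T : σ → P) : Prop where
  isLocalHom : IsLocalHom (algebraMap 𝒪 P)
  residue_surjective : Function.Surjective (residue P ∘ algebraMap 𝒪 P)
  T_mem : ∀ i, T i ∈ maximalIdeal P
  lift_exists : ∀ (A : Type) [CommRing A] [IsLocalRing A] [Algebra 𝒪 A],
    IsArtinianTestAlgebra 𝒪 A → ∀ a : σ → A, (∀ i, a i ∈ maximalIdeal A) →
      ∃ φ : P →ₐ[𝒪] A, ∀ i, φ (T i) = a i
  lift_unique : ∀ (A : Type) [CommRing A] [IsLocalRing A] [Algebra 𝒪 A],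
    IsArtinianTestAlgebra 𝒪 A → ∀ φ ψ : P →ₐ[𝒪] A, (∀ i, φ (T i) = ψ (T i)) → φ = ψ

section box

variable {σ : Type} {P : Type} [CommRing P] [IsLocalRing P] [Algebra 𝒪 P] {T : σ → P}
variable {A : Type} [CommRing A] [IsLocalRing A] [Algebra 𝒪 A]

/-- any algebra hom from the box to a test algebra sending the `T i` into the maximal ideal is local:
it maps the maximal ideal into the maximal ideal. -/
theorem IsBox.map_mem (hB : IsBox 𝒪 P T) (hA : IsArtinianTestAlgebra 𝒪 A) (φ : P →ₐ[𝒪] A)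
    (hφ : ∀ i, φ (T i) ∈ maximalIdeal A) {p : P} (hp : p ∈ maximalIdeal P) :
    φ p ∈ maximalIdeal A := by
  have h1 := hA.isLocalHom
  have h2 := hA.residue_surjective
  have e : (resk h1 h2).comp φ = resk hB.isLocalHom hB.residue_surjective := by
    apply hB.lift_unique _ (residueField_test 𝒪)
    intro i
    rw [AlgHom.comp_apply, (resk_eq_zero_iff h1 h2 _).mpr (hφ i),
      (resk_eq_zero_iff hB.isLocalHom hB.residue_surjective _).mpr (hB.T_mem i)]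
  rw [← resk_eq_zero_iff h1 h2, ← AlgHom.comp_apply, e, resk_eq_zero_iff]
  exact hp

theorem IsBox.map_pow_mem (hB : IsBox 𝒪 P T) (hA : IsArtinianTestAlgebra 𝒪 A) (φ : P →ₐ[𝒪] A)
    (hφ : ∀ i, φ (T i) ∈ maximalIdeal A) (n : ℕ) {p : P} (hp : p ∈ maximalIdeal P ^ n) :
    φ p ∈ maximalIdeal A ^ n := by
  have h1 : (maximalIdeal P).map (φ : P →+* A) ≤ maximalIdeal A := by
    rw [Ideal.map_le_iff_le_comap]
    intro p hp
    exact hB.map_mem hA φ hφ hp
  have h3 := Ideal.mem_map_of_mem (φ : P →+* A) hp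
  rw [Ideal.map_pow] at h3
  exact Ideal.pow_right_mono h1 n h3

end box


section phi

variable [Finite (ResidueField 𝒪)] {X : Type} {F : PointPred 𝒪 X}

/-- a set-theoretic lift of the residual point to `𝒪` -/
noncomputable def cLift (hF : IsRigid 𝒪 X F) (i : X) : 𝒪 :=
  Classical.choose (residue_surjective (xbar hF i))

theorem residue_cLift (hF : IsRigid 𝒪 X F) (i : X) : residue 𝒪 (cLift hF i) = xbar hF i :=
  Classical.choose_spec (residue_surjective (xbar hF i))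

/-- the images of the variables -/
noncomputable def aJ (hF : IsRigid 𝒪 X F) {s : Finset X} (J : Ideal (MvPolynomial X 𝒪))
    (i : ↥s) : MvPolynomial X 𝒪 ⧸ J :=
  Ideal.Quotient.mk J (MvPolynomial.X i.1 - MvPolynomial.C (cLift hF i.1))

theorem X_sub_C_mem_mLam (hF : IsRigid 𝒪 X F) (i : X) :
    (MvPolynomial.X i - MvPolynomial.C (cLift hF i) : MvPolynomial X 𝒪) ∈ mLam hF := by
  rw [mLam, RingHom.mem_ker, map_sub]
  simp only [evbar, MvPolynomial.aeval_X, MvPolynomial.aeval_C]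
  rw [sub_eq_zero, ← residue_cLift hF i]
  rfl

theorem aJ_mem (hF : IsRigid 𝒪 X F) {s : Finset X} {J : Ideal (MvPolynomial X 𝒪)}
    [IsLocalRing (MvPolynomial X 𝒪 ⧸ J)] (htest : IsArtinianTestAlgebra 𝒪 (MvPolynomial X 𝒪 ⧸ J))
    (hFJ : F (coord J)) (i : ↥s) : aJ hF J i ∈ maximalIdeal (MvPolynomial X 𝒪 ⧸ J) :=
  (mk_mem_maximalIdeal_iff hF htest hFJ _).mpr (X_sub_C_mem_mLam hF i.1)

variable {s : Finset X} {P : Type} [CommRing P] [IsLocalRing P] [Algebra 𝒪 P] {T : ↥s → P}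

theorem exists_phiJ (hF : IsRigid 𝒪 X F) (hB : IsBox 𝒪 P T) {J : Ideal (MvPolynomial X 𝒪)}
    (hJ : InS F J) : ∃ φ : P →ₐ[𝒪] MvPolynomial X 𝒪 ⧸ J, ∀ i, φ (T i) = aJ hF J i := by
  obtain ⟨hloc, htest, hFJ⟩ := hJ
  exact hB.lift_exists _ htest _ (aJ_mem hF htest hFJ)

/-- the canonical map from the box to `Λ ⧸ J`. -/
noncomputable def phiJ (hF : IsRigid 𝒪 X F) (hB : IsBox 𝒪 P T) {J : Ideal (MvPolynomial X 𝒪)}
    (hJ : InS F J) : P →ₐ[𝒪] MvPolynomial X 𝒪 ⧸ J :=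
  Classical.choose (exists_phiJ hF hB hJ)

theorem phiJ_T (hF : IsRigid 𝒪 X F) (hB : IsBox 𝒪 P T) {J : Ideal (MvPolynomial X 𝒪)}
    (hJ : InS F J) (i : ↥s) : phiJ hF hB hJ (T i) = aJ hF J i :=
  Classical.choose_spec (exists_phiJ hF hB hJ) i

theorem phiJ_surjective (hF : IsRigid 𝒪 X F) (hs : Separates F s) (hB : IsBox 𝒪 P T)
    {J : Ideal (MvPolynomial X 𝒪)} (hJ : InS F J) : Function.Surjective (phiJ hF hB hJ) := by
  have htop := adjoin_coord_eq_top hF hs hJ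
  rw [← AlgHom.range_eq_top, eq_top_iff, ← htop, Algebra.adjoin_le_iff]
  rintro _ ⟨i, hi, rfl⟩
  refine ⟨T ⟨i, hi⟩ + algebraMap 𝒪 P (cLift hF i), ?_⟩
  change phiJ hF hB hJ (T ⟨i, hi⟩ + algebraMap 𝒪 P (cLift hF i)) = coord J i
  rw [map_add, phiJ_T, AlgHom.commutes, aJ, coord, map_sub]
  have : (algebraMap 𝒪 (MvPolynomial X 𝒪 ⧸ J)) (cLift hF i) =
      Ideal.Quotient.mk J (MvPolynomial.C (cLift hF i)) := rfl
  rw [this, sub_add_cancel]

theorem phiJ_compat (hF : IsRigid 𝒪 X F) (hB : IsBox 𝒪 P T) {J J' : Ideal (MvPolynomial X 𝒪)}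
    (hJ : InS F J) (hJ' : InS F J') (h : J ≤ J') :
    (Ideal.Quotient.factorₐ 𝒪 h).comp (phiJ hF hB hJ) = phiJ hF hB hJ' := by
  obtain ⟨hloc, htest, hFJ⟩ := id hJ'
  apply hB.lift_unique _ htest
  intro i
  rw [AlgHom.comp_apply, phiJ_T, phiJ_T, aJ, aJ, Ideal.Quotient.factorₐ_apply_mk]

theorem phiJ_mem_pow (hF : IsRigid 𝒪 X F) (hB : IsBox 𝒪 P T) {J : Ideal (MvPolynomial X 𝒪)}
    (hJ : InS F J) [IsLocalRing (MvPolynomial X 𝒪 ⧸ J)] (n : ℕ) {p : P}
    (hp : p ∈ maximalIdeal P ^ n) :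
    phiJ hF hB hJ p ∈ maximalIdeal (MvPolynomial X 𝒪 ⧸ J) ^ n := by
  obtain ⟨hloc, htest, hFJ⟩ := id hJ
  refine hB.map_pow_mem htest _ (fun i => ?_) n hp
  rw [phiJ_T]
  exact aJ_mem hF htest hFJ i

end phi

end Fermat.Agent.S53.H68
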