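import Mathlib
import Fermat.Prelude.Def_GaloisRep_DeformationCondition
import Fermat.Agent.S53.H68_Box

set_option autoImplicit false
set_option linter.style.haveILetI false
set_option linter.unusedSectionVars false

open IsLocalRing GaloisRep

namespace Fermat.Agent.S53.H68

variable {𝒪 : Type} [CommRing 𝒪] [IsLocalRing 𝒪] [Finite (ResidueField 𝒪)]
variable {X : Type} {F : PointPred 𝒪 X}

section maxpow

theorem maximalIdeal_eq_map (hF : IsRigid 𝒪 X F) {J : Ideal (MvPolynomial X 𝒪)}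
    [IsLocalRing (MvPolynomial X 𝒪 ⧸ J)] (htest : IsArtinianTestAlgebra 𝒪 (MvPolynomial X 𝒪 ⧸ J))
    (hFJ : F (coord J)) :
    maximalIdeal (MvPolynomial X 𝒪 ⧸ J) = (mLam hF).map (Ideal.Quotient.mk J) := by
  ext a
  obtain ⟨p, rfl⟩ := Ideal.Quotient.mk_surjective a
  rw [mk_mem_maximalIdeal_iff hF htest hFJ]
  constructor
  · intro hp
    exact Ideal.mem_map_of_mem _ hp
  · intro hp
    rw [Ideal.mem_map_iff_of_surjective _ Ideal.Quotient.mk_surjective] at hp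
    obtain ⟨q, hq, hqp⟩ := hp
    rw [Ideal.Quotient.eq] at hqp
    have h1 : q - p ∈ mLam hF := inS_le_mLam hF ⟨‹_›, htest, hFJ⟩ hqp
    have : p = q - (q - p) := by ring
    rw [this]
    exact Ideal.sub_mem _ hq h1

theorem maximalIdeal_pow_eq_bot_of_le (hF : IsRigid 𝒪 X F) {J : Ideal (MvPolynomial X 𝒪)}
    [IsLocalRing (MvPolynomial X 𝒪 ⧸ J)] (htest : IsArtinianTestAlgebra 𝒪 (MvPolynomial X 𝒪 ⧸ J))
    (hFJ : F (coord J)) {n : ℕ} (hn : mLam hF ^ n ≤ J) :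
    maximalIdeal (MvPolynomial X 𝒪 ⧸ J) ^ n = ⊥ := by
  rw [maximalIdeal_eq_map hF htest hFJ, ← Ideal.map_pow, Ideal.map_eq_bot_iff_le_ker, Ideal.mk_ker]
  exact hn

end maxpow

/-- membership in the `n`-th layer of the family. -/
def InSn (hF : IsRigid 𝒪 X F) (n : ℕ) (J : Ideal (MvPolynomial X 𝒪)) : Prop :=
  InS F J ∧ mLam hF ^ n ≤ J

theorem inSn_inf (hF : IsRigid 𝒪 X F) {n : ℕ} {J K : Ideal (MvPolynomial X 𝒪)}
    (hJ : InSn hF n J) (hK : InSn hF n K) : InSn hF n (J ⊓ K) :=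
  ⟨inS_inf hF hJ.1 hK.1, le_inf hJ.2 hK.2⟩

theorem inSn_mLam (hF : IsRigid 𝒪 X F) {n : ℕ} (hn : 1 ≤ n) : InSn hF n (mLam hF) :=
  ⟨inS_mLam hF, Ideal.pow_le_self (by omega)⟩

section card

variable {s : Finset X} {P : Type} [CommRing P] [IsLocalRing P] [Algebra 𝒪 P] {T : ↥s → P}
variable [IsNoetherianRing P]

theorem IsBox.finite_residueField (hB : IsBox 𝒪 P T) : Finite (ResidueField P) :=
  Finite.of_equiv _ (residueEquiv hB.isLocalHom hB.residue_surjective).toEquiv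

theorem IsBox.finite_quotient_pow (hB : IsBox 𝒪 P T) (n : ℕ) :
    Finite (P ⧸ maximalIdeal P ^ n) := by
  haveI : Finite (P ⧸ maximalIdeal P) := hB.finite_residueField
  exact Ideal.finite_quotient_pow (IsNoetherian.noetherian _) n

theorem card_le_of_inSn (hF : IsRigid 𝒪 X F) (hs : Separates F s) (hB : IsBox 𝒪 P T) {n : ℕ}
    {J : Ideal (MvPolynomial X 𝒪)} (hJ : InSn hF n J) :
    Nat.card (MvPolynomial X 𝒪 ⧸ J) ≤ Nat.card (P ⧸ maximalIdeal P ^ n) := by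
  obtain ⟨hloc, htest, hFJ⟩ := id hJ.1
  haveI := hB.finite_quotient_pow n
  have hkill : ∀ p ∈ maximalIdeal P ^ n,
      (phiJ hF hB hJ.1 : P →+* MvPolynomial X 𝒪 ⧸ J) p = 0 := by
    intro p hp
    have h1 := phiJ_mem_pow hF hB hJ.1 n hp
    rw [maximalIdeal_pow_eq_bot_of_le hF htest hFJ hJ.2] at h1
    simpa using h1
  let ψ := Ideal.Quotient.lift (maximalIdeal P ^ n)
    (phiJ hF hB hJ.1 : P →+* MvPolynomial X 𝒪 ⧸ J) hkill
  have hψ : Function.Surjective ψ := by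
    intro y
    obtain ⟨p, rfl⟩ := phiJ_surjective hF hs hB hJ.1 y
    exact ⟨Ideal.Quotient.mk _ p, by simp [ψ]⟩
  exact Nat.card_le_card_of_surjective ψ hψ

theorem exists_min (hF : IsRigid 𝒪 X F) (hs : Separates F s) (hB : IsBox 𝒪 P T) {n : ℕ}
    (hn : 1 ≤ n) :
    ∃ J, InSn hF n J ∧ ∀ K, InSn hF n K → J ≤ K := by
  let S' : Set ℕ := {m | ∃ J, InSn hF n J ∧ Nat.card (MvPolynomial X 𝒪 ⧸ J) = m}
  have hne : S'.Nonempty := ⟨_, mLam hF, inSn_mLam hF hn, rfl⟩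
  have hbdd : BddAbove S' := ⟨Nat.card (P ⧸ maximalIdeal P ^ n), by
    rintro m ⟨J, hJ, rfl⟩
    exact card_le_of_inSn hF hs hB hJ⟩
  obtain ⟨J, hJ, hJcard⟩ := Nat.sSup_mem hne hbdd
  refine ⟨J, hJ, fun K hK => ?_⟩
  have hJK := inSn_inf hF hJ hK
  have hle : Nat.card (MvPolynomial X 𝒪 ⧸ (J ⊓ K)) ≤ Nat.card (MvPolynomial X 𝒪 ⧸ J) := by
    rw [hJcard]
    exact le_csSup hbdd ⟨J ⊓ K, hJK, rfl⟩
  obtain ⟨hloc, htest, -⟩ := id hJK.1
  haveI : Finite (MvPolynomial X 𝒪 ⧸ (J ⊓ K)) := finite_of_test htest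
  have hsurj : Function.Surjective (Ideal.Quotient.factor (inf_le_left : J ⊓ K ≤ J)) :=
    Ideal.Quotient.factor_surjective _
  have hbij := hsurj.bijective_of_nat_card_le hle
  intro p hp
  have h1 : Ideal.Quotient.factor (inf_le_left : J ⊓ K ≤ J) (Ideal.Quotient.mk _ p) = 0 := by
    rw [Ideal.Quotient.factor_mk]
    exact Ideal.Quotient.eq_zero_iff_mem.mpr hp
  have h2 : Ideal.Quotient.mk (J ⊓ K) p = 0 := hbij.1 (by rw [h1, map_zero])
  exact (Ideal.Quotient.eq_zero_iff_mem.mp h2).2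

end card


section tower

variable {s : Finset X} {P : Type} [CommRing P] [IsLocalRing P] [Algebra 𝒪 P] {T : ↥s → P}
variable [IsNoetherianRing P]

/-- the minimal ideal of level `n + 1`. -/
noncomputable def Jmin (hF : IsRigid 𝒪 X F) (hs : Separates F s) (hB : IsBox 𝒪 P T) (n : ℕ) :
    Ideal (MvPolynomial X 𝒪) :=
  Classical.choose (exists_min hF hs hB (n := n + 1) (by omega))

theorem Jmin_inSn (hF : IsRigid 𝒪 X F) (hs : Separates F s) (hB : IsBox 𝒪 P T) (n : ℕ) :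
    InSn hF (n + 1) (Jmin hF hs hB n) :=
  (Classical.choose_spec (exists_min hF hs hB (n := n + 1) (by omega))).1

theorem Jmin_inS (hF : IsRigid 𝒪 X F) (hs : Separates F s) (hB : IsBox 𝒪 P T) (n : ℕ) :
    InS F (Jmin hF hs hB n) := (Jmin_inSn hF hs hB n).1

theorem Jmin_le (hF : IsRigid 𝒪 X F) (hs : Separates F s) (hB : IsBox 𝒪 P T) (n : ℕ)
    {K : Ideal (MvPolynomial X 𝒪)} (hK : InS F K) (hKn : mLam hF ^ (n + 1) ≤ K) :
    Jmin hF hs hB n ≤ K :=
  (Classical.choose_spec (exists_min hF hs hB (n := n + 1) (by omega))).2 K ⟨hK, hKn⟩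

theorem Jmin_antitone (hF : IsRigid 𝒪 X F) (hs : Separates F s) (hB : IsBox 𝒪 P T) :
    Antitone (Jmin hF hs hB) := by
  refine antitone_nat_of_succ_le fun n => ?_
  refine Jmin_le hF hs hB (n + 1) (Jmin_inS hF hs hB n) ?_
  exact le_trans (Ideal.pow_le_pow_right (by omega)) (Jmin_inSn hF hs hB n).2

theorem Jmin_eq_sup (hF : IsRigid 𝒪 X F) (hs : Separates F s) (hB : IsBox 𝒪 P T) (n : ℕ) :
    Jmin hF hs hB n = Jmin hF hs hB (n + 1) ⊔ mLam hF ^ (n + 1) := by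
  apply le_antisymm
  · refine Jmin_le hF hs hB n ?_ le_sup_right
    refine inS_mono hF (Jmin_inS hF hs hB (n + 1)) le_sup_left ?_
    intro h
    apply mLam_ne_top hF
    rw [eq_top_iff, ← h]
    exact sup_le (inS_le_mLam hF (Jmin_inS hF hs hB (n + 1))) (Ideal.pow_le_self (by omega))
  · exact sup_le (Jmin_antitone hF hs hB (Nat.le_succ n)) (Jmin_inSn hF hs hB n).2

theorem exists_Jmin_le (hF : IsRigid 𝒪 X F) (hs : Separates F s) (hB : IsBox 𝒪 P T)
    {K : Ideal (MvPolynomial X 𝒪)} (hK : InS F K) : ∃ n, Jmin hF hs hB n ≤ K := by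
  obtain ⟨n, hn⟩ := mLam_pow_le hF hK
  exact ⟨n, Jmin_le hF hs hB n hK (le_trans (Ideal.pow_le_pow_right (by omega)) hn)⟩

/-- the kernel of the box map to `Λ ⧸ Jmin n` -/
noncomputable def aKer (hF : IsRigid 𝒪 X F) (hs : Separates F s) (hB : IsBox 𝒪 P T) (n : ℕ) :
    Ideal P :=
  RingHom.ker (phiJ hF hB (Jmin_inS hF hs hB n) : P →+* MvPolynomial X 𝒪 ⧸ Jmin hF hs hB n)

theorem mem_aKer (hF : IsRigid 𝒪 X F) (hs : Separates F s) (hB : IsBox 𝒪 P T) (n : ℕ) (p : P) :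
    p ∈ aKer hF hs hB n ↔ phiJ hF hB (Jmin_inS hF hs hB n) p = 0 := Iff.rfl

theorem aKer_antitone (hF : IsRigid 𝒪 X F) (hs : Separates F s) (hB : IsBox 𝒪 P T) :
    Antitone (aKer hF hs hB) := by
  intro m n hmn p hp
  rw [mem_aKer] at hp ⊢
  have h := phiJ_compat hF hB (Jmin_inS hF hs hB n) (Jmin_inS hF hs hB m)
    (Jmin_antitone hF hs hB hmn)
  rw [← h, AlgHom.comp_apply, hp, map_zero]

theorem pow_le_aKer (hF : IsRigid 𝒪 X F) (hs : Separates F s) (hB : IsBox 𝒪 P T) (n : ℕ) :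
    maximalIdeal P ^ (n + 1) ≤ aKer hF hs hB n := by
  intro p hp
  rw [mem_aKer]
  obtain ⟨hloc, htest, hFJ⟩ := id (Jmin_inS hF hs hB n)
  have h1 := phiJ_mem_pow hF hB (Jmin_inS hF hs hB n) (n + 1) hp
  rw [maximalIdeal_pow_eq_bot_of_le hF htest hFJ (Jmin_inSn hF hs hB n).2] at h1
  simpa using h1

theorem aKer_ne_top (hF : IsRigid 𝒪 X F) (hs : Separates F s) (hB : IsBox 𝒪 P T) (n : ℕ) :
    aKer hF hs hB n ≠ ⊤ := by
  obtain ⟨hloc, htest, hFJ⟩ := id (Jmin_inS hF hs hB n)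
  exact RingHom.ker_ne_top _

theorem aKer_eq_sup (hF : IsRigid 𝒪 X F) (hs : Separates F s) (hB : IsBox 𝒪 P T) (n : ℕ) :
    aKer hF hs hB n = aKer hF hs hB (n + 1) ⊔ maximalIdeal P ^ (n + 1) := by
  apply le_antisymm
  · intro p hp
    rw [mem_aKer] at hp
    obtain ⟨hloc, htest, hFJ⟩ := id (Jmin_inS hF hs hB (n + 1))
    -- the image of `p` in `Λ ⧸ Jmin (n+1)` lies in the image of `mLam ^ (n+1)`
    have hcompat := phiJ_compat hF hB (Jmin_inS hF hs hB (n + 1)) (Jmin_inS hF hs hB n)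
      (Jmin_antitone hF hs hB (Nat.le_succ n))
    obtain ⟨q, hq⟩ := Ideal.Quotient.mk_surjective (phiJ hF hB (Jmin_inS hF hs hB (n + 1)) p)
    have hq0 : q ∈ Jmin hF hs hB n := by
      rw [← Ideal.Quotient.eq_zero_iff_mem, ← hp, ← hcompat, AlgHom.comp_apply, ← hq,
        Ideal.Quotient.factorₐ_apply_mk]
    rw [Jmin_eq_sup hF hs hB n] at hq0
    obtain ⟨j, hj, w, hw, rfl⟩ := Submodule.mem_sup.mp hq0
    -- `mk w` is in the (n+1)-st power of the maximal ideal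
    have hw' : Ideal.Quotient.mk (Jmin hF hs hB (n + 1)) w ∈
        maximalIdeal (MvPolynomial X 𝒪 ⧸ Jmin hF hs hB (n + 1)) ^ (n + 1) := by
      rw [maximalIdeal_eq_map hF htest hFJ, ← Ideal.map_pow]
      exact Ideal.mem_map_of_mem _ hw
    -- the box map maps `m_P ^ (n+1)` onto it
    have hmap : (maximalIdeal P ^ (n + 1)).map
        (phiJ hF hB (Jmin_inS hF hs hB (n + 1)) : P →+* _) =
        maximalIdeal (MvPolynomial X 𝒪 ⧸ Jmin hF hs hB (n + 1)) ^ (n + 1) := by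
      rw [Ideal.map_pow]
      congr 1
      apply le_antisymm
      · rw [Ideal.map_le_iff_le_comap]
        intro x hx
        have := phiJ_mem_pow hF hB (Jmin_inS hF hs hB (n + 1)) 1 (by simpa using hx)
        simpa using this
      · intro y hy
        obtain ⟨x, rfl⟩ := phiJ_surjective hF hs hB (Jmin_inS hF hs hB (n + 1)) y
        refine Ideal.mem_map_of_mem _ ?_
        by_contra hx
        have hu : IsUnit x := by
          by_contra hu
          exact hx ((mem_maximalIdeal x).mpr hu)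
        exact (mem_maximalIdeal _).mp hy (hu.map _)
    have hφs : Function.Surjective
        ((phiJ hF hB (Jmin_inS hF hs hB (n + 1)) :
          P →+* MvPolynomial X 𝒪 ⧸ Jmin hF hs hB (n + 1))) :=
      phiJ_surjective hF hs hB (Jmin_inS hF hs hB (n + 1))
    rw [← hmap, Ideal.mem_map_iff_of_surjective _ hφs] at hw'
    obtain ⟨z, hz, hzw⟩ := hw'
    have hpz : p - z ∈ aKer hF hs hB (n + 1) := by
      rw [mem_aKer, map_sub, ← hq, map_add, Ideal.Quotient.eq_zero_iff_mem.mpr hj, zero_add]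
      rw [sub_eq_zero]
      exact hzw.symm
    have : p = (p - z) + z := by ring
    rw [this]
    exact Ideal.add_mem _ (Submodule.mem_sup_left hpz) (Submodule.mem_sup_right hz)
  · exact sup_le (aKer_antitone hF hs hB (Nat.le_succ n)) (pow_le_aKer hF hs hB n)

end tower

end Fermat.Agent.S53.H68
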