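import Mathlib
import Fermat.Prelude.Def_GaloisRep_DeformationCondition
import Fermat.Prelude.Thm_IsLocalRing_isAdicComplete_of_module_finite
import Fermat.Agent.S53.H68_Tower
import Fermat.Agent.S53.H68_Chevalley

set_option autoImplicit false
set_option linter.style.haveILetI false
set_option linter.unusedSectionVars false

open IsLocalRing GaloisRep

namespace Fermat.Agent.S53.H68

section ML

variable {P : Type} [CommRing P] [IsLocalRing P]

/-- Mittag-Leffler type lifting for towers with `𝔞 n = 𝔞 (n+1) ⊔ m^(n+1)`. -/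
theorem exists_lift_of_tower [IsPrecomplete (maximalIdeal P) P] (𝔞 : ℕ → Ideal P)
    (h𝔞 : ∀ n, 𝔞 n = 𝔞 (n + 1) ⊔ maximalIdeal P ^ (n + 1)) (q : ℕ → P)
    (hq : ∀ n, q (n + 1) - q n ∈ 𝔞 n) : ∃ p : P, ∀ n, p - q n ∈ 𝔞 n := by
  classical
  have hstep : ∀ n (b : P), b - q n ∈ 𝔞 n →
      ∃ b' : P, b' - q (n + 1) ∈ 𝔞 (n + 1) ∧ b' - b ∈ maximalIdeal P ^ (n + 1) := by
    intro n b hb
    have h1 : q (n + 1) - b ∈ 𝔞 n := by
      have : q (n + 1) - b = (q (n + 1) - q n) - (b - q n) := by ring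
      rw [this]
      exact Ideal.sub_mem _ (hq n) hb
    rw [h𝔞 n] at h1
    obtain ⟨a, ha, y, hy, hay⟩ := Submodule.mem_sup.mp h1
    refine ⟨b + y, ?_, by simpa using hy⟩
    have : b + y - q (n + 1) = -a := by linear_combination hay
    rw [this]
    exact Ideal.neg_mem_iff _ |>.mpr ha
  let g : ℕ → P → P := fun n b =>
    if h : b - q n ∈ 𝔞 n then Classical.choose (hstep n b h) else 0
  have hg : ∀ n b, b - q n ∈ 𝔞 n →
      g n b - q (n + 1) ∈ 𝔞 (n + 1) ∧ g n b - b ∈ maximalIdeal P ^ (n + 1) := by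
    intro n b hb
    have : g n b = Classical.choose (hstep n b hb) := dif_pos hb
    rw [this]
    exact Classical.choose_spec (hstep n b hb)
  let seq : ℕ → P := fun k => Nat.rec (q 0) (fun k b => g k b) k
  have hseqS : ∀ k, seq (k + 1) = g k (seq k) := fun k => rfl
  have hseqmem : ∀ k, seq k - q k ∈ 𝔞 k := by
    intro k
    induction k with
    | zero => simp [seq]
    | succ k ih => rw [hseqS]; exact (hg _ _ ih).1
  have hseqs : ∀ k, seq (k + 1) - seq k ∈ maximalIdeal P ^ (k + 1) := fun k => by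
    rw [hseqS]; exact (hg _ _ (hseqmem k)).2
  have hseqj : ∀ k j, seq (k + j) - seq k ∈ maximalIdeal P ^ (k + 1) := by
    intro k j
    induction j with
    | zero => simp
    | succ j ih =>
      have h1 := hseqs (k + j)
      have h2 : maximalIdeal P ^ (k + j + 1) ≤ maximalIdeal P ^ (k + 1) :=
        Ideal.pow_le_pow_right (by omega)
      have e : seq (k + (j + 1)) - seq k =
          (seq (k + j + 1) - seq (k + j)) + (seq (k + j) - seq k) := by
        rw [← add_assoc]; ring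
      rw [e]
      exact Ideal.add_mem _ (h2 h1) ih
  have hcauchy : ∀ {m n}, m ≤ n →
      seq m ≡ seq n [SMOD (maximalIdeal P ^ m • ⊤ : Submodule P P)] := by
    intro m n hmn
    rw [SModEq.sub_mem, smul_eq_mul, Ideal.mul_top]
    have h1 := hseqj m (n - m)
    have e : m + (n - m) = n := by omega
    rw [e] at h1
    have h2 : maximalIdeal P ^ (m + 1) ≤ maximalIdeal P ^ m := Ideal.pow_le_pow_right (by omega)
    have : seq m - seq n = -(seq n - seq m) := by ring
    rw [this]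
    exact Ideal.neg_mem_iff _ |>.mpr (h2 h1)
  obtain ⟨L, hL⟩ := IsPrecomplete.prec (inferInstance : IsPrecomplete (maximalIdeal P) P) hcauchy
  refine ⟨L, fun n => ?_⟩
  have hpow : maximalIdeal P ^ (n + 1) ≤ 𝔞 n := by rw [h𝔞 n]; exact le_sup_right
  have h1 : seq (n + 1) - L ∈ maximalIdeal P ^ (n + 1) := by
    have := hL (n + 1)
    rwa [SModEq.sub_mem, smul_eq_mul, Ideal.mul_top] at this
  have e : L - q n = -(seq (n + 1) - L) + (seq (n + 1) - seq n) + (seq n - q n) := by ring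
  rw [e]
  refine Ideal.add_mem _ (Ideal.add_mem _ ?_ (hpow (hseqs n))) (hseqmem n)
  exact Ideal.neg_mem_iff _ |>.mpr (hpow h1)

end ML


section ring

variable {𝒪 : Type} [CommRing 𝒪] [IsLocalRing 𝒪] [Finite (ResidueField 𝒪)]
variable {X : Type} {F : PointPred 𝒪 X}
variable {s : Finset X} {P : Type} [CommRing P] [IsLocalRing P] [Algebra 𝒪 P] {T : ↥s → P}
variable [IsNoetherianRing P]

/-- the intersection of the kernels -/
noncomputable def aInf (hF : IsRigid 𝒪 X F) (hs : Separates F s) (hB : IsBox 𝒪 P T) : Ideal P :=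
  ⨅ n, aKer hF hs hB n

theorem aInf_le (hF : IsRigid 𝒪 X F) (hs : Separates F s) (hB : IsBox 𝒪 P T) (n : ℕ) :
    aInf hF hs hB ≤ aKer hF hs hB n := iInf_le _ n

theorem aInf_ne_top (hF : IsRigid 𝒪 X F) (hs : Separates F s) (hB : IsBox 𝒪 P T) :
    aInf hF hs hB ≠ ⊤ := fun h =>
  aKer_ne_top hF hs hB 0 (top_le_iff.mp (h ▸ aInf_le hF hs hB 0))

theorem aKer_eq_add (hF : IsRigid 𝒪 X F) (hs : Separates F s) (hB : IsBox 𝒪 P T) (n j : ℕ) :
    aKer hF hs hB n = aKer hF hs hB (n + j) ⊔ maximalIdeal P ^ (n + 1) := by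
  induction j with
  | zero =>
    rw [add_zero, eq_comm, sup_eq_left]
    exact pow_le_aKer hF hs hB n
  | succ j ih =>
    rw [ih, aKer_eq_sup hF hs hB (n + j), sup_assoc, ← add_assoc]
    congr 1
    rw [sup_eq_right]
    exact Ideal.pow_le_pow_right (by omega)

theorem aKer_eq_aInf_sup [IsAdicComplete (maximalIdeal P) P] (hF : IsRigid 𝒪 X F)
    (hs : Separates F s) (hB : IsBox 𝒪 P T) (n : ℕ) :
    aKer hF hs hB n = aInf hF hs hB ⊔ maximalIdeal P ^ (n + 1) := by
  haveI := hB.finite_residueField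
  apply le_antisymm
  · obtain ⟨n', hn'⟩ := chevalley (aKer hF hs hB) (aKer_antitone hF hs hB) (n + 1)
    have h1 : aKer hF hs hB (n + n') ≤ aKer hF hs hB n' :=
      aKer_antitone hF hs hB (Nat.le_add_left _ _)
    rw [aKer_eq_add hF hs hB n n']
    exact sup_le (h1.trans hn') le_sup_right
  · exact sup_le (aInf_le hF hs hB n) (pow_le_aKer hF hs hB n)

/-- the universal ring -/
abbrev Runiv (hF : IsRigid 𝒪 X F) (hs : Separates F s) (hB : IsBox 𝒪 P T) : Type :=
  P ⧸ aInf hF hs hB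

instance Runiv_nontrivial (hF : IsRigid 𝒪 X F) (hs : Separates F s) (hB : IsBox 𝒪 P T) :
    Nontrivial (Runiv hF hs hB) := Ideal.Quotient.nontrivial_iff.mpr (aInf_ne_top hF hs hB)

instance Runiv_isLocalRing (hF : IsRigid 𝒪 X F) (hs : Separates F s) (hB : IsBox 𝒪 P T) :
    IsLocalRing (Runiv hF hs hB) :=
  IsLocalRing.of_surjective' (Ideal.Quotient.mk (aInf hF hs hB)) Ideal.Quotient.mk_surjective

instance Runiv_mk_isLocalHom (hF : IsRigid 𝒪 X F) (hs : Separates F s) (hB : IsBox 𝒪 P T) :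
    IsLocalHom (Ideal.Quotient.mk (aInf hF hs hB)) :=
  IsLocalHom.of_surjective _ Ideal.Quotient.mk_surjective

theorem Runiv_isLocalHom (hF : IsRigid 𝒪 X F) (hs : Separates F s) (hB : IsBox 𝒪 P T) :
    IsLocalHom (algebraMap 𝒪 (Runiv hF hs hB)) := by
  haveI := hB.isLocalHom
  have : algebraMap 𝒪 (Runiv hF hs hB) =
      (Ideal.Quotient.mk (aInf hF hs hB)).comp (algebraMap 𝒪 P) := rfl
  rw [this]
  infer_instance

theorem Runiv_residue_surjective (hF : IsRigid 𝒪 X F) (hs : Separates F s) (hB : IsBox 𝒪 P T) :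
    Function.Surjective (residue (Runiv hF hs hB) ∘ algebraMap 𝒪 (Runiv hF hs hB)) := by
  intro y
  obtain ⟨r, rfl⟩ := residue_surjective y
  obtain ⟨p, rfl⟩ := Ideal.Quotient.mk_surjective r
  obtain ⟨c, hc⟩ := exists_sub_mem' hB.residue_surjective p
  refine ⟨c, ?_⟩
  change residue _ (algebraMap 𝒪 _ c) = residue _ (Ideal.Quotient.mk _ p)
  rw [eq_comm, ← sub_eq_zero, ← map_sub, residue_eq_zero_iff]
  have : Ideal.Quotient.mk (aInf hF hs hB) p - algebraMap 𝒪 (Runiv hF hs hB) c =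
      Ideal.Quotient.mk (aInf hF hs hB) (p - algebraMap 𝒪 P c) := by
    rw [map_sub]; rfl
  rw [this]
  exact map_nonunit (Ideal.Quotient.mk (aInf hF hs hB)) _ hc

theorem Runiv_isAdicComplete [IsAdicComplete (maximalIdeal P) P] (hF : IsRigid 𝒪 X F)
    (hs : Separates F s) (hB : IsBox 𝒪 P T) :
    IsAdicComplete (maximalIdeal (Runiv hF hs hB)) (Runiv hF hs hB) := by
  haveI : IsLocalHom (algebraMap P (Runiv hF hs hB)) := Runiv_mk_isLocalHom hF hs hB
  exact IsLocalRing.isAdicComplete_of_module_finite (𝒪 := P) (T := Runiv hF hs hB)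

end ring


section maps

variable {𝒪 : Type} [CommRing 𝒪] [IsLocalRing 𝒪] [Finite (ResidueField 𝒪)]
variable {X : Type} {F : PointPred 𝒪 X}
variable {s : Finset X} {P : Type} [CommRing P] [IsLocalRing P] [Algebra 𝒪 P] {T : ↥s → P}
variable [IsNoetherianRing P]

/-- the projection `R → Λ ⧸ Jmin n`. -/
noncomputable def rhoN (hF : IsRigid 𝒪 X F) (hs : Separates F s) (hB : IsBox 𝒪 P T) (n : ℕ) :
    Runiv hF hs hB →ₐ[𝒪] MvPolynomial X 𝒪 ⧸ Jmin hF hs hB n :=
  Ideal.Quotient.liftₐ (aInf hF hs hB) (phiJ hF hB (Jmin_inS hF hs hB n))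
    (fun p hp => (mem_aKer hF hs hB n p).mp (aInf_le hF hs hB n hp))

theorem rhoN_mk (hF : IsRigid 𝒪 X F) (hs : Separates F s) (hB : IsBox 𝒪 P T) (n : ℕ) (p : P) :
    rhoN hF hs hB n (Ideal.Quotient.mk _ p) = phiJ hF hB (Jmin_inS hF hs hB n) p := rfl

theorem rhoN_surjective (hF : IsRigid 𝒪 X F) (hs : Separates F s) (hB : IsBox 𝒪 P T) (n : ℕ) :
    Function.Surjective (rhoN hF hs hB n) := by
  intro y
  obtain ⟨p, rfl⟩ := phiJ_surjective hF hs hB (Jmin_inS hF hs hB n) y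
  exact ⟨Ideal.Quotient.mk _ p, rfl⟩

theorem rhoN_compat (hF : IsRigid 𝒪 X F) (hs : Separates F s) (hB : IsBox 𝒪 P T) {m n : ℕ}
    (hmn : m ≤ n) :
    (Ideal.Quotient.factorₐ 𝒪 (Jmin_antitone hF hs hB hmn)).comp (rhoN hF hs hB n) =
      rhoN hF hs hB m := by
  apply AlgHom.ext
  intro r
  obtain ⟨p, rfl⟩ := Ideal.Quotient.mk_surjective r
  rw [AlgHom.comp_apply, rhoN_mk, rhoN_mk, ← phiJ_compat hF hB (Jmin_inS hF hs hB n)
    (Jmin_inS hF hs hB m) (Jmin_antitone hF hs hB hmn)]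
  rfl

theorem eq_zero_of_forall_rhoN (hF : IsRigid 𝒪 X F) (hs : Separates F s) (hB : IsBox 𝒪 P T)
    (r : Runiv hF hs hB) (h : ∀ n, rhoN hF hs hB n r = 0) : r = 0 := by
  obtain ⟨p, rfl⟩ := Ideal.Quotient.mk_surjective r
  rw [Ideal.Quotient.eq_zero_iff_mem, aInf, Ideal.mem_iInf]
  intro n
  exact (mem_aKer hF hs hB n p).mpr (h n)

theorem maximalIdeal_Runiv (hF : IsRigid 𝒪 X F) (hs : Separates F s) (hB : IsBox 𝒪 P T) :
    maximalIdeal (Runiv hF hs hB) = (maximalIdeal P).map (Ideal.Quotient.mk (aInf hF hs hB)) := by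
  ext r
  obtain ⟨p, rfl⟩ := Ideal.Quotient.mk_surjective r
  constructor
  · intro hp
    refine Ideal.mem_map_of_mem _ ?_
    by_contra hx
    have hu : IsUnit p := by
      by_contra hu
      exact hx ((mem_maximalIdeal p).mpr hu)
    exact (mem_maximalIdeal _).mp hp (hu.map _)
  · intro hp
    rw [Ideal.mem_map_iff_of_surjective _ Ideal.Quotient.mk_surjective] at hp
    obtain ⟨q, hq, hqp⟩ := hp
    rw [← hqp]
    exact map_nonunit (Ideal.Quotient.mk (aInf hF hs hB)) _ hq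

theorem ker_rhoN [IsAdicComplete (maximalIdeal P) P] (hF : IsRigid 𝒪 X F) (hs : Separates F s)
    (hB : IsBox 𝒪 P T) (n : ℕ) (r : Runiv hF hs hB) :
    rhoN hF hs hB n r = 0 ↔ r ∈ maximalIdeal (Runiv hF hs hB) ^ (n + 1) := by
  obtain ⟨p, rfl⟩ := Ideal.Quotient.mk_surjective r
  rw [rhoN_mk, ← mem_aKer, aKer_eq_aInf_sup hF hs hB n, maximalIdeal_Runiv, ← Ideal.map_pow,
    Ideal.mem_map_iff_of_surjective _ Ideal.Quotient.mk_surjective]
  constructor
  · intro hp
    obtain ⟨a, ha, y, hy, rfl⟩ := Submodule.mem_sup.mp hp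
    refine ⟨y, hy, ?_⟩
    rw [map_add, Ideal.Quotient.eq_zero_iff_mem.mpr ha, zero_add]
  · rintro ⟨y, hy, hyp⟩
    rw [Ideal.Quotient.eq] at hyp
    have : p = -(y - p) + y := by ring
    rw [this]
    exact Ideal.add_mem _ (Submodule.mem_sup_left (Ideal.neg_mem_iff _ |>.mpr hyp))
      (Submodule.mem_sup_right hy)

end maps

end Fermat.Agent.S53.H68
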