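import Mathlib
import Fermat.Prelude.Def_GaloisRep_DeformationCondition
import Fermat.Agent.S53.H68_Ring

set_option autoImplicit false
set_option linter.style.haveILetI false
set_option linter.unusedSectionVars false

open IsLocalRing GaloisRep

namespace Fermat.Agent.S53.H68

section upoint

variable {𝒪 : Type} [CommRing 𝒪] [IsLocalRing 𝒪] [Finite (ResidueField 𝒪)]
variable {X : Type} {F : PointPred 𝒪 X}
variable {s : Finset X} {P : Type} [CommRing P] [IsLocalRing P] [Algebra 𝒪 P] {T : ↥s → P}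
variable [IsNoetherianRing P] [IsAdicComplete (maximalIdeal P) P]

theorem exists_upoint (hF : IsRigid 𝒪 X F) (hs : Separates F s) (hB : IsBox 𝒪 P T) (x : X) :
    ∃ r : Runiv hF hs hB, ∀ n, rhoN hF hs hB n r = coord (Jmin hF hs hB n) x := by
  have hsurj := fun n => phiJ_surjective hF hs hB (Jmin_inS hF hs hB n)
  choose q hq using fun n => hsurj n (coord (Jmin hF hs hB n) x)
  have hq' : ∀ n, q (n + 1) - q n ∈ aKer hF hs hB n := by
    intro n
    rw [mem_aKer, map_sub, hq n, ← phiJ_compat hF hB (Jmin_inS hF hs hB (n + 1))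
      (Jmin_inS hF hs hB n) (Jmin_antitone hF hs hB (Nat.le_succ n)), AlgHom.comp_apply, hq (n + 1),
      sub_eq_zero]
    simp [coord]
  obtain ⟨p, hp⟩ := exists_lift_of_tower (aKer hF hs hB) (aKer_eq_sup hF hs hB) q hq'
  refine ⟨Ideal.Quotient.mk _ p, fun n => ?_⟩
  rw [rhoN_mk, ← hq n, ← sub_eq_zero, ← map_sub]
  exact (mem_aKer hF hs hB n _).mp (hp n)

/-- the universal point -/
noncomputable def upoint (hF : IsRigid 𝒪 X F) (hs : Separates F s) (hB : IsBox 𝒪 P T) :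
    X → Runiv hF hs hB := fun x => Classical.choose (exists_upoint hF hs hB x)

theorem rhoN_upoint (hF : IsRigid 𝒪 X F) (hs : Separates F s) (hB : IsBox 𝒪 P T) (n : ℕ) (x : X) :
    rhoN hF hs hB n (upoint hF hs hB x) = coord (Jmin hF hs hB n) x :=
  Classical.choose_spec (exists_upoint hF hs hB x) n

theorem rhoN_comp_upoint (hF : IsRigid 𝒪 X F) (hs : Separates F s) (hB : IsBox 𝒪 P T) (n : ℕ) :
    ⇑(rhoN hF hs hB n) ∘ upoint hF hs hB = coord (Jmin hF hs hB n) :=
  funext fun x => rhoN_upoint hF hs hB n x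

/-- evaluating polynomials at the universal point and projecting is the quotient map -/
theorem rhoN_aeval_upoint (hF : IsRigid 𝒪 X F) (hs : Separates F s) (hB : IsBox 𝒪 P T) (n : ℕ)
    (p : MvPolynomial X 𝒪) :
    rhoN hF hs hB n (MvPolynomial.aeval (upoint hF hs hB) p) =
      Ideal.Quotient.mk (Jmin hF hs hB n) p := by
  have : (rhoN hF hs hB n).comp (MvPolynomial.aeval (upoint hF hs hB)) =
      Ideal.Quotient.mkₐ 𝒪 (Jmin hF hs hB n) := by
    apply MvPolynomial.algHom_ext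
    intro i
    rw [AlgHom.comp_apply, MvPolynomial.aeval_X, rhoN_upoint]
    rfl
  exact congrArg (fun φ => φ p) this

theorem mk_T_eq (hF : IsRigid 𝒪 X F) (hs : Separates F s) (hB : IsBox 𝒪 P T) (i : ↥s) :
    Ideal.Quotient.mk (aInf hF hs hB) (T i) =
      upoint hF hs hB i.1 - algebraMap 𝒪 (Runiv hF hs hB) (cLift hF i.1) := by
  rw [← sub_eq_zero]
  apply eq_zero_of_forall_rhoN
  intro n
  rw [map_sub, map_sub, rhoN_mk, phiJ_T, rhoN_upoint, AlgHom.commutes, aJ, coord, map_sub]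
  have : (algebraMap 𝒪 (MvPolynomial X 𝒪 ⧸ Jmin hF hs hB n)) (cLift hF i.1) =
      Ideal.Quotient.mk _ (MvPolynomial.C (cLift hF i.1)) := rfl
  rw [this, sub_self]

end upoint


section localhom

variable {𝒪 : Type} [CommRing 𝒪]
variable {R B : Type} [CommRing R] [IsLocalRing R] [Algebra 𝒪 R]
  [CommRing B] [IsLocalRing B] [Algebra 𝒪 B]

/-- every `𝒪`-algebra hom into a local `𝒪`-algebra whose residue field is generated by `𝒪`
is a local hom. -/
theorem isLocalHom_of_residue_surjective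
    (hres : Function.Surjective (residue B ∘ algebraMap 𝒪 B)) (ψ : R →ₐ[𝒪] B) :
    IsLocalHom (ψ : R →+* B) := by
  constructor
  intro a ha
  have ha' : IsUnit (ψ a) := ha
  by_contra hna
  have hru : residue B (ψ a) ≠ 0 := by
    rw [Ne, residue_eq_zero_iff, mem_maximalIdeal, mem_nonunits_iff, not_not]
    exact ha'
  obtain ⟨c, hc⟩ := hres (residue B (ψ a))⁻¹
  rw [Function.comp_apply] at hc
  have hmem : algebraMap 𝒪 R c * a ∈ maximalIdeal R :=
    Ideal.mul_mem_left _ _ ((mem_maximalIdeal a).mpr hna)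
  have hunit : IsUnit (1 - algebraMap 𝒪 R c * a) :=
    IsLocalRing.isUnit_one_sub_self_of_mem_nonunits _ hmem
  have hunit' : IsUnit (ψ (1 - algebraMap 𝒪 R c * a)) := hunit.map ψ
  rw [map_sub, map_one, map_mul, AlgHom.commutes] at hunit'
  have hzero : residue B (1 - algebraMap 𝒪 B c * ψ a) = 0 := by
    rw [map_sub, map_one, map_mul, hc, inv_mul_cancel₀ hru, sub_self]
  rw [residue_eq_zero_iff, mem_maximalIdeal, mem_nonunits_iff] at hzero
  exact hzero hunit'

end localhom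

section artinian

variable {𝒪 : Type} [CommRing 𝒪] [IsLocalRing 𝒪] [Finite (ResidueField 𝒪)]
variable {X : Type} {F : PointPred 𝒪 X}
variable {s : Finset X} {P : Type} [CommRing P] [IsLocalRing P] [Algebra 𝒪 P] {T : ↥s → P}
variable [IsNoetherianRing P] [IsAdicComplete (maximalIdeal P) P]
variable {B : Type} [CommRing B] [IsLocalRing B] [Algebra 𝒪 B]

theorem comp_aeval_eq (hF : IsRigid 𝒪 X F) (hs : Separates F s) (hB : IsBox 𝒪 P T)
    (q : Runiv hF hs hB →ₐ[𝒪] B) :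
    q.comp (MvPolynomial.aeval (upoint hF hs hB)) =
      (MvPolynomial.aeval (⇑q ∘ upoint hF hs hB) : MvPolynomial X 𝒪 →ₐ[𝒪] B) := by
  apply MvPolynomial.algHom_ext
  intro i
  simp

theorem F_comp_upoint (hF : IsRigid 𝒪 X F) (hs : Separates F s) (hB : IsBox 𝒪 P T)
    (hBt : IsArtinianTestAlgebra 𝒪 B) (q : Runiv hF hs hB →ₐ[𝒪] B) :
    F (⇑q ∘ upoint hF hs hB) := by
  haveI hq : IsLocalHom (q : Runiv hF hs hB →+* B) :=
    isLocalHom_of_residue_surjective hBt.residue_surjective q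
  obtain ⟨N, hN⟩ := maximalIdeal_nilpotent hBt
  -- `q` kills `m_R ^ (N + 1)`
  have hkill : ∀ r ∈ maximalIdeal (Runiv hF hs hB) ^ (N + 1), q r = 0 := by
    intro r hr
    have h1 : (maximalIdeal (Runiv hF hs hB)).map (q : Runiv hF hs hB →+* B) ≤ maximalIdeal B := by
      rw [Ideal.map_le_iff_le_comap]
      intro x hx
      exact map_nonunit (q : Runiv hF hs hB →+* B) x hx
    have h3 := Ideal.mem_map_of_mem (q : Runiv hF hs hB →+* B) hr
    rw [Ideal.map_pow] at h3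
    have h4 := Ideal.pow_right_mono h1 (N + 1) h3
    rw [pow_succ, hN, Ideal.bot_mul] at h4
    simpa using h4
  obtain ⟨hloc, htest, hFJ⟩ := id (Jmin_inS hF hs hB N)
  have hker : ∀ p ∈ Jmin hF hs hB N,
      (MvPolynomial.aeval (⇑q ∘ upoint hF hs hB) : MvPolynomial X 𝒪 →ₐ[𝒪] B) p = 0 := by
    intro p hp
    rw [← comp_aeval_eq, AlgHom.comp_apply]
    apply hkill
    rw [← ker_rhoN, rhoN_aeval_upoint]
    exact Ideal.Quotient.eq_zero_iff_mem.mpr hp
  let q' : (MvPolynomial X 𝒪 ⧸ Jmin hF hs hB N) →ₐ[𝒪] B :=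
    Ideal.Quotient.liftₐ _ (MvPolynomial.aeval (⇑q ∘ upoint hF hs hB)) hker
  have hq' : ⇑q' ∘ coord (Jmin hF hs hB N) = ⇑q ∘ upoint hF hs hB := by
    have hcomp : q'.comp (Ideal.Quotient.mkₐ 𝒪 (Jmin hF hs hB N)) =
        MvPolynomial.aeval (⇑q ∘ upoint hF hs hB) := Ideal.Quotient.liftₐ_comp _ _ hker
    funext i
    have := congrArg (fun φ => φ (MvPolynomial.X i)) hcomp
    simpa [coord] using this
  rw [← hq']
  exact hF.map htest hBt q' (isLocalHom_of_test htest q') hFJ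

theorem algHom_ext_of_upoint (hF : IsRigid 𝒪 X F) (hs : Separates F s) (hB : IsBox 𝒪 P T)
    (hBt : IsArtinianTestAlgebra 𝒪 B) (ψ ψ' : Runiv hF hs hB →ₐ[𝒪] B)
    (h : ⇑ψ ∘ upoint hF hs hB = ⇑ψ' ∘ upoint hF hs hB) : ψ = ψ' := by
  have h1 : ψ.comp (Ideal.Quotient.mkₐ 𝒪 (aInf hF hs hB)) =
      ψ'.comp (Ideal.Quotient.mkₐ 𝒪 (aInf hF hs hB)) := by
    apply hB.lift_unique _ hBt
    intro i
    simp only [AlgHom.comp_apply, Ideal.Quotient.mkₐ_eq_mk]
    rw [mk_T_eq, map_sub, map_sub, AlgHom.commutes, AlgHom.commutes]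
    have := congrFun h i.1
    simp only [Function.comp_apply] at this
    rw [this]
  apply AlgHom.ext
  intro r
  obtain ⟨p, rfl⟩ := Ideal.Quotient.mk_surjective r
  exact congrArg (fun φ => φ p) h1

theorem exists_unique_artinian (hF : IsRigid 𝒪 X F) (hs : Separates F s) (hB : IsBox 𝒪 P T)
    (hBt : IsArtinianTestAlgebra 𝒪 B) (w : X → B) (hw : F w) :
    ∃! ψ : Runiv hF hs hB →ₐ[𝒪] B,
      IsLocalHom (ψ : Runiv hF hs hB →+* B) ∧ ⇑ψ ∘ upoint hF hs hB = w := by
  have hK := inS_ker hF hBt hw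
  obtain ⟨n, hn⟩ := exists_Jmin_le hF hs hB hK
  let ψ : Runiv hF hs hB →ₐ[𝒪] B :=
    (Ideal.kerLiftAlg (MvPolynomial.aeval w : MvPolynomial X 𝒪 →ₐ[𝒪] B)).comp
      ((Ideal.Quotient.factorₐ 𝒪 hn).comp (rhoN hF hs hB n))
  have hψ : ⇑ψ ∘ upoint hF hs hB = w := by
    funext x
    simp only [ψ, Function.comp_apply, AlgHom.comp_apply, rhoN_upoint]
    have h1 := congrFun (factor_comp_coord (𝒪 := 𝒪) hn) x
    simp only [Function.comp_apply] at h1
    rw [h1]
    exact congrFun (kerLift_comp_coord w) x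
  refine ⟨ψ, ⟨isLocalHom_of_residue_surjective hBt.residue_surjective ψ, hψ⟩, ?_⟩
  rintro ψ' ⟨-, hψ'⟩
  exact algHom_ext_of_upoint hF hs hB hBt ψ' ψ (hψ'.trans hψ.symm)

end artinian

end Fermat.Agent.S53.H68
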