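import Mathlib
import Fermat.Prelude.Def_GaloisRep_DeformationCondition
import Fermat.Agent.S53.H68_Universal
import Fermat.Agent.S53.H2_PowerSeriesBox
import Fermat.Agent.S53.H57_CompleteUniversal

set_option autoImplicit false
set_option linter.style.haveILetI false
set_option linter.unusedSectionVars false

open IsLocalRing GaloisRep

namespace Fermat.Agent.S53.H68

/-- Abstract pro-representability: a closed rigid deformation problem with finite tangent set is
pro-represented by a complete Noetherian local `𝒪`-algebra. -/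
theorem exists_prorep (𝒪 : Type) [CommRing 𝒪] [IsDomain 𝒪] [IsDiscreteValuationRing 𝒪]
    [IsAdicComplete (maximalIdeal 𝒪) 𝒪] [Finite (ResidueField 𝒪)]
    (X : Type) (F : PointPred 𝒪 X) (hF : IsRigid 𝒪 X F) :
    ∃ (R : Type) (_ : CommRing R) (_ : IsLocalRing R) (_ : IsNoetherianRing R)
      (_ : IsAdicComplete (maximalIdeal R) R) (_ : Algebra 𝒪 R)
      (_ : IsLocalHom (algebraMap 𝒪 R)),
      Function.Surjective (residue R ∘ algebraMap 𝒪 R) ∧ ∃ u : X → R,
        (∀ (B : Type) [CommRing B] [IsLocalRing B] [Algebra 𝒪 B], IsArtinianTestAlgebra 𝒪 B →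
          ∀ q : R →ₐ[𝒪] B, IsLocalHom (q : R →+* B) → F (⇑q ∘ u)) ∧
        (∀ (A : Type) [CommRing A] [IsLocalRing A] [IsNoetherianRing A]
          [IsAdicComplete (maximalIdeal A) A] [Algebra 𝒪 A] [IsLocalHom (algebraMap 𝒪 A)],
          Function.Surjective (residue A ∘ algebraMap 𝒪 A) → ∀ v : X → A,
          (∀ (B : Type) [CommRing B] [IsLocalRing B] [Algebra 𝒪 B], IsArtinianTestAlgebra 𝒪 B →
            ∀ q : A →ₐ[𝒪] B, IsLocalHom (q : A →+* B) → Function.Surjective q → F (⇑q ∘ v)) →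
          ∃! φ : R →ₐ[𝒪] A, IsLocalHom (φ : R →+* A) ∧ ⇑φ ∘ u = v) := by
  obtain ⟨s, hs⟩ := exists_separates hF
  obtain ⟨P, iP1, iP2, iP3, iP4, iP5, iP6, hres, T, hT, hex, huniq⟩ :=
    Fermat.Agent.S53.H2.powerSeriesBox 𝒪 (↥s)
  have hB : IsBox 𝒪 P T := ⟨iP6, hres, hT, hex, huniq⟩
  refine ⟨Runiv hF hs hB, inferInstance, inferInstance, inferInstance,
    Runiv_isAdicComplete hF hs hB, inferInstance, Runiv_isLocalHom hF hs hB,
    Runiv_residue_surjective hF hs hB, upoint hF hs hB, ?_, ?_⟩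
  · intro B _ _ _ hBt q _
    exact F_comp_upoint hF hs hB hBt q
  · intro A _ _ _ _ _ _ hresA v hv
    exact Fermat.Agent.S53.H57.completeUniversal_of_artinianUniversal 𝒪 (Runiv hF hs hB) X
      (upoint hF hs hB) F
      (fun B _ _ _ hBt w hw => exists_unique_artinian hF hs hB hBt w hw) A hresA v
      (fun B _ _ _ hBt q hq hqs => hv B hBt q hq hqs)

end Fermat.Agent.S53.H68
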