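import Mathlib
import Fermat.Prelude.Def_GaloisRep_DeformationRingData
import Fermat.Prelude.Def_GaloisRep_DeformationCondition

set_option autoImplicit false

open scoped TensorProduct

namespace Fermat.Agent.S53.H53

/-- The absolute Galois group of `ℚ`. -/
abbrev GQ : Type := AlgebraicClosure ℚ ≃ₐ[ℚ] AlgebraicClosure ℚ

/-- Two by two matrices. -/
abbrev M2 (A : Type) : Type := Matrix (Fin 2) (Fin 2) A

section smulTop

variable {A : Type} [CommRing A]

theorem mem_smul_top_pi_iff (I : Ideal A) (v : Fin 2 → A) :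
    v ∈ I • (⊤ : Submodule A (Fin 2 → A)) ↔ ∀ i, v i ∈ I := by
  constructor
  · intro hv
    refine Submodule.smul_induction_on hv ?_ ?_
    · intro a ha w _ i
      simpa using I.mul_mem_right (w i) ha
    · intro x y hx hy i
      simpa using I.add_mem (hx i) (hy i)
  · intro hv
    have : v = ∑ i, v i • (Pi.single i (1 : A) : Fin 2 → A) := by
      ext j
      simp [Finset.sum_apply, Pi.single_apply]
    rw [this]
    exact Submodule.sum_mem _ fun i _ => Submodule.smul_mem_smul (hv i) Submodule.mem_top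

end smulTop

section MatCont

variable {A : Type} [CommRing A] [IsLocalRing A]

/-- Adic continuity of a family of matrices indexed by the Galois group. -/
def MatCont (x : GQ → M2 A) : Prop :=
  ∀ n : ℕ, ∃ L : IntermediateField ℚ (AlgebraicClosure ℚ), FiniteDimensional ℚ L ∧
    ∀ σ : GQ, (∀ y ∈ L, σ y = y) → ∀ i j, (x σ - 1) i j ∈ IsLocalRing.maximalIdeal A ^ n

/-- The representation attached to a continuous matrix valued homomorphism. -/
noncomputable abbrev ofMat (x : GQ →* M2 A) (hx : MatCont x) : GaloisRepAdic A :=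
  { V := Fin 2 → A
    finrank_eq := by simp
    ρ := ((Matrix.toLinAlgEquiv' : M2 A ≃ₐ[A] Module.End A (Fin 2 → A)) :
      M2 A →* Module.End A (Fin 2 → A)).comp x
    isAdicContinuous := by
      intro n
      obtain ⟨L, hL, h⟩ := hx n
      refine ⟨L, hL, fun σ hσ v => ?_⟩
      rw [mem_smul_top_pi_iff]
      intro i
      have h1 : (((Matrix.toLinAlgEquiv' : M2 A ≃ₐ[A] Module.End A (Fin 2 → A)) :
          M2 A →* Module.End A (Fin 2 → A)).comp x) σ v - v = (x σ - 1).mulVec v := by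
        simp [Matrix.sub_mulVec]
      rw [h1, Matrix.mulVec, dotProduct]
      exact Ideal.sum_mem _ fun j _ => Ideal.mul_mem_right _ _ (h σ hσ i j) }

@[simp] theorem ofMat_V (x : GQ →* M2 A) (hx : MatCont x) : (ofMat x hx).V = (Fin 2 → A) := rfl

theorem ofMat_ρ_apply (x : GQ →* M2 A) (hx : MatCont x) (σ : GQ) (v : Fin 2 → A) :
    (ofMat x hx).ρ σ v = (x σ).mulVec v := by
  show Matrix.toLinAlgEquiv' (x σ) v = _
  rw [Matrix.toLinAlgEquiv'_apply]

end MatCont

section EquivOfMatrix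

variable {A : Type} [CommRing A] [IsLocalRing A]

/-- The matrix of a representation in a basis. -/
noncomputable def matOf (ρ : GaloisRepAdic A) (b : Module.Basis (Fin 2) A ρ.V) : GQ →* M2 A :=
  ((LinearMap.toMatrixAlgEquiv b : Module.End A ρ.V ≃ₐ[A] M2 A) :
    Module.End A ρ.V →* M2 A).comp ρ.ρ

theorem matOf_apply (ρ : GaloisRepAdic A) (b : Module.Basis (Fin 2) A ρ.V) (σ : GQ) :
    matOf ρ b σ = LinearMap.toMatrix b b (ρ.ρ σ) := rfl

/-- Two representations having the same matrices in some bases are equivalent. -/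
theorem isEquiv_of_matOf_eq {ρ₁ ρ₂ : GaloisRepAdic A} (b₁ : Module.Basis (Fin 2) A ρ₁.V)
    (b₂ : Module.Basis (Fin 2) A ρ₂.V) (h : ∀ σ, matOf ρ₁ b₁ σ = matOf ρ₂ b₂ σ) :
    ρ₁.IsEquiv ρ₂ := by
  refine ⟨⟨b₁.equiv b₂ (Equiv.refl _), fun σ x => ?_⟩⟩
  have key : ((b₁.equiv b₂ (Equiv.refl _)).toLinearMap ∘ₗ (ρ₁.ρ σ)) =
      (ρ₂.ρ σ) ∘ₗ (b₁.equiv b₂ (Equiv.refl _)).toLinearMap := by
    apply b₁.ext
    intro j
    simp only [LinearMap.comp_apply, LinearEquiv.coe_coe, Module.Basis.equiv_apply,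
      Equiv.refl_apply]
    rw [← b₁.sum_repr (ρ₁.ρ σ (b₁ j)), ← b₂.sum_repr (ρ₂.ρ σ (b₂ j))]
    simp only [map_sum, map_smul, Module.Basis.equiv_apply, Equiv.refl_apply]
    refine Finset.sum_congr rfl fun i _ => ?_
    have := congrFun (congrFun (h σ) i) j
    simp only [matOf_apply, LinearMap.toMatrix_apply] at this
    rw [this]
  exact LinearMap.congr_fun key x

theorem matOf_ofMat (x : GQ →* M2 A) (hx : MatCont x) (σ : GQ) :
    matOf (ofMat x hx) (Pi.basisFun A (Fin 2)) σ = x σ := by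
  rw [matOf_apply]
  ext i j
  rw [LinearMap.toMatrix_apply, ofMat_ρ_apply]
  simp

theorem matCont_matOf (ρ : GaloisRepAdic A) (b : Module.Basis (Fin 2) A ρ.V) :
    MatCont (matOf ρ b) := by
  intro n
  obtain ⟨L, hL, h⟩ := ρ.isAdicContinuous n
  refine ⟨L, hL, fun σ hσ i j => ?_⟩
  have h1 : (matOf ρ b σ - 1) i j = b.repr (ρ.ρ σ (b j) - b j) i := by
    rw [matOf_apply, Matrix.sub_apply, LinearMap.toMatrix_apply, map_sub, Finsupp.sub_apply,
      Matrix.one_apply]
    congr 1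
    rw [Module.Basis.repr_self, Finsupp.single_apply]
    by_cases hij : i = j
    · simp [hij]
    · simp [hij, Ne.symm hij]
  rw [h1]
  have h2 : ∀ w ∈ (IsLocalRing.maximalIdeal A ^ n) • (⊤ : Submodule A ρ.V),
      b.repr w i ∈ IsLocalRing.maximalIdeal A ^ n := by
    intro w hw
    refine Submodule.smul_induction_on hw ?_ ?_
    · intro a ha w _
      rw [map_smul, Finsupp.smul_apply, smul_eq_mul]
      exact Ideal.mul_mem_right _ _ ha
    · intro x y hx hy
      rw [map_add, Finsupp.add_apply]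
      exact Ideal.add_mem _ hx hy
  exact h2 _ (h σ hσ (b j))

theorem isEquiv_ofMat_matOf (ρ : GaloisRepAdic A) (b : Module.Basis (Fin 2) A ρ.V) :
    ρ.IsEquiv (ofMat (matOf ρ b) (matCont_matOf ρ b)) :=
  isEquiv_of_matOf_eq b (Pi.basisFun A (Fin 2)) fun σ => (matOf_ofMat _ _ σ).symm

theorem isEquiv_ofMat_of_conj {x x' : GQ →* M2 A} (hx : MatCont x) (hx' : MatCont x')
    (u : (M2 A)ˣ) (h : ∀ σ, (u : M2 A) * x σ = x' σ * u) :
    (ofMat x hx).IsEquiv (ofMat x' hx') := by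
  refine ⟨⟨Matrix.toLinearEquiv' (u : M2 A) u.invertible, fun σ v => ?_⟩⟩
  show Matrix.toLin' (u : M2 A) ((ofMat x hx).ρ σ v) =
    (ofMat x' hx').ρ σ (Matrix.toLin' (u : M2 A) v)
  rw [ofMat_ρ_apply, ofMat_ρ_apply, Matrix.toLin'_apply, Matrix.toLin'_apply,
    Matrix.mulVec_mulVec, Matrix.mulVec_mulVec, h σ]

theorem exists_conj_of_isEquiv_ofMat {x x' : GQ →* M2 A} (hx : MatCont x) (hx' : MatCont x')
    (h : (ofMat x hx).IsEquiv (ofMat x' hx')) :
    ∃ u : (M2 A)ˣ, ∀ σ, (u : M2 A) * x σ = x' σ * u := by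
  obtain ⟨e⟩ := h
  let e' : (Fin 2 → A) ≃ₗ[A] (Fin 2 → A) := e.toLinearEquiv
  refine ⟨⟨LinearMap.toMatrix' e'.toLinearMap, LinearMap.toMatrix' e'.symm.toLinearMap, ?_, ?_⟩,
    fun σ => ?_⟩
  · rw [← LinearMap.toMatrix'_comp]; simp
  · rw [← LinearMap.toMatrix'_comp]; simp
  · show LinearMap.toMatrix' e'.toLinearMap * x σ = x' σ * LinearMap.toMatrix' e'.toLinearMap
    apply Matrix.toLin'.injective
    apply LinearMap.ext
    intro v
    rw [Matrix.toLin'_mul, Matrix.toLin'_mul, Matrix.toLin'_toMatrix']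
    have := e.map_apply σ v
    rw [ofMat_ρ_apply, ofMat_ρ_apply] at this
    simpa using this

end EquivOfMatrix

section MapMat

variable {A B : Type} [CommRing A] [CommRing B]

/-- Entrywise image of a matrix valued homomorphism. -/
noncomputable def mapMat (φ : A →+* B) (x : GQ →* M2 A) : GQ →* M2 B :=
  ((φ.mapMatrix : M2 A →+* M2 B) : M2 A →* M2 B).comp x

theorem mapMat_apply (φ : A →+* B) (x : GQ →* M2 A) (σ : GQ) :
    mapMat φ x σ = (x σ).map φ := rfl

theorem mapMat_comp {C : Type} [CommRing C] (φ : A →+* B) (ψ : B →+* C) (x : GQ →* M2 A) :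
    mapMat ψ (mapMat φ x) = mapMat (ψ.comp φ) x := by
  ext σ i j
  simp [mapMat_apply]

end MapMat

section BaseChange

variable {A B : Type} [CommRing A] [IsLocalRing A] [CommRing B] [IsLocalRing B]

theorem matCont_mapMat {x : GQ →* M2 A} (hx : MatCont x) (φ : A →+* B) (hφ : IsLocalHom φ) :
    MatCont (mapMat φ x) := by
  intro n
  obtain ⟨L, hL, h⟩ := hx n
  refine ⟨L, hL, fun σ hσ i j => ?_⟩
  have hmap : (IsLocalRing.maximalIdeal A ^ n).map φ ≤ IsLocalRing.maximalIdeal B ^ n := by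
    rw [Ideal.map_pow]
    exact Ideal.pow_right_mono (Ideal.map_le_iff_le_comap.mpr fun a ha =>
      Ideal.mem_comap.mpr (haveI := hφ; map_nonunit φ a ha)) n
  have h1 : (mapMat φ x σ - 1) i j = φ ((x σ - 1) i j) := by
    rw [mapMat_apply, Matrix.sub_apply, Matrix.sub_apply, Matrix.map_apply, map_sub,
      Matrix.one_apply, Matrix.one_apply]
    split_ifs <;> simp
  rw [h1]
  exact hmap (Ideal.mem_map_of_mem φ (h σ hσ i j))

/-- The basis of a base change induced by a basis. -/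
noncomputable def baseChangeBasis (φ : A →+* B) (hφ : IsLocalHom φ) (ρ : GaloisRepAdic A)
    (b : Module.Basis (Fin 2) A ρ.V) : Module.Basis (Fin 2) B (ρ.baseChangeAlong φ hφ).V :=
  letI : Algebra A B := φ.toAlgebra
  Algebra.TensorProduct.basis B b

theorem matOf_baseChangeAlong (φ : A →+* B) (hφ : IsLocalHom φ) (ρ : GaloisRepAdic A)
    (b : Module.Basis (Fin 2) A ρ.V) (σ : GQ) :
    matOf (ρ.baseChangeAlong φ hφ) (baseChangeBasis φ hφ ρ b) σ = (matOf ρ b σ).map φ := by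
  let _ : Algebra A B := φ.toAlgebra
  rw [matOf_apply, matOf_apply]
  exact LinearMap.toMatrix_baseChange B (ρ.ρ σ) b b

theorem baseChangeAlong_ofMat_isEquiv (φ : A →+* B) (hφ : IsLocalHom φ) (x : GQ →* M2 A)
    (hx : MatCont x) :
    ((ofMat x hx).baseChangeAlong φ hφ).IsEquiv (ofMat (mapMat φ x) (matCont_mapMat hx φ hφ)) := by
  refine isEquiv_of_matOf_eq (baseChangeBasis φ hφ _ (Pi.basisFun A (Fin 2)))
    (Pi.basisFun B (Fin 2)) fun σ => ?_
  rw [matOf_baseChangeAlong, matOf_ofMat, matOf_ofMat, mapMat_apply]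

theorem exists_basis (ρ : GaloisRepAdic A) : Nonempty (Module.Basis (Fin 2) A ρ.V) :=
  ⟨Module.finBasisOfFinrankEq A ρ.V ρ.finrank_eq⟩

theorem baseChangeAlong_comp_isEquiv {C : Type} [CommRing C] [IsLocalRing C]
    (ρ : GaloisRepAdic A) (f : A →+* B) (hf : IsLocalHom f) (g : B →+* C) (hg : IsLocalHom g)
    (hgf : IsLocalHom (g.comp f)) :
    ((ρ.baseChangeAlong f hf).baseChangeAlong g hg).IsEquiv
      (ρ.baseChangeAlong (g.comp f) hgf) := by
  obtain ⟨b⟩ := exists_basis ρ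
  refine isEquiv_of_matOf_eq (baseChangeBasis g hg _ (baseChangeBasis f hf ρ b))
    (baseChangeBasis (g.comp f) hgf ρ b) fun σ => ?_
  rw [matOf_baseChangeAlong, matOf_baseChangeAlong, matOf_baseChangeAlong, Matrix.map_map]
  rfl

theorem isEquiv_refl (ρ : GaloisRepAdic A) : ρ.IsEquiv ρ := ⟨GaloisRepAdic.Equiv.refl ρ⟩

theorem isEquiv_symm {ρ₁ ρ₂ : GaloisRepAdic A} (h : ρ₁.IsEquiv ρ₂) : ρ₂.IsEquiv ρ₁ := by
  obtain ⟨e⟩ := h
  exact ⟨e.symm⟩

theorem isEquiv_trans {ρ₁ ρ₂ ρ₃ : GaloisRepAdic A} (h : ρ₁.IsEquiv ρ₂) (h' : ρ₂.IsEquiv ρ₃) :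
    ρ₁.IsEquiv ρ₃ := by
  obtain ⟨e⟩ := h
  obtain ⟨e'⟩ := h'
  exact ⟨e.trans e'⟩

theorem isEquiv_baseChangeAlong {ρ₁ ρ₂ : GaloisRepAdic A} (h : ρ₁.IsEquiv ρ₂) (φ : A →+* B)
    (hφ : IsLocalHom φ) : (ρ₁.baseChangeAlong φ hφ).IsEquiv (ρ₂.baseChangeAlong φ hφ) := by
  obtain ⟨e⟩ := h
  exact ⟨e.baseChangeAlong φ hφ⟩

theorem ofMat_congr {x x' : GQ →* M2 A} (hx : MatCont x) (h : x = x') :
    ofMat x hx = ofMat x' (h ▸ hx) := by
  subst h; rfl

end BaseChange

section Residual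

variable {K : Type} [Field K]

/-- The matrix of a residual representation in a basis. -/
noncomputable def resMatOf (ρ : ResidualGaloisRep K) (b : Module.Basis (Fin 2) K ρ.V) :
    GQ →* M2 K :=
  ((LinearMap.toMatrixAlgEquiv b : Module.End K ρ.V ≃ₐ[K] M2 K) :
    Module.End K ρ.V →* M2 K).comp ρ.ρ

theorem resMatOf_apply (ρ : ResidualGaloisRep K) (b : Module.Basis (Fin 2) K ρ.V) (σ : GQ) :
    resMatOf ρ b σ = LinearMap.toMatrix b b (ρ.ρ σ) := rfl

theorem res_isEquiv_of_resMatOf_eq {ρ₁ ρ₂ : ResidualGaloisRep K}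
    (b₁ : Module.Basis (Fin 2) K ρ₁.V)
    (b₂ : Module.Basis (Fin 2) K ρ₂.V) (h : ∀ σ, resMatOf ρ₁ b₁ σ = resMatOf ρ₂ b₂ σ) :
    ρ₁.IsEquiv ρ₂ := by
  refine ⟨⟨b₁.equiv b₂ (Equiv.refl _), fun σ x => ?_⟩⟩
  have key : ((b₁.equiv b₂ (Equiv.refl _)).toLinearMap ∘ₗ (ρ₁.ρ σ)) =
      (ρ₂.ρ σ) ∘ₗ (b₁.equiv b₂ (Equiv.refl _)).toLinearMap := by
    apply b₁.ext
    intro j
    simp only [LinearMap.comp_apply, LinearEquiv.coe_coe, Module.Basis.equiv_apply,
      Equiv.refl_apply]
    rw [← b₁.sum_repr (ρ₁.ρ σ (b₁ j)), ← b₂.sum_repr (ρ₂.ρ σ (b₂ j))]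
    simp only [map_sum, map_smul, Module.Basis.equiv_apply, Equiv.refl_apply]
    refine Finset.sum_congr rfl fun i _ => ?_
    have := congrFun (congrFun (h σ) i) j
    simp only [resMatOf_apply, LinearMap.toMatrix_apply] at this
    rw [this]
  exact LinearMap.congr_fun key x

/-- Transport of matrices along an equivalence. -/
theorem resMatOf_map_equiv {ρ₁ ρ₂ : ResidualGaloisRep K} (e : ρ₁.Equiv ρ₂)
    (c : Module.Basis (Fin 2) K ρ₂.V) (σ : GQ) :
    resMatOf ρ₁ (c.map e.toLinearEquiv.symm) σ = resMatOf ρ₂ c σ := by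
  rw [resMatOf_apply, resMatOf_apply]
  ext i j
  rw [LinearMap.toMatrix_apply, LinearMap.toMatrix_apply]
  simp only [Module.Basis.map_apply, Module.Basis.map_repr, LinearEquiv.trans_apply,
    LinearEquiv.symm_symm]
  rw [e.map_apply, LinearEquiv.apply_symm_apply]

/-- Basis of a base change of a residual representation. -/
noncomputable def resBaseChangeBasis {K' : Type} [Field K'] (ψ : K →+* K')
    (ρ : ResidualGaloisRep K) (b : Module.Basis (Fin 2) K ρ.V) :
    Module.Basis (Fin 2) K' (ρ.baseChangeAlong ψ).V :=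
  letI : Algebra K K' := ψ.toAlgebra
  Algebra.TensorProduct.basis K' b

theorem resMatOf_baseChangeAlong {K' : Type} [Field K'] (ψ : K →+* K')
    (ρ : ResidualGaloisRep K) (b : Module.Basis (Fin 2) K ρ.V) (σ : GQ) :
    resMatOf (ρ.baseChangeAlong ψ) (resBaseChangeBasis ψ ρ b) σ = (resMatOf ρ b σ).map ψ := by
  let _ : Algebra K K' := ψ.toAlgebra
  rw [resMatOf_apply, resMatOf_apply]
  exact LinearMap.toMatrix_baseChange K' (ρ.ρ σ) b b

end Residual

section ResidualOfAdic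

variable {A : Type} [CommRing A] [IsLocalRing A]

/-- Basis of the residual representation induced by a basis. -/
noncomputable def residualBasis (ρ : GaloisRepAdic A) (b : Module.Basis (Fin 2) A ρ.V) :
    Module.Basis (Fin 2) (IsLocalRing.ResidueField A) ρ.residual.V :=
  Algebra.TensorProduct.basis (IsLocalRing.ResidueField A) b

theorem resMatOf_residual (ρ : GaloisRepAdic A) (b : Module.Basis (Fin 2) A ρ.V) (σ : GQ) :
    resMatOf ρ.residual (residualBasis ρ b) σ = (matOf ρ b σ).map (IsLocalRing.residue A) := by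
  rw [resMatOf_apply, matOf_apply]
  exact LinearMap.toMatrix_baseChange (IsLocalRing.ResidueField A) (ρ.ρ σ) b b

variable {k : Type} [Field k]

theorem residual_isEquiv_of_lift (ρ : GaloisRepAdic A) (b : Module.Basis (Fin 2) A ρ.V)
    (ρbar : ResidualGaloisRep k) (bbar : Module.Basis (Fin 2) k ρbar.V)
    (ψ : k →+* IsLocalRing.ResidueField A)
    (h : ∀ σ, (matOf ρ b σ).map (IsLocalRing.residue A) = (resMatOf ρbar bbar σ).map ψ) :
    ρ.residual.IsEquiv (ρbar.baseChangeAlong ψ) :=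
  res_isEquiv_of_resMatOf_eq (residualBasis ρ b) (resBaseChangeBasis ψ ρbar bbar) fun σ => by
    rw [resMatOf_residual, resMatOf_baseChangeAlong, h]

theorem exists_basis_of_residual_isEquiv (ρ : GaloisRepAdic A)
    (ρbar : ResidualGaloisRep k) (bbar : Module.Basis (Fin 2) k ρbar.V)
    (ψ : k →+* IsLocalRing.ResidueField A)
    (h : ρ.residual.IsEquiv (ρbar.baseChangeAlong ψ)) :
    ∃ b : Module.Basis (Fin 2) A ρ.V,
      ∀ σ, (matOf ρ b σ).map (IsLocalRing.residue A) = (resMatOf ρbar bbar σ).map ψ := by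
  obtain ⟨e⟩ := h
  let c := resBaseChangeBasis ψ ρbar bbar
  let c' : Module.Basis (Fin 2) (IsLocalRing.ResidueField A)
      (IsLocalRing.ResidueField A ⊗[A] ρ.V) := c.map e.toLinearEquiv.symm
  have hsurj : Function.Surjective (TensorProduct.mk A (IsLocalRing.ResidueField A) ρ.V 1) :=
    TensorProduct.mk_surjective A ρ.V (IsLocalRing.ResidueField A)
      IsLocalRing.residue_surjective
  choose v hv using fun i => hsurj (c' i)
  have hli : LinearIndependent A v := by
    apply Module.IsLocalRing.linearIndependent_of_flat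
    have : (TensorProduct.mk A (IsLocalRing.ResidueField A) ρ.V 1) ∘ v = c' := funext hv
    rw [this]
    exact c'.linearIndependent
  have hsp : Submodule.span A (Set.range v) = ⊤ :=
    IsLocalRing.span_eq_top_of_tmul_eq_basis v c' hv
  let b : Module.Basis (Fin 2) A ρ.V := Module.Basis.mk hli hsp.ge
  have hb : residualBasis ρ b = c' := by
    apply Module.Basis.eq_of_apply_eq
    intro i
    show Algebra.TensorProduct.basis (IsLocalRing.ResidueField A) b i = c' i
    rw [Algebra.TensorProduct.basis_apply, Module.Basis.mk_apply]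
    exact hv i
  refine ⟨b, fun σ => ?_⟩
  rw [← resMatOf_residual, hb, ← resMatOf_baseChangeAlong]
  exact resMatOf_map_equiv e c σ

end ResidualOfAdic

end Fermat.Agent.S53.H53
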