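import Fermat.Agent.S53.H53_Dictionary

set_option autoImplicit false

open scoped TensorProduct
open IsLocalRing

namespace Fermat.Agent.S53.H53

/-- Coordinates of matrix families. -/
abbrev Coord : Type := GQ × Fin 2 × Fin 2

/-- The matrix family of a coordinate family. -/
def toMatFam {A : Type} (x : Coord → A) : GQ → M2 A := fun σ => Matrix.of fun i j => x (σ, i, j)

@[simp] theorem toMatFam_apply {A : Type} (x : Coord → A) (σ : GQ) (i j : Fin 2) :
    toMatFam x σ i j = x (σ, i, j) := rfl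

/-- Rigidification data for a residual representation. -/
structure NFData (𝒪 : Type) [CommRing 𝒪] [IsLocalRing 𝒪]
    (ρbar : ResidualGaloisRep (ResidueField 𝒪)) where
  b : Module.Basis (Fin 2) (ResidueField 𝒪) ρbar.V
  g0 : GQ
  g1 : GQ
  i0 : Fin 2
  j0 : Fin 2
  m0 : GQ → M2 𝒪
  hm0 : ∀ σ, (m0 σ).map (residue 𝒪) = resMatOf ρbar b σ
  h00 : resMatOf ρbar b g0 0 0 = 0
  h10 : resMatOf ρbar b g0 1 0 = 1
  hcomm : (resMatOf ρbar b g1 * resMatOf ρbar b g0 -
    resMatOf ρbar b g0 * resMatOf ρbar b g1) i0 j0 ≠ 0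

section NFMat

variable {𝒪 : Type} [CommRing 𝒪] [IsLocalRing 𝒪]
  {ρbar : ResidualGaloisRep (ResidueField 𝒪)} (D : NFData 𝒪 ρbar)

/-- Continuous normal form lifts of the residual representation, in matrix form. -/
structure IsNFMat {A : Type} [CommRing A] [IsLocalRing A] [Algebra 𝒪 A] (xm : GQ →* M2 A) :
    Prop where
  cont : MatCont xm
  lift : ∀ σ i j, xm σ i j - algebraMap 𝒪 A (D.m0 σ i j) ∈ maximalIdeal A
  nf00 : xm D.g0 0 0 = 0
  nf10 : xm D.g0 1 0 = 1
  nf1 : xm D.g1 D.i0 D.j0 = algebraMap 𝒪 A (D.m0 D.g1 D.i0 D.j0)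

variable {A B : Type} [CommRing A] [IsLocalRing A] [Algebra 𝒪 A]
  [CommRing B] [IsLocalRing B] [Algebra 𝒪 B]

theorem IsNFMat.map {xm : GQ →* M2 A} (h : IsNFMat D xm) (φ : A →ₐ[𝒪] B)
    (hφ : IsLocalHom (φ : A →+* B)) : IsNFMat D (mapMat (φ : A →+* B) xm) where
  cont := matCont_mapMat h.cont _ hφ
  lift σ i j := by
    have h1 : mapMat (φ : A →+* B) xm σ i j - algebraMap 𝒪 B (D.m0 σ i j) =
        φ (xm σ i j - algebraMap 𝒪 A (D.m0 σ i j)) := by
      rw [mapMat_apply, Matrix.map_apply, map_sub, AlgHom.commutes]; rfl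
    rw [h1]
    exact (haveI := hφ; map_nonunit (φ : A →+* B) _ (h.lift σ i j))
  nf00 := by rw [mapMat_apply, Matrix.map_apply, h.nf00, map_zero]
  nf10 := by rw [mapMat_apply, Matrix.map_apply, h.nf10, map_one]
  nf1 := by
    rw [mapMat_apply, Matrix.map_apply, h.nf1]
    exact AlgHom.commutes φ _

theorem exists_maximalIdeal_pow_eq_bot (A : Type) [CommRing A] [IsLocalRing A]
    [IsArtinianRing A] : ∃ n : ℕ, maximalIdeal A ^ n = ⊥ := by
  have h := IsArtinianRing.isNilpotent_jacobson_bot (R := A)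
  rw [IsLocalRing.jacobson_eq_maximalIdeal ⊥ bot_ne_top] at h
  obtain ⟨n, hn⟩ := h
  exact ⟨n, by simpa using hn⟩

theorem matCont_iff_of_artinian [IsArtinianRing A] (x : GQ → M2 A) :
    MatCont x ↔ ∃ L : IntermediateField ℚ (AlgebraicClosure ℚ), FiniteDimensional ℚ L ∧
      ∀ σ : GQ, (∀ y ∈ L, σ y = y) → x σ = 1 := by
  constructor
  · intro h
    obtain ⟨n, hn⟩ := exists_maximalIdeal_pow_eq_bot A
    obtain ⟨L, hL, hx⟩ := h n
    refine ⟨L, hL, fun σ hσ => ?_⟩
    ext i j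
    have := hx σ hσ i j
    rw [hn, Ideal.mem_bot, Matrix.sub_apply, sub_eq_zero] at this
    exact this
  · rintro ⟨L, hL, hx⟩ n
    refine ⟨L, hL, fun σ hσ i j => ?_⟩
    rw [hx σ hσ, sub_self]
    exact Ideal.zero_mem _

theorem mem_maximalIdeal_iff_of_isLocalHom (φ : A →+* B) (hφ : IsLocalHom φ) (a : A) :
    a ∈ maximalIdeal A ↔ φ a ∈ maximalIdeal B := by
  constructor
  · intro ha
    exact (haveI := hφ; map_nonunit φ a ha)
  · intro ha
    rw [mem_maximalIdeal, mem_nonunits_iff] at ha ⊢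
    exact fun hu => ha (hu.map φ)

theorem IsNFMat.of_map_injective [IsArtinianRing A] [IsArtinianRing B] {xm : GQ →* M2 A}
    (φ : A →ₐ[𝒪] B) (hφ : IsLocalHom (φ : A →+* B)) (hinj : Function.Injective φ)
    (h : IsNFMat D (mapMat (φ : A →+* B) xm)) : IsNFMat D xm where
  cont := by
    obtain ⟨L, hL, hx⟩ := (matCont_iff_of_artinian _).mp h.cont
    refine (matCont_iff_of_artinian _).mpr ⟨L, hL, fun σ hσ => ?_⟩
    have := hx σ hσ
    rw [mapMat_apply] at this
    ext i j
    apply hinj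
    have h2 := congrFun (congrFun this i) j
    rw [Matrix.map_apply] at h2
    rw [Matrix.one_apply] at h2 ⊢
    rw [show (φ : A →+* B) (xm σ i j) = φ (xm σ i j) from rfl] at h2
    rw [h2]
    split_ifs <;> simp
  lift σ i j := by
    have h1 : mapMat (φ : A →+* B) xm σ i j - algebraMap 𝒪 B (D.m0 σ i j) =
        (φ : A →+* B) (xm σ i j - algebraMap 𝒪 A (D.m0 σ i j)) := by
      rw [mapMat_apply, Matrix.map_apply, map_sub]
      congr 1
      exact (AlgHom.commutes φ _).symm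
    have := h.lift σ i j
    rw [h1] at this
    exact (mem_maximalIdeal_iff_of_isLocalHom _ hφ _).mpr this
  nf00 := by
    have := h.nf00
    rw [mapMat_apply, Matrix.map_apply] at this
    exact hinj (by rw [map_zero]; exact this)
  nf10 := by
    have := h.nf10
    rw [mapMat_apply, Matrix.map_apply] at this
    exact hinj (by rw [map_one]; exact this)
  nf1 := by
    have := h.nf1
    rw [mapMat_apply, Matrix.map_apply] at this
    exact hinj (by rw [AlgHom.commutes]; exact this)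

theorem IsNFMat.of_joint {P : Type} [CommRing P] [IsLocalRing P] [Algebra 𝒪 P]
    [IsArtinianRing A] [IsArtinianRing B] {xm : GQ →* M2 P}
    (p : P →ₐ[𝒪] A) (q : P →ₐ[𝒪] B) (hp : IsLocalHom (p : P →+* A))
    (hpq : ∀ a b : P, p a = p b → q a = q b → a = b)
    (ha : IsNFMat D (mapMat (p : P →+* A) xm)) (hb : IsNFMat D (mapMat (q : P →+* B) xm)) :
    IsNFMat D xm where
  cont := by
    obtain ⟨L, hL, hx⟩ := (matCont_iff_of_artinian _).mp ha.cont
    obtain ⟨L', hL', hx'⟩ := (matCont_iff_of_artinian _).mp hb.cont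
    intro n
    refine ⟨L ⊔ L', IntermediateField.finiteDimensional_sup L L', fun σ hσ i j => ?_⟩
    have h1 := hx σ fun y hy => hσ y ((le_sup_left : L ≤ L ⊔ L') hy)
    have h2 := hx' σ fun y hy => hσ y ((le_sup_right : L' ≤ L ⊔ L') hy)
    have h3 : xm σ i j = (1 : M2 P) i j := by
      apply hpq
      · have := congrFun (congrFun h1 i) j
        rw [mapMat_apply, Matrix.map_apply] at this
        rw [show p (xm σ i j) = (p : P →+* A) (xm σ i j) from rfl, this, Matrix.one_apply,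
          Matrix.one_apply]
        split_ifs <;> simp
      · have := congrFun (congrFun h2 i) j
        rw [mapMat_apply, Matrix.map_apply] at this
        rw [show q (xm σ i j) = (q : P →+* B) (xm σ i j) from rfl, this, Matrix.one_apply,
          Matrix.one_apply]
        split_ifs <;> simp
    rw [Matrix.sub_apply, h3, sub_self]
    exact Ideal.zero_mem _
  lift σ i j := by
    have h1 : mapMat (p : P →+* A) xm σ i j - algebraMap 𝒪 A (D.m0 σ i j) =
        (p : P →+* A) (xm σ i j - algebraMap 𝒪 P (D.m0 σ i j)) := by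
      rw [mapMat_apply, Matrix.map_apply, map_sub]
      congr 1
      exact (AlgHom.commutes p _).symm
    have := ha.lift σ i j
    rw [h1] at this
    exact (mem_maximalIdeal_iff_of_isLocalHom _ hp _).mpr this
  nf00 := by
    apply hpq
    · have := ha.nf00
      rw [mapMat_apply, Matrix.map_apply] at this
      rw [map_zero]; exact this
    · have := hb.nf00
      rw [mapMat_apply, Matrix.map_apply] at this
      rw [map_zero]; exact this
  nf10 := by
    apply hpq
    · have := ha.nf10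
      rw [mapMat_apply, Matrix.map_apply] at this
      rw [map_one]; exact this
    · have := hb.nf10
      rw [mapMat_apply, Matrix.map_apply] at this
      rw [map_one]; exact this
  nf1 := by
    apply hpq
    · have := ha.nf1
      rw [mapMat_apply, Matrix.map_apply] at this
      rw [AlgHom.commutes]; exact this
    · have := hb.nf1
      rw [mapMat_apply, Matrix.map_apply] at this
      rw [AlgHom.commutes]; exact this

end NFMat

section Joint

variable {P A B : Type} [CommRing P] [CommRing A] [CommRing B]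

/-- A coordinate family whose images under two jointly injective ring homomorphisms are
multiplicative is multiplicative. -/
theorem exists_monoidHom_of_joint_injective (p : P →+* A) (q : P →+* B)
    (hpq : ∀ a b : P, p a = p b → q a = q b → a = b) (x : Coord → P)
    (ya : GQ →* M2 A) (yb : GQ →* M2 B) (ha : ∀ σ i j, ya σ i j = p (x (σ, i, j)))
    (hb : ∀ σ i j, yb σ i j = q (x (σ, i, j))) :
    ∃ xm : GQ →* M2 P, (∀ σ i j, xm σ i j = x (σ, i, j)) ∧ mapMat p xm = ya ∧
      mapMat q xm = yb := by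
  have hA : ∀ σ, (toMatFam x σ).map p = ya σ := by
    intro σ; ext i j; rw [Matrix.map_apply, toMatFam_apply, ha]
  have hB : ∀ σ, (toMatFam x σ).map q = yb σ := by
    intro σ; ext i j; rw [Matrix.map_apply, toMatFam_apply, hb]
  have hinj : ∀ M N : M2 P, M.map p = N.map p → M.map q = N.map q → M = N := by
    intro M N h1 h2
    ext i j
    apply hpq
    · have := congrFun (congrFun h1 i) j
      simpa [Matrix.map_apply] using this
    · have := congrFun (congrFun h2 i) j
      simpa [Matrix.map_apply] using this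
  have h1 : toMatFam x 1 = 1 := by
    apply hinj
    · rw [hA, map_one]; exact (RingHom.map_one p.mapMatrix).symm
    · rw [hB, map_one]; exact (RingHom.map_one q.mapMatrix).symm
  have hmul : ∀ σ τ, toMatFam x (σ * τ) = toMatFam x σ * toMatFam x τ := by
    intro σ τ
    apply hinj
    · rw [hA, map_mul, Matrix.map_mul, hA, hA]
    · rw [hB, map_mul, Matrix.map_mul, hB, hB]
  refine ⟨⟨⟨toMatFam x, h1⟩, hmul⟩, fun σ i j => rfl, ?_, ?_⟩
  · ext σ i j
    rw [mapMat_apply, Matrix.map_apply, ha]; rfl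
  · ext σ i j
    rw [mapMat_apply, Matrix.map_apply, hb]; rfl

end Joint

section Lift

variable {𝒪 : Type} [CommRing 𝒪] [IsLocalRing 𝒪]
  {ρbar : ResidualGaloisRep (ResidueField 𝒪)} (D : NFData 𝒪 ρbar)
  (𝒟 : ∀ ⦃A : Type⦄ [CommRing A] [IsLocalRing A] [Algebra 𝒪 A], GaloisRepAdic A → Prop)

/-- The functor of normal form lifts of type `𝒟`, in coordinates. -/
def IsNFLift ⦃A : Type⦄ [CommRing A] [IsLocalRing A] [Algebra 𝒪 A] (x : Coord → A) : Prop :=
  ∃ xm : GQ →* M2 A, (∀ σ i j, xm σ i j = x (σ, i, j)) ∧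
    ∃ h : IsNFMat D xm, 𝒟 (ofMat xm h.cont)

variable {D 𝒟}
variable {A B : Type} [CommRing A] [IsLocalRing A] [Algebra 𝒪 A]
  [CommRing B] [IsLocalRing B] [Algebra 𝒪 B]

open GaloisRep

theorem IsNFLift.map (h𝒟 : IsDeformationCondition 𝒪 𝒟) (hA : IsArtinianTestAlgebra 𝒪 A)
    (hB : IsArtinianTestAlgebra 𝒪 B) (φ : A →ₐ[𝒪] B) (hφ : IsLocalHom (φ : A →+* B))
    {x : Coord → A} (hx : IsNFLift D 𝒟 x) : IsNFLift D 𝒟 (φ ∘ x) := by
  obtain ⟨xm, hxm, hnf, hd⟩ := hx
  refine ⟨mapMat (φ : A →+* B) xm, fun σ i j => ?_, hnf.map D φ hφ, ?_⟩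
  · rw [mapMat_apply, Matrix.map_apply, hxm]; rfl
  · exact h𝒟.of_isEquiv hB (baseChangeAlong_ofMat_isEquiv _ hφ xm hnf.cont)
      (h𝒟.baseChangeAlong hA hB φ hφ hd)

theorem IsNFLift.of_injective (h𝒟 : IsDeformationCondition 𝒪 𝒟) (hA : IsArtinianTestAlgebra 𝒪 A)
    (hB : IsArtinianTestAlgebra 𝒪 B) (φ : A →ₐ[𝒪] B) (hφ : IsLocalHom (φ : A →+* B))
    (hinj : Function.Injective φ)
    {x : Coord → A} (hx : IsNFLift D 𝒟 (φ ∘ x)) : IsNFLift D 𝒟 x := by
  obtain ⟨ym, hym, hnf, hd⟩ := hx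
  obtain ⟨xm, hxm, hmap, -⟩ := exists_monoidHom_of_joint_injective (φ : A →+* B) (φ : A →+* B)
    (fun a b h _ => hinj h) x ym ym hym hym
  have := hA.isArtinian
  have := hB.isArtinian
  subst hmap
  have hnf' : IsNFMat D xm := IsNFMat.of_map_injective D φ hφ hinj hnf
  refine ⟨xm, hxm, hnf', ?_⟩
  apply h𝒟.of_baseChangeAlong_injective hA hB φ hφ hinj
  exact h𝒟.of_isEquiv hB (isEquiv_symm (baseChangeAlong_ofMat_isEquiv _ hφ xm hnf'.cont)) hd

theorem IsNFLift.of_fibreProduct {C P : Type} [CommRing C] [IsLocalRing C] [Algebra 𝒪 C]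
    [CommRing P] [IsLocalRing P] [Algebra 𝒪 P]
    (h𝒟 : IsDeformationCondition 𝒪 𝒟) (hA : IsArtinianTestAlgebra 𝒪 A)
    (hB : IsArtinianTestAlgebra 𝒪 B) (hC : IsArtinianTestAlgebra 𝒪 C)
    (hP : IsArtinianTestAlgebra 𝒪 P)
    (f : A →ₐ[𝒪] C) (g : B →ₐ[𝒪] C) (pA : P →ₐ[𝒪] A) (pB : P →ₐ[𝒪] B)
    (hpA : IsLocalHom (pA : P →+* A)) (hpB : IsLocalHom (pB : P →+* B))
    (hcomm : f.comp pA = g.comp pB)
    (hinj : Function.Injective (fun x => (pA x, pB x)))
    (hsurj : ∀ a b, f a = g b → ∃ x, pA x = a ∧ pB x = b)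
    {x : Coord → P} (hxA : IsNFLift D 𝒟 (pA ∘ x)) (hxB : IsNFLift D 𝒟 (pB ∘ x)) :
    IsNFLift D 𝒟 x := by
  obtain ⟨ya, hya, hnfa, hda⟩ := hxA
  obtain ⟨yb, hyb, hnfb, hdb⟩ := hxB
  have hpq : ∀ a b : P, pA a = pA b → pB a = pB b → a = b := fun a b h1 h2 =>
    hinj (Prod.ext h1 h2)
  obtain ⟨xm, hxm, hmapa, hmapb⟩ := exists_monoidHom_of_joint_injective (pA : P →+* A)
    (pB : P →+* B) hpq x ya yb hya hyb
  have := hA.isArtinian
  have := hB.isArtinian
  subst hmapa
  subst hmapb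
  have hnf : IsNFMat D xm := IsNFMat.of_joint D pA pB hpA hpq hnfa hnfb
  refine ⟨xm, hxm, hnf, ?_⟩
  apply h𝒟.of_fibreProduct hA hB hC hP f g pA pB hpA hpB hcomm hinj hsurj
  · exact h𝒟.of_isEquiv hA (isEquiv_symm (baseChangeAlong_ofMat_isEquiv _ hpA xm hnf.cont)) hda
  · exact h𝒟.of_isEquiv hB (isEquiv_symm (baseChangeAlong_ofMat_isEquiv _ hpB xm hnf.cont)) hdb

end Lift

end Fermat.Agent.S53.H53
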