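import Fermat.Agent.S53.H53_Rigid

set_option autoImplicit false
set_option linter.style.haveILetI false
set_option linter.unusedSectionVars false

open IsLocalRing

namespace Fermat.Agent.S53.H53

open GaloisRep

section Quot

variable {A : Type} [CommRing A] [IsLocalRing A]

theorem maximalIdeal_pow_succ_ne_top (n : ℕ) : maximalIdeal A ^ (n + 1) ≠ ⊤ := by
  intro h
  have h1 : maximalIdeal A ^ (n + 1) ≤ maximalIdeal A := Ideal.pow_le_self (Nat.succ_ne_zero n)
  rw [h] at h1
  exact (Ideal.IsMaximal.ne_top inferInstance) (top_le_iff.mp h1)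

theorem quotPow_nontrivial (n : ℕ) : Nontrivial (A ⧸ maximalIdeal A ^ (n + 1)) :=
  Ideal.Quotient.nontrivial_iff.mpr (maximalIdeal_pow_succ_ne_top n)

theorem quotPow_isLocalRing (n : ℕ) : IsLocalRing (A ⧸ maximalIdeal A ^ (n + 1)) :=
  haveI := quotPow_nontrivial (A := A) n
  IsLocalRing.of_surjective' (Ideal.Quotient.mk _) Ideal.Quotient.mk_surjective

theorem quotPow_isLocalHom (n : ℕ) :
    haveI := quotPow_isLocalRing (A := A) n
    IsLocalHom (Ideal.Quotient.mk (maximalIdeal A ^ (n + 1))) :=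
  haveI := quotPow_nontrivial (A := A) n
  IsLocalHom.of_surjective _ Ideal.Quotient.mk_surjective

theorem quotPow_maximalIdeal_pow (n : ℕ) :
    haveI := quotPow_isLocalRing (A := A) n
    maximalIdeal (A ⧸ maximalIdeal A ^ (n + 1)) ^ (n + 1) = ⊥ := by
  haveI := quotPow_isLocalRing (A := A) n
  rw [← IsLocalRing.map_maximalIdeal_of_surjective (Ideal.Quotient.mk (maximalIdeal A ^ (n + 1)))
    Ideal.Quotient.mk_surjective, ← Ideal.map_pow, Ideal.map_quotient_self]

variable (𝒪 : Type) [CommRing 𝒪] [IsLocalRing 𝒪] [Algebra 𝒪 A]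

theorem quotPow_isArtinianTestAlgebra [IsNoetherianRing A] [IsLocalHom (algebraMap 𝒪 A)]
    (hres : Function.Surjective (IsLocalRing.residue A ∘ algebraMap 𝒪 A)) (n : ℕ) :
    haveI := quotPow_isLocalRing (A := A) n
    IsArtinianTestAlgebra 𝒪 (A ⧸ maximalIdeal A ^ (n + 1)) := by
  haveI := quotPow_isLocalRing (A := A) n
  haveI hloc := quotPow_isLocalHom (A := A) n
  refine ⟨?_, ?_, ?_⟩
  · have : algebraMap 𝒪 (A ⧸ maximalIdeal A ^ (n + 1)) =
        (Ideal.Quotient.mk (maximalIdeal A ^ (n + 1))).comp (algebraMap 𝒪 A) := rfl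
    rw [this]
    exact RingHom.isLocalHom_comp _ _
  · intro y
    obtain ⟨b, rfl⟩ := IsLocalRing.residue_surjective y
    obtain ⟨a, rfl⟩ := Ideal.Quotient.mk_surjective b
    obtain ⟨c, hc⟩ := hres (IsLocalRing.residue A a)
    refine ⟨c, ?_⟩
    simp only [Function.comp_apply] at hc ⊢
    have h1 : algebraMap 𝒪 A c - a ∈ maximalIdeal A := by
      rw [← IsLocalRing.residue_eq_zero_iff, map_sub, hc, sub_self]
    have h2 : algebraMap 𝒪 (A ⧸ maximalIdeal A ^ (n + 1)) c -
        Ideal.Quotient.mk (maximalIdeal A ^ (n + 1)) a =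
        Ideal.Quotient.mk (maximalIdeal A ^ (n + 1)) (algebraMap 𝒪 A c - a) := by
      rw [map_sub]; rfl
    rw [← sub_eq_zero, ← map_sub, IsLocalRing.residue_eq_zero_iff, h2]
    exact map_nonunit (Ideal.Quotient.mk (maximalIdeal A ^ (n + 1))) _ h1
  · rw [isArtinianRing_iff_isNilpotent_maximalIdeal]
    exact ⟨n + 1, quotPow_maximalIdeal_pow n⟩

end Quot

section Glue

variable {𝒪 : Type} [CommRing 𝒪] [IsLocalRing 𝒪]
  {ρbar : ResidualGaloisRep (ResidueField 𝒪)} (D : NFData 𝒪 ρbar)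
  {A : Type} [CommRing A] [IsLocalRing A] [IsNoetherianRing A] [Algebra 𝒪 A]

theorem eq_zero_of_forall_mem_pow (a : A) (h : ∀ n : ℕ, a ∈ maximalIdeal A ^ (n + 1)) : a = 0 := by
  have h1 : a ∈ ⨅ i : ℕ, maximalIdeal A ^ i := by
    rw [Ideal.mem_iInf]
    intro i
    exact Ideal.pow_le_pow_right (Nat.le_succ i) (h i)
  rw [Ideal.iInf_pow_eq_bot_of_isLocalRing _ (Ideal.IsMaximal.ne_top inferInstance)] at h1
  exact h1

theorem eq_of_forall_mk_eq (a b : A)
    (h : ∀ n : ℕ, Ideal.Quotient.mk (maximalIdeal A ^ (n + 1)) a =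
      Ideal.Quotient.mk (maximalIdeal A ^ (n + 1)) b) : a = b := by
  rw [← sub_eq_zero]
  refine eq_zero_of_forall_mem_pow _ fun n => ?_
  rw [← Ideal.Quotient.eq]
  exact h n

/-- **Glue**: a coordinate family which is a normal form lift modulo every power of the maximal
ideal is a normal form lift. -/
theorem exists_isNFMat_of_quotients (u : Coord → A)
    (h : ∀ n : ℕ, haveI := quotPow_isLocalRing (A := A) n
      ∃ xm : GQ →* M2 (A ⧸ maximalIdeal A ^ (n + 1)),
        (∀ σ i j, xm σ i j = Ideal.Quotient.mk _ (u (σ, i, j))) ∧ IsNFMat D xm) :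
    ∃ xm : GQ →* M2 A, (∀ σ i j, xm σ i j = u (σ, i, j)) ∧ IsNFMat D xm := by
  have hmap : ∀ n σ, haveI := quotPow_isLocalRing (A := A) n
      ∀ xm : GQ →* M2 (A ⧸ maximalIdeal A ^ (n + 1)),
      (∀ σ i j, xm σ i j = Ideal.Quotient.mk _ (u (σ, i, j))) →
      xm σ = (toMatFam u σ).map (Ideal.Quotient.mk (maximalIdeal A ^ (n + 1))) := by
    intro n σ xm hxm
    ext i j
    rw [hxm, Matrix.map_apply, toMatFam_apply]
  have h1 : toMatFam u 1 = 1 := by
    ext i j
    refine eq_of_forall_mk_eq _ _ fun n => ?_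
    haveI := quotPow_isLocalRing (A := A) n
    obtain ⟨xm, hxm, -⟩ := h n
    rw [toMatFam_apply, ← hxm, map_one, Matrix.one_apply, Matrix.one_apply]
    split_ifs <;> simp
  have hmul : ∀ σ τ, toMatFam u (σ * τ) = toMatFam u σ * toMatFam u τ := by
    intro σ τ
    ext i j
    refine eq_of_forall_mk_eq _ _ fun n => ?_
    haveI := quotPow_isLocalRing (A := A) n
    obtain ⟨xm, hxm, -⟩ := h n
    have e1 := hmap n (σ * τ) xm hxm
    rw [map_mul, hmap n σ xm hxm, hmap n τ xm hxm, ← Matrix.map_mul] at e1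
    have e2 := congrFun (congrFun e1 i) j
    rw [Matrix.map_apply, Matrix.map_apply] at e2
    exact e2.symm
  refine ⟨⟨⟨toMatFam u, h1⟩, hmul⟩, fun σ i j => rfl, ?_⟩
  refine ⟨?_, ?_, ?_, ?_, ?_⟩
  · -- continuity
    intro n
    cases n with
    | zero =>
      refine ⟨⊥, inferInstance, fun σ _ i j => ?_⟩
      rw [pow_zero, Ideal.one_eq_top]
      exact Submodule.mem_top
    | succ k =>
      haveI := quotPow_isLocalRing (A := A) k
      obtain ⟨xm, hxm, hnf⟩ := h k
      obtain ⟨L, hL, hx⟩ := hnf.cont (k + 1)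
      refine ⟨L, hL, fun σ hσ i j => ?_⟩
      have e := hx σ hσ i j
      rw [quotPow_maximalIdeal_pow k, Ideal.mem_bot, Matrix.sub_apply, hxm] at e
      show (toMatFam u σ - 1) i j ∈ maximalIdeal A ^ (k + 1)
      rw [← Ideal.Quotient.eq_zero_iff_mem, Matrix.sub_apply, map_sub, toMatFam_apply]
      rw [← e, Matrix.one_apply, Matrix.one_apply]
      split_ifs <;> simp
  · -- lift
    intro σ i j
    haveI := quotPow_isLocalRing (A := A) 0
    obtain ⟨xm, hxm, hnf⟩ := h 0
    have e := hnf.lift σ i j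
    rw [hxm] at e
    have e2 : Ideal.Quotient.mk (maximalIdeal A ^ (0 + 1)) (u (σ, i, j)) -
        algebraMap 𝒪 (A ⧸ maximalIdeal A ^ (0 + 1)) (D.m0 σ i j) =
        Ideal.Quotient.mk (maximalIdeal A ^ (0 + 1))
          (u (σ, i, j) - algebraMap 𝒪 A (D.m0 σ i j)) := by
      rw [map_sub]; rfl
    rw [e2] at e
    exact (mem_maximalIdeal_iff_of_isLocalHom _ (quotPow_isLocalHom (A := A) 0) _).mpr e
  · refine eq_of_forall_mk_eq _ _ fun n => ?_
    haveI := quotPow_isLocalRing (A := A) n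
    obtain ⟨xm, hxm, hnf⟩ := h n
    have := hnf.nf00
    rw [hxm] at this
    rw [map_zero]; exact this
  · refine eq_of_forall_mk_eq _ _ fun n => ?_
    haveI := quotPow_isLocalRing (A := A) n
    obtain ⟨xm, hxm, hnf⟩ := h n
    have := hnf.nf10
    rw [hxm] at this
    rw [map_one]; exact this
  · refine eq_of_forall_mk_eq _ _ fun n => ?_
    haveI := quotPow_isLocalRing (A := A) n
    obtain ⟨xm, hxm, hnf⟩ := h n
    have := hnf.nf1
    rw [hxm] at this
    exact this

end Glue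

end Fermat.Agent.S53.H53
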