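import Mathlib

set_option autoImplicit false

open IsLocalRing Polynomial

namespace Fermat.Agent.S53.H92

variable {A : Type*} [CommRing A]

/-- A ring which is local and complete for its maximal ideal is Henselian local. -/
theorem henselianLocalRing_of_isAdicComplete [IsLocalRing A]
    [IsAdicComplete (maximalIdeal A) A] : HenselianLocalRing A where
  is_henselian f hf a₀ h₁ h₂ :=
    HenselianRing.is_henselian (I := maximalIdeal A) f hf a₀ h₁ (h₂.map _)

/-- If an ideal is nilpotent, the ring is adically complete for it. -/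
theorem isAdicComplete_of_pow_eq_bot (I : Ideal A) (n : ℕ) (h : I ^ n = ⊥) :
    IsAdicComplete I A where
  haus' := by
    intro x hx
    have := hx n
    rw [SModEq.zero, smul_eq_mul, Ideal.mul_top, h, Ideal.mem_bot] at this
    exact this
  prec' := by
    intro f hf
    refine ⟨f n, fun m => ?_⟩
    rcases le_total m n with hmn | hmn
    · exact hf hmn
    · have := hf hmn
      rw [SModEq, smul_eq_mul, Ideal.mul_top] at this ⊢
      have h2 : f n = f m := by
        have h3 := (Submodule.Quotient.eq _).mp this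
        rw [h, Ideal.mem_bot, sub_eq_zero] at h3
        exact h3
      rw [h2]

/-- An Artinian local ring is Henselian. -/
theorem henselianLocalRing_of_isArtinianRing [IsLocalRing A] [IsArtinianRing A] :
    HenselianLocalRing A := by
  obtain ⟨n, hn⟩ := IsArtinianRing.isNilpotent_jacobson_bot (R := A)
  rw [IsLocalRing.jacobson_eq_maximalIdeal ⊥ bot_ne_top] at hn
  have := isAdicComplete_of_pow_eq_bot (maximalIdeal A) n hn
  exact henselianLocalRing_of_isAdicComplete

/-- A quadratic `e0 + e1 y + e2 y^2` with `e0` in the maximal ideal and `e1` a unit has a root in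
the maximal ideal of a Henselian local ring (no monicity needed). -/
theorem exists_root_quadratic [HenselianLocalRing A] (e0 e1 e2 : A)
    (h0 : e0 ∈ maximalIdeal A) (h1 : IsUnit e1) :
    ∃ y ∈ maximalIdeal A, e0 + e1 * y + e2 * y ^ 2 = 0 := by
  obtain ⟨v, rfl⟩ := h1
  set s : A := e2 * e0 * (↑v⁻¹) ^ 2 with hs
  have hsm : s ∈ maximalIdeal A := by
    rw [hs, mul_comm e2 e0, mul_assoc]
    exact Ideal.mul_mem_right _ _ h0
  -- monic polynomial z^2 - z + s, approximate root 1
  let f : A[X] := X ^ 2 - X + C s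
  have hf : f.Monic := by
    have : f = X ^ 2 - (X - C s) := by simp only [f]; ring
    rw [this]
    apply Polynomial.monic_X_pow_sub
    rw [Polynomial.degree_X_sub_C]
    norm_num
  have hev : f.eval 1 ∈ maximalIdeal A := by
    simp only [f, eval_add, eval_sub, eval_pow, eval_X, eval_C]
    simpa using hsm
  have hder : IsUnit (f.derivative.eval 1) := by
    simp only [f, derivative_add, derivative_sub, derivative_X_pow, derivative_X, derivative_C,
      eval_add, eval_sub, eval_mul, eval_pow, eval_X, eval_C, eval_one]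
    norm_num
  obtain ⟨z, hz, hz1⟩ := HenselianLocalRing.is_henselian f hf 1 hev hder
  have hzu : IsUnit z := by
    by_contra hzn
    have hzm : z ∈ maximalIdeal A := (IsLocalRing.mem_maximalIdeal z).mpr hzn
    have : (1 : A) ∈ maximalIdeal A := by
      have := (maximalIdeal A).sub_mem hzm hz1
      simpa using this
    exact (maximalIdeal A).ne_top_iff_one.mp (Ideal.IsMaximal.ne_top inferInstance) this
  obtain ⟨w, rfl⟩ := hzu
  have hroot : (w : A) ^ 2 - w + s = 0 := by
    have := hz
    simp only [f, IsRoot.def, eval_add, eval_sub, eval_pow, eval_X, eval_C] at this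
    exact this
  refine ⟨-(e0 * ↑v⁻¹) * ↑w⁻¹, ?_, ?_⟩
  · rw [neg_mul, Ideal.neg_mem_iff, mul_assoc]
    exact Ideal.mul_mem_right _ _ h0
  · have hv : (v : A) * ↑v⁻¹ = 1 := v.mul_inv
    have hw : (w : A) * ↑w⁻¹ = 1 := w.mul_inv
    have key : e0 + ↑v * (-(e0 * ↑v⁻¹) * ↑w⁻¹) + e2 * (-(e0 * ↑v⁻¹) * ↑w⁻¹) ^ 2
        = e0 * (↑w⁻¹) ^ 2 * ((w : A) ^ 2 - w + s)
          + e0 * (1 - (v : A) * ↑v⁻¹) * ↑w⁻¹
          + e0 * (1 - ((w:A) * ↑w⁻¹)) * (1 + (w : A) * ↑w⁻¹)
          - e0 * (↑w⁻¹) * (1 - (w : A) * ↑w⁻¹) := by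
      rw [hs]; ring
    rw [key, hroot, hv, hw]
    ring

/-- Uniqueness of the small root of such a quadratic, in any local ring. -/
theorem root_quadratic_unique [IsLocalRing A] (e0 e1 e2 y y' : A) (h1 : IsUnit e1)
    (hy : y ∈ maximalIdeal A) (hy' : y' ∈ maximalIdeal A)
    (h : e0 + e1 * y + e2 * y ^ 2 = 0) (h' : e0 + e1 * y' + e2 * y' ^ 2 = 0) : y = y' := by
  have hprod : (y - y') * (e1 + e2 * (y + y')) = 0 := by
    linear_combination h - h'
  have hu : IsUnit (e1 + e2 * (y + y')) := by
    by_contra hn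
    have hm : e1 + e2 * (y + y') ∈ maximalIdeal A := (IsLocalRing.mem_maximalIdeal _).mpr hn
    have h2 : e2 * (y + y') ∈ maximalIdeal A :=
      Ideal.mul_mem_left _ _ ((maximalIdeal A).add_mem hy hy')
    have : e1 ∈ maximalIdeal A := by
      have := (maximalIdeal A).sub_mem hm h2
      simpa using this
    exact (IsLocalRing.mem_maximalIdeal _).mp this h1
  have := hu.mul_left_eq_zero.mp hprod
  exact sub_eq_zero.mp this

end Fermat.Agent.S53.H92
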