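import Mathlib
import Fermat.Agent.S53.H92_Quadratic

set_option autoImplicit false

open IsLocalRing Matrix

namespace Fermat.Agent.S53.H92

variable {A : Type*} [CommRing A] {G : Type*} [Monoid G]

/-- Normal form for a 2x2 matrix representation: the first column of `ρ g0` is `e2`
(so `ρ g0` is a companion matrix) and one entry of `ρ g1` is pinned to `c`. -/
structure IsNF (ρ : G →* Matrix (Fin 2) (Fin 2) A) (g0 g1 : G) (i j : Fin 2) (c : A) : Prop where
  col0 : ρ g0 0 0 = 0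
  col1 : ρ g0 1 0 = 1
  pin : ρ g1 i j = c

/-- Conjugate of a matrix representation by a unit `U`: `g ↦ U⁻¹ ρ(g) U`. -/
def conjHom (U : (Matrix (Fin 2) (Fin 2) A)ˣ) (ρ : G →* Matrix (Fin 2) (Fin 2) A) :
    G →* Matrix (Fin 2) (Fin 2) A where
  toFun g := ((U⁻¹ : (Matrix (Fin 2) (Fin 2) A)ˣ) : Matrix (Fin 2) (Fin 2) A) * ρ g *
    (U : Matrix (Fin 2) (Fin 2) A)
  map_one' := by simp
  map_mul' g h := by
    simp only [map_mul]
    calc ((U⁻¹ : (Matrix (Fin 2) (Fin 2) A)ˣ) : Matrix (Fin 2) (Fin 2) A) * (ρ g * ρ h) *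
          (U : Matrix (Fin 2) (Fin 2) A)
        = ((U⁻¹ : (Matrix (Fin 2) (Fin 2) A)ˣ) : Matrix (Fin 2) (Fin 2) A) * ρ g *
            (1 : Matrix (Fin 2) (Fin 2) A) * ρ h * (U : Matrix (Fin 2) (Fin 2) A) := by
          simp only [mul_one, mul_assoc]
      _ = ((U⁻¹ : (Matrix (Fin 2) (Fin 2) A)ˣ) : Matrix (Fin 2) (Fin 2) A) * ρ g *
            (U : Matrix (Fin 2) (Fin 2) A) *
            (((U⁻¹ : (Matrix (Fin 2) (Fin 2) A)ˣ) : Matrix (Fin 2) (Fin 2) A) * ρ h *
              (U : Matrix (Fin 2) (Fin 2) A)) := by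
          rw [← U.mul_inv]; simp only [mul_assoc]

theorem conjHom_apply (U : (Matrix (Fin 2) (Fin 2) A)ˣ)
    (ρ : G →* Matrix (Fin 2) (Fin 2) A) (g : G) :
    conjHom U ρ g = ((U⁻¹ : (Matrix (Fin 2) (Fin 2) A)ˣ) : Matrix (Fin 2) (Fin 2) A) * ρ g *
      (U : Matrix (Fin 2) (Fin 2) A) := rfl

theorem mul_conjHom_apply (U : (Matrix (Fin 2) (Fin 2) A)ˣ)
    (ρ : G →* Matrix (Fin 2) (Fin 2) A) (g : G) :
    (U : Matrix (Fin 2) (Fin 2) A) * conjHom U ρ g = ρ g * (U : Matrix (Fin 2) (Fin 2) A) := by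
  rw [conjHom_apply, ← mul_assoc, ← mul_assoc, U.mul_inv, one_mul]

theorem conjHom_mul (U V : (Matrix (Fin 2) (Fin 2) A)ˣ)
    (ρ : G →* Matrix (Fin 2) (Fin 2) A) :
    conjHom (U * V) ρ = conjHom V (conjHom U ρ) := by
  ext g : 1
  simp only [conjHom_apply, _root_.mul_inv_rev, Units.val_mul, mul_assoc]

theorem conjHom_one (ρ : G →* Matrix (Fin 2) (Fin 2) A) : conjHom 1 ρ = ρ := by
  ext g : 1
  simp [conjHom_apply]

/-- An intertwiner between two matrices with first column `e2` is `a + b M'`. -/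
theorem intertwiner_eq (M M' u : Matrix (Fin 2) (Fin 2) A)
    (h00 : M 0 0 = 0) (h10 : M 1 0 = 1) (h00' : M' 0 0 = 0) (h10' : M' 1 0 = 1)
    (h : u * M = M' * u) : u = u 0 0 • (1 : Matrix (Fin 2) (Fin 2) A) + u 1 0 • M' := by
  have e0 := congrFun (congrFun h 0) 0
  have e1 := congrFun (congrFun h 1) 0
  simp only [Matrix.mul_apply, Fin.sum_univ_two, h00, h10, h00', h10'] at e0 e1
  ext a b
  fin_cases a <;> fin_cases b
  · simp [Matrix.add_apply, Matrix.smul_apply, h00']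
  · simp [Matrix.add_apply, Matrix.smul_apply]
    linear_combination e0
  · simp [Matrix.add_apply, Matrix.smul_apply, h10']
  · simp [Matrix.add_apply, Matrix.smul_apply]
    linear_combination e1

/-- The key identity behind rigidity of the pinned entry. -/
theorem pinned_entry_identity (M' N N' u : Matrix (Fin 2) (Fin 2) A) (a b c : A) (i j : Fin 2)
    (h00' : M' 0 0 = 0) (h10' : M' 1 0 = 1)
    (hu : u = a • (1 : Matrix (Fin 2) (Fin 2) A) + b • M')
    (h : u * N = N' * u) (hN : N i j = c) (hN' : N' i j = c) :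
    b * (a * (N' * M' - M' * N') i j
      + b * ((M'.adjugate * N' * M') i j - M'.det * c)) = 0 := by
  have h1 : u.adjugate * (u * N) = u.adjugate * (N' * u) := by rw [h]
  rw [← mul_assoc, Matrix.adjugate_mul] at h1
  have h2 := congrFun (congrFun h1 i) j
  subst hu
  fin_cases i <;> fin_cases j <;>
  · simp only [Matrix.mul_apply, Fin.sum_univ_two, Matrix.adjugate_fin_two, Matrix.det_fin_two,
      Matrix.smul_apply, Matrix.add_apply, Matrix.one_apply, Matrix.sub_apply, smul_eq_mul,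
      Matrix.of_apply, Matrix.cons_val', Matrix.cons_val_zero, Matrix.cons_val_one,
      Matrix.empty_val', Matrix.cons_val_fin_one] at h2 hN hN' ⊢
    simp at h2 hN hN' ⊢
    subst hN
    rw [h00', h10'] at h2 ⊢
    linear_combination (-1 : A) * h2 - (a ^ 2 + a * b * M' 1 1) * hN'

/-- Expansion of the `(i,j)` entry of `adj(1 + yM) N (1 + yM)` as a quadratic in `y`. -/
theorem adjugate_conj_entry (M N : Matrix (Fin 2) (Fin 2) A) (y : A) (i j : Fin 2) :
    ((1 + y • M).adjugate * N * (1 + y • M)) i j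
      = N i j + y * (M.trace * N i j + (N * M - M * N) i j)
        + y ^ 2 * (M.adjugate * N * M) i j := by
  fin_cases i <;> fin_cases j <;>
  · simp only [Matrix.mul_apply, Fin.sum_univ_two, Matrix.adjugate_fin_two, Matrix.trace_fin_two,
      Matrix.smul_apply, Matrix.add_apply, Matrix.one_apply, Matrix.sub_apply, smul_eq_mul,
      Matrix.of_apply, Matrix.cons_val', Matrix.cons_val_zero, Matrix.cons_val_one,
      Matrix.empty_val', Matrix.cons_val_fin_one]
    simp
    ring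

theorem det_one_add_smul (M : Matrix (Fin 2) (Fin 2) A) (y : A) :
    (1 + y • M).det = 1 + y * M.trace + y ^ 2 * M.det := by
  simp only [Matrix.det_fin_two, Matrix.trace_fin_two, Matrix.add_apply, Matrix.smul_apply,
    Matrix.one_apply, smul_eq_mul]
  simp
  ring

section Local

variable [IsLocalRing A]

theorem isUnit_add_of_mem {a b : A} (ha : IsUnit a) (hb : b ∈ maximalIdeal A) :
    IsUnit (a + b) := by
  by_contra hn
  have hm : a + b ∈ maximalIdeal A := (IsLocalRing.mem_maximalIdeal _).mpr hn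
  have : a ∈ maximalIdeal A := by
    have := (maximalIdeal A).sub_mem hm hb
    simpa using this
  exact (IsLocalRing.mem_maximalIdeal _).mp this ha

/-- **Rigidity of normal forms.** Two representations in normal form which are intertwined by an
invertible matrix `u` whose `(1,0)` entry is in the maximal ideal are equal, and `u` is scalar. -/
theorem nf_rigid (ρ ρ' : G →* Matrix (Fin 2) (Fin 2) A) (g0 g1 : G) (i j : Fin 2) (c : A)
    (h : IsNF ρ g0 g1 i j c) (h' : IsNF ρ' g0 g1 i j c)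
    (hcomm : IsUnit ((ρ' g1 * ρ' g0 - ρ' g0 * ρ' g1) i j))
    (u : Matrix (Fin 2) (Fin 2) A) (hdet : IsUnit u.det) (hu10 : u 1 0 ∈ maximalIdeal A)
    (hconj : ∀ g, u * ρ g = ρ' g * u) :
    u = u 0 0 • (1 : Matrix (Fin 2) (Fin 2) A) ∧ IsUnit (u 0 0) ∧ ρ = ρ' := by
  have hu := intertwiner_eq (ρ g0) (ρ' g0) u h.col0 h.col1 h'.col0 h'.col1 (hconj g0)
  -- `u 0 0` is a unit
  have ha : IsUnit (u 0 0) := by
    have hd : u.det = u 0 0 * u 1 1 - u 0 1 * u 1 0 := Matrix.det_fin_two u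
    have h1 : IsUnit (u 0 0 * u 1 1) := by
      have : u 0 0 * u 1 1 = u.det + u 0 1 * u 1 0 := by rw [hd]; ring
      rw [this]
      exact isUnit_add_of_mem hdet (Ideal.mul_mem_left _ _ hu10)
    exact isUnit_of_mul_isUnit_left h1
  have key := pinned_entry_identity (ρ' g0) (ρ g1) (ρ' g1) u (u 0 0) (u 1 0) c i j
    h'.col0 h'.col1 hu (hconj g1) h.pin h'.pin
  have hunit : IsUnit (u 0 0 * (ρ' g1 * ρ' g0 - ρ' g0 * ρ' g1) i j
      + u 1 0 * (((ρ' g0).adjugate * ρ' g1 * ρ' g0) i j - (ρ' g0).det * c)) :=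
    isUnit_add_of_mem (ha.mul hcomm) (Ideal.mul_mem_right _ _ hu10)
  have hb : u 1 0 = 0 := hunit.mul_left_eq_zero.mp key
  have hu' : u = u 0 0 • (1 : Matrix (Fin 2) (Fin 2) A) := by
    rw [hb, zero_smul, add_zero] at hu
    exact hu
  refine ⟨hu', ha, ?_⟩
  ext g : 1
  have hg := hconj g
  rw [hu', Matrix.smul_mul, Matrix.mul_smul, one_mul, mul_one] at hg
  obtain ⟨v, hv⟩ := ha
  have := congrArg (fun X => (↑v⁻¹ : A) • X) hg
  simp only [smul_smul, ← hv, Units.inv_mul, one_smul] at this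
  exact this


/-- Reduction of 2x2 matrices modulo the maximal ideal. -/
noncomputable def red : Matrix (Fin 2) (Fin 2) A →+* Matrix (Fin 2) (Fin 2) (ResidueField A) :=
  (IsLocalRing.residue A).mapMatrix

theorem red_apply (X : Matrix (Fin 2) (Fin 2) A) (a b : Fin 2) :
    red X a b = IsLocalRing.residue A (X a b) := rfl

theorem red_inv_of_red_eq_one (U : (Matrix (Fin 2) (Fin 2) A)ˣ)
    (hU : red (U : Matrix (Fin 2) (Fin 2) A) = 1) :
    red ((U⁻¹ : (Matrix (Fin 2) (Fin 2) A)ˣ) : Matrix (Fin 2) (Fin 2) A) = 1 := by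
  have h : red ((U⁻¹ : (Matrix (Fin 2) (Fin 2) A)ˣ) : Matrix (Fin 2) (Fin 2) A) *
      red (U : Matrix (Fin 2) (Fin 2) A) = 1 := by
    rw [← map_mul, U.inv_mul, map_one]
  rw [hU, mul_one] at h
  exact h

theorem red_conj (U : (Matrix (Fin 2) (Fin 2) A)ˣ)
    (hU : red (U : Matrix (Fin 2) (Fin 2) A) = 1) (X : Matrix (Fin 2) (Fin 2) A) :
    red (((U⁻¹ : (Matrix (Fin 2) (Fin 2) A)ˣ) : Matrix (Fin 2) (Fin 2) A) * X *
      (U : Matrix (Fin 2) (Fin 2) A)) = red X := by
  rw [map_mul, map_mul, hU, red_inv_of_red_eq_one U hU, one_mul, mul_one]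

theorem mem_maximalIdeal_of_red_eq {X Y : Matrix (Fin 2) (Fin 2) A} (h : red X = red Y)
    (a b : Fin 2) : X a b - Y a b ∈ maximalIdeal A := by
  have := congrFun (congrFun h a) b
  rw [red_apply, red_apply] at this
  rw [← IsLocalRing.residue_eq_zero_iff, map_sub, this, sub_self]

theorem isUnit_entry_of_red_eq {X Y : Matrix (Fin 2) (Fin 2) A} (h : red X = red Y)
    (a b : Fin 2) (hY : IsUnit (Y a b)) : IsUnit (X a b) := by
  have : X a b = Y a b + (X a b - Y a b) := by ring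
  rw [this]
  exact isUnit_add_of_mem hY (mem_maximalIdeal_of_red_eq h a b)

/-- Step 1: conjugate a matrix whose first column is residually `e2` into one whose first column
is exactly `e2`, by a matrix congruent to `1`. -/
theorem exists_col_normalize (M : Matrix (Fin 2) (Fin 2) A)
    (h00 : M 0 0 ∈ maximalIdeal A) (h10 : M 1 0 - 1 ∈ maximalIdeal A) :
    ∃ U : (Matrix (Fin 2) (Fin 2) A)ˣ, red (U : Matrix (Fin 2) (Fin 2) A) = 1 ∧
      (((U⁻¹ : (Matrix (Fin 2) (Fin 2) A)ˣ) : Matrix (Fin 2) (Fin 2) A) * M *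
        (U : Matrix (Fin 2) (Fin 2) A)) 0 0 = 0 ∧
      (((U⁻¹ : (Matrix (Fin 2) (Fin 2) A)ˣ) : Matrix (Fin 2) (Fin 2) A) * M *
        (U : Matrix (Fin 2) (Fin 2) A)) 1 0 = 1 := by
  have hM10 : IsUnit (M 1 0) := by
    have : M 1 0 = 1 + (M 1 0 - 1) := by ring
    rw [this]
    exact isUnit_add_of_mem isUnit_one h10
  set V : Matrix (Fin 2) (Fin 2) A := !![1, M 0 0; 0, M 1 0] with hV
  have hdet : IsUnit V.det := by
    rw [hV, Matrix.det_fin_two_of]
    simpa using hM10
  set U : (Matrix (Fin 2) (Fin 2) A)ˣ := ((Matrix.isUnit_iff_isUnit_det V).mpr hdet).unit with hUdef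
  have hUV : (U : Matrix (Fin 2) (Fin 2) A) = V := IsUnit.unit_spec _
  have hred : red (U : Matrix (Fin 2) (Fin 2) A) = 1 := by
    rw [hUV]
    ext a b
    rw [red_apply]
    fin_cases a <;> fin_cases b
    · simp [hV]
    · simpa [hV] using h00
    · simp [hV]
    · have : IsLocalRing.residue A (M 1 0) = 1 := by
        have := (IsLocalRing.residue_eq_zero_iff _).mpr h10
        rw [map_sub, map_one, sub_eq_zero] at this
        exact this
      simpa [hV] using this
  refine ⟨U, hred, ?_⟩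
  set X : Matrix (Fin 2) (Fin 2) A :=
    ((U⁻¹ : (Matrix (Fin 2) (Fin 2) A)ˣ) : Matrix (Fin 2) (Fin 2) A) * M *
      (U : Matrix (Fin 2) (Fin 2) A) with hX
  have hVX : V * X = M * V := by
    rw [hX, ← hUV, ← mul_assoc, ← mul_assoc, U.mul_inv, one_mul]
  have e0 := congrFun (congrFun hVX 0) 0
  have e1 := congrFun (congrFun hVX 1) 0
  simp only [Matrix.mul_apply, Fin.sum_univ_two, hV, Matrix.of_apply, Matrix.cons_val',
    Matrix.cons_val_zero, Matrix.cons_val_one, Matrix.empty_val', Matrix.cons_val_fin_one] at e0 e1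
  simp at e0 e1
  have hX10 : X 1 0 = 1 := by
    obtain ⟨v, hv⟩ := hM10
    have : (v : A) * X 1 0 = v * 1 := by rw [hv, mul_one]; exact e1
    exact v.isUnit.mul_left_cancel this
  refine ⟨?_, hX10⟩
  rw [hX10] at e0
  linear_combination e0

end Local

section Henselian

variable [HenselianLocalRing A]

/-- Step 2: keep `M` fixed and pin the `(i,j)` entry of `N` to `c` by conjugating with
`1 + y M`, `y` in the maximal ideal. -/
theorem exists_pin_normalize (M N : Matrix (Fin 2) (Fin 2) A)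
    (i j : Fin 2) (c : A)
    (hcomm : IsUnit ((N * M - M * N) i j)) (hpin : N i j - c ∈ maximalIdeal A) :
    ∃ U : (Matrix (Fin 2) (Fin 2) A)ˣ, red (U : Matrix (Fin 2) (Fin 2) A) = 1 ∧
      ((U⁻¹ : (Matrix (Fin 2) (Fin 2) A)ˣ) : Matrix (Fin 2) (Fin 2) A) * M *
        (U : Matrix (Fin 2) (Fin 2) A) = M ∧
      (((U⁻¹ : (Matrix (Fin 2) (Fin 2) A)ˣ) : Matrix (Fin 2) (Fin 2) A) * N *
        (U : Matrix (Fin 2) (Fin 2) A)) i j = c := by
  have he1 : IsUnit (M.trace * (N i j - c) + (N * M - M * N) i j) := by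
    rw [add_comm]
    exact isUnit_add_of_mem hcomm (Ideal.mul_mem_left _ _ hpin)
  obtain ⟨y, hy, hE⟩ := exists_root_quadratic (N i j - c)
    (M.trace * (N i j - c) + (N * M - M * N) i j)
    ((M.adjugate * N * M) i j - M.det * c) hpin he1
  set V : Matrix (Fin 2) (Fin 2) A := 1 + y • M with hV
  have hdetV : V.det = 1 + y * M.trace + y ^ 2 * M.det := det_one_add_smul M y
  have hdet : IsUnit V.det := by
    rw [hdetV, add_assoc]
    refine isUnit_add_of_mem isUnit_one ?_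
    have : y * M.trace + y ^ 2 * M.det = y * (M.trace + y * M.det) := by ring
    rw [this]
    exact Ideal.mul_mem_right _ _ hy
  set U : (Matrix (Fin 2) (Fin 2) A)ˣ := ((Matrix.isUnit_iff_isUnit_det V).mpr hdet).unit with hUdef
  have hUV : (U : Matrix (Fin 2) (Fin 2) A) = V := IsUnit.unit_spec _
  have hred : red (U : Matrix (Fin 2) (Fin 2) A) = 1 := by
    rw [hUV, hV, map_add, map_one]
    have : red (y • M) = 0 := by
      ext a b
      rw [red_apply, Matrix.smul_apply, smul_eq_mul, map_mul,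
        (IsLocalRing.residue_eq_zero_iff _).mpr hy, zero_mul]
      rfl
    rw [this, add_zero]
  refine ⟨U, hred, ?_, ?_⟩
  · have hcommV : V * M = M * V := by
      rw [hV, add_mul, mul_add, one_mul, mul_one, Matrix.smul_mul, Matrix.mul_smul]
    rw [mul_assoc, hUV, ← hcommV, ← hUV, ← mul_assoc, U.inv_mul, one_mul]
  · have hVX : V * (((U⁻¹ : (Matrix (Fin 2) (Fin 2) A)ˣ) : Matrix (Fin 2) (Fin 2) A) * N *
        (U : Matrix (Fin 2) (Fin 2) A)) = N * V := by
      rw [← hUV, ← mul_assoc, ← mul_assoc, U.mul_inv, one_mul]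
    generalize ((U⁻¹ : (Matrix (Fin 2) (Fin 2) A)ˣ) : Matrix (Fin 2) (Fin 2) A) * N *
        (U : Matrix (Fin 2) (Fin 2) A) = X at hVX ⊢
    have h1 : V.adjugate * (V * X) = V.adjugate * N * V := by rw [hVX, mul_assoc]
    rw [← mul_assoc, Matrix.adjugate_mul] at h1
    have h2 := congrFun (congrFun h1 i) j
    rw [hV, adjugate_conj_entry, ← hV] at h2
    simp only [Matrix.smul_mul, one_mul, Matrix.smul_apply, smul_eq_mul] at h2
    rw [hdetV] at h2
    have h3 : (1 + y * M.trace + y ^ 2 * M.det) * X i j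
        = (1 + y * M.trace + y ^ 2 * M.det) * c := by
      linear_combination h2 + hE
    rw [← hdetV] at h3
    exact hdet.mul_left_cancel h3

/-- **Existence of normal forms** over a Henselian local ring. -/
theorem exists_nf (ρ : G →* Matrix (Fin 2) (Fin 2) A) (g0 g1 : G)
    (i j : Fin 2) (c : A)
    (h00 : ρ g0 0 0 ∈ maximalIdeal A) (h10 : ρ g0 1 0 - 1 ∈ maximalIdeal A)
    (hcomm : IsUnit ((ρ g1 * ρ g0 - ρ g0 * ρ g1) i j))
    (hpin : ρ g1 i j - c ∈ maximalIdeal A) :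
    ∃ U : (Matrix (Fin 2) (Fin 2) A)ˣ, red (U : Matrix (Fin 2) (Fin 2) A) = 1 ∧
      IsNF (conjHom U ρ) g0 g1 i j c := by
  obtain ⟨U0, hU0, hc0, hc1⟩ := exists_col_normalize (ρ g0) h00 h10
  set ρ1 := conjHom U0 ρ with hρ1
  have hcomm1 : IsUnit ((ρ1 g1 * ρ1 g0 - ρ1 g0 * ρ1 g1) i j) := by
    refine isUnit_entry_of_red_eq ?_ i j hcomm
    simp only [hρ1, conjHom_apply, map_sub, map_mul, red_inv_of_red_eq_one U0 hU0, hU0, one_mul,
      mul_one]
  have hpin1 : ρ1 g1 i j - c ∈ maximalIdeal A := by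
    have h1 : ρ1 g1 i j - ρ g1 i j ∈ maximalIdeal A :=
      mem_maximalIdeal_of_red_eq (by rw [hρ1, conjHom_apply, red_conj U0 hU0]) i j
    have : ρ1 g1 i j - c = (ρ1 g1 i j - ρ g1 i j) + (ρ g1 i j - c) := by ring
    rw [this]
    exact (maximalIdeal A).add_mem h1 hpin
  obtain ⟨U1, hU1, hM, hN⟩ := exists_pin_normalize (ρ1 g0) (ρ1 g1) i j c hcomm1 hpin1
  refine ⟨U0 * U1, ?_, ?_⟩
  · rw [Units.val_mul, map_mul, hU0, hU1, one_mul]
  · rw [conjHom_mul]
    refine ⟨?_, ?_, ?_⟩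
    · rw [conjHom_apply, hM]; exact hc0
    · rw [conjHom_apply, hM]; exact hc1
    · rw [conjHom_apply]; exact hN

end Henselian

end Fermat.Agent.S53.H92
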