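import Mathlib
import Fermat.Prelude.Def_GaloisRep_Residual
import Fermat.Agent.S53.H92_NormalForm

set_option autoImplicit false

open IsLocalRing Matrix
open scoped TensorProduct

namespace Fermat.Agent.S53.H92

section MatrixSchur

variable {A : Type*} [CommRing A]

/-- Matrix Schur lemma: if `M` has first column `e2`, and some entry of the commutator `[N, M]`
is a unit, then anything commuting with both `M` and `N` is a scalar matrix. -/
theorem scalar_of_commute (M N T : Matrix (Fin 2) (Fin 2) A) (h00 : M 0 0 = 0) (h10 : M 1 0 = 1)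
    (i j : Fin 2) (hunit : IsUnit ((N * M - M * N) i j))
    (hM : T * M = M * T) (hN : T * N = N * T) :
    T = T 0 0 • (1 : Matrix (Fin 2) (Fin 2) A) := by
  have hT := intertwiner_eq M M T h00 h10 h00 h10 hM
  have h1 : T 1 0 • (N * M - M * N) = 0 := by
    have h2 : T * N - N * T = 0 := by rw [hN, sub_self]
    rw [hT] at h2
    simp only [add_mul, mul_add, Matrix.smul_mul, Matrix.mul_smul, one_mul, mul_one] at h2
    have h3 : T 1 0 • (N * M - M * N)
        = -(T 0 0 • N + T 1 0 • (M * N) - (T 0 0 • N + T 1 0 • (N * M))) := by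
      rw [smul_sub]; abel
    rw [h3, h2, neg_zero]
  have h3 := congrFun (congrFun h1 i) j
  rw [Matrix.smul_apply, smul_eq_mul, Matrix.zero_apply] at h3
  have hb : T 1 0 = 0 := hunit.mul_left_eq_zero.mp h3
  rw [hb, zero_smul, add_zero] at hT
  exact hT

end MatrixSchur

section Residual

variable {k : Type} [Field k]

local notation "Γ" => (AlgebraicClosure ℚ ≃ₐ[ℚ] AlgebraicClosure ℚ)

/-- If all `ρ g` are of the form `a + b T` for a fixed endomorphism `T`, then `ρ` is not absolutely
irreducible. -/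
theorem not_isAbsolutelyIrreducible_of_forall_eq (ρbar : ResidualGaloisRep k)
    (T : Module.End k ρbar.V)
    (h : ∀ g : Γ, ∃ a b : k, ρbar.ρ g = a • (1 : Module.End k ρbar.V) + b • T) :
    ¬ ρbar.IsAbsolutelyIrreducible := by
  intro habs
  let K := AlgebraicClosure k
  let VK := K ⊗[k] ρbar.V
  let T' : Module.End K VK := T.baseChange K
  have : FiniteDimensional K VK := inferInstance
  have hfr : Module.finrank K VK = 2 := by
    rw [Module.finrank_baseChange, ρbar.finrank_eq]
  have : Nontrivial VK := Module.nontrivial_of_finrank_pos (R := K) (by rw [hfr]; norm_num)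
  obtain ⟨μ, hμ⟩ := Module.End.exists_eigenvalue T'
  obtain ⟨v, hv⟩ := hμ.exists_hasEigenvector
  have hTv : T' v = μ • v := hv.apply_eq_smul
  have hv0 : v ≠ 0 := hv.2
  let W : Submodule K VK := K ∙ v
  have hstable : ∀ σ : Γ, ∀ x ∈ W, (ρbar.baseChange K).ρ σ x ∈ W := by
    intro σ x hx
    obtain ⟨a, b, hab⟩ := h σ
    obtain ⟨c, rfl⟩ := Submodule.mem_span_singleton.mp hx
    have : (ρbar.baseChange K).ρ σ = (ρbar.ρ σ).baseChange K := rfl
    rw [this, hab, LinearMap.baseChange_add, LinearMap.baseChange_smul, LinearMap.baseChange_smul,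
      Module.End.one_eq_id, LinearMap.baseChange_id]
    simp only [LinearMap.add_apply, LinearMap.smul_apply, LinearMap.id_apply, map_smul]
    change c • (a • v + b • T' v) ∈ W
    rw [hTv]
    refine Submodule.smul_mem _ c (Submodule.add_mem _ ?_ ?_)
    · exact Submodule.smul_of_tower_mem _ a (Submodule.mem_span_singleton_self v)
    · exact Submodule.smul_of_tower_mem _ b
        (Submodule.smul_mem _ μ (Submodule.mem_span_singleton_self v))
  rcases habs W hstable with hW | hW
  · exact hv0 ((Submodule.span_singleton_eq_bot).mp hW)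
  · have h1 : Module.finrank K W = 1 := finrank_span_singleton hv0
    rw [hW, finrank_top, hfr] at h1
    omega

/-- Claim A: there is `g0` and a cyclic vector for `ρ g0`. -/
theorem exists_cyclic (ρbar : ResidualGaloisRep k) (habs : ρbar.IsAbsolutelyIrreducible) :
    ∃ (g0 : Γ) (w : ρbar.V), LinearIndependent k ![w, ρbar.ρ g0 w] := by
  by_contra hcon
  push Not at hcon
  refine not_isAbsolutelyIrreducible_of_forall_eq ρbar 0 (fun g => ?_) habs
  obtain ⟨a, ha⟩ := LinearMap.exists_eq_smul_id_of_forall_notLinearIndependent (hcon g)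
  exact ⟨a, 0, by rw [ha, zero_smul, add_zero]⟩

/-- Claim B: if `w` is cyclic for `ρ g0`, some `ρ g1` does not commute with `ρ g0`. -/
theorem exists_not_commute (ρbar : ResidualGaloisRep k) (habs : ρbar.IsAbsolutelyIrreducible)
    (g0 : Γ) (w : ρbar.V) (hw : LinearIndependent k ![w, ρbar.ρ g0 w]) :
    ∃ g1 : Γ, ρbar.ρ g1 * ρbar.ρ g0 ≠ ρbar.ρ g0 * ρbar.ρ g1 := by
  by_contra hcon
  push Not at hcon
  set T := ρbar.ρ g0 with hT
  have hcard : Fintype.card (Fin 2) = Module.finrank k ρbar.V := by
    rw [ρbar.finrank_eq]; rfl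
  let b : Module.Basis (Fin 2) k ρbar.V := basisOfLinearIndependentOfCardEqFinrank hw hcard
  have hb0 : b 0 = w := by
    simp [b, coe_basisOfLinearIndependentOfCardEqFinrank]
  have hb1 : b 1 = T w := by
    simp [b, coe_basisOfLinearIndependentOfCardEqFinrank]
  refine not_isAbsolutelyIrreducible_of_forall_eq ρbar T (fun g => ?_) habs
  set S := ρbar.ρ g with hS
  have hcomm : S * T = T * S := hcon g
  -- S w = a w + c T w
  obtain ⟨a, c, hSw⟩ : ∃ a c : k, S w = a • w + c • T w := by
    refine ⟨b.repr (S w) 0, b.repr (S w) 1, ?_⟩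
    conv_lhs => rw [← b.sum_repr (S w)]
    rw [Fin.sum_univ_two, hb0, hb1]
  refine ⟨a, c, ?_⟩
  apply b.ext
  intro i
  fin_cases i
  · simp only [Fin.zero_eta, hb0, LinearMap.add_apply, LinearMap.smul_apply, Module.End.one_apply]
    exact hSw
  · simp only [Fin.mk_one, hb1, LinearMap.add_apply, LinearMap.smul_apply, Module.End.one_apply]
    have h1 : S (T w) = T (S w) := by
      have := congrArg (fun f => f w) hcomm
      simpa [Module.End.mul_apply] using this
    rw [h1, hSw, map_add, map_smul, map_smul]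

/-- **SCH, packaged.** From absolute irreducibility: elements `g0 g1`, a basis in which `ρ g0`
has first column `e2`, and a nonzero entry of the commutator of the matrices of `ρ g1`, `ρ g0`. -/
theorem exists_basis_normal (ρbar : ResidualGaloisRep k) (habs : ρbar.IsAbsolutelyIrreducible) :
    ∃ (g0 g1 : Γ) (b : Module.Basis (Fin 2) k ρbar.V) (i j : Fin 2),
      LinearMap.toMatrix b b (ρbar.ρ g0) 0 0 = 0 ∧
      LinearMap.toMatrix b b (ρbar.ρ g0) 1 0 = 1 ∧
      (LinearMap.toMatrix b b (ρbar.ρ g1) * LinearMap.toMatrix b b (ρbar.ρ g0)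
        - LinearMap.toMatrix b b (ρbar.ρ g0) * LinearMap.toMatrix b b (ρbar.ρ g1)) i j ≠ 0 := by
  obtain ⟨g0, w, hw⟩ := exists_cyclic ρbar habs
  obtain ⟨g1, hg1⟩ := exists_not_commute ρbar habs g0 w hw
  have hcard : Fintype.card (Fin 2) = Module.finrank k ρbar.V := by
    rw [ρbar.finrank_eq]; rfl
  let b : Module.Basis (Fin 2) k ρbar.V := basisOfLinearIndependentOfCardEqFinrank hw hcard
  have hb0 : b 0 = w := by
    simp [b, coe_basisOfLinearIndependentOfCardEqFinrank]
  have hb1 : b 1 = ρbar.ρ g0 w := by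
    simp [b, coe_basisOfLinearIndependentOfCardEqFinrank]
  have hne : LinearMap.toMatrix b b (ρbar.ρ g1) * LinearMap.toMatrix b b (ρbar.ρ g0)
        - LinearMap.toMatrix b b (ρbar.ρ g0) * LinearMap.toMatrix b b (ρbar.ρ g1) ≠ 0 := by
    rw [← LinearMap.toMatrix_mul, ← LinearMap.toMatrix_mul, ← map_sub]
    intro h0
    have := (LinearMap.toMatrix b b).injective (h0.trans (map_zero _).symm)
    exact hg1 (sub_eq_zero.mp this)
  obtain ⟨i, j, hij⟩ : ∃ i j, (LinearMap.toMatrix b b (ρbar.ρ g1) * LinearMap.toMatrix b b (ρbar.ρ g0)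
        - LinearMap.toMatrix b b (ρbar.ρ g0) * LinearMap.toMatrix b b (ρbar.ρ g1)) i j ≠ 0 := by
    by_contra hcon
    push Not at hcon
    exact hne (Matrix.ext hcon)
  refine ⟨g0, g1, b, i, j, ?_, ?_, hij⟩
  · rw [LinearMap.toMatrix_apply, hb0, ← hb1, Module.Basis.repr_self]
    simp
  · rw [LinearMap.toMatrix_apply, hb0, ← hb1, Module.Basis.repr_self]
    simp

end Residual

end Fermat.Agent.S53.H92
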