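import Fermat.Agent.S53.H53_Functor
import Fermat.Agent.S53.H92_Schur

set_option autoImplicit false

open scoped TensorProduct
open IsLocalRing

namespace Fermat.Agent.S53.H53

open Fermat.Agent.S53.H92

section Data

variable {𝒪 : Type} [CommRing 𝒪] [IsLocalRing 𝒪]

/-- Rigidification data exist for absolutely irreducible residual representations. -/
theorem exists_nfData (ρbar : ResidualGaloisRep (ResidueField 𝒪))
    (habs : ρbar.IsAbsolutelyIrreducible) : Nonempty (NFData 𝒪 ρbar) := by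
  obtain ⟨g0, g1, b, i, j, h00, h10, hcomm⟩ := exists_basis_normal ρbar habs
  refine ⟨{ b := b, g0 := g0, g1 := g1, i0 := i, j0 := j
            m0 := fun σ => Matrix.of fun a c =>
              Function.surjInv (residue_surjective (R := 𝒪)) (resMatOf ρbar b σ a c)
            hm0 := ?_, h00 := h00, h10 := h10, hcomm := hcomm }⟩
  intro σ
  ext a c
  rw [Matrix.map_apply, Matrix.of_apply]
  exact Function.surjInv_eq _ _

end Data

section Rigid

variable {𝒪 : Type} [CommRing 𝒪] [IsLocalRing 𝒪]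
  {ρbar : ResidualGaloisRep (ResidueField 𝒪)} {D : NFData 𝒪 ρbar}
  {A : Type} [CommRing A] [IsLocalRing A] [Algebra 𝒪 A]

/-- The commutator entry of the chosen lifts is a unit of `𝒪`. -/
theorem NFData.isUnit_comm (D : NFData 𝒪 ρbar) :
    IsUnit ((D.m0 D.g1 * D.m0 D.g0 - D.m0 D.g0 * D.m0 D.g1) D.i0 D.j0) := by
  rw [← IsLocalRing.residue_ne_zero_iff_isUnit]
  have h := D.hcomm
  rw [← D.hm0, ← D.hm0] at h
  have e : (residue 𝒪) ((D.m0 D.g1 * D.m0 D.g0 - D.m0 D.g0 * D.m0 D.g1) D.i0 D.j0) =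
      ((D.m0 D.g1).map (residue 𝒪) * (D.m0 D.g0).map (residue 𝒪) -
        (D.m0 D.g0).map (residue 𝒪) * (D.m0 D.g1).map (residue 𝒪)) D.i0 D.j0 := by
    simp only [Matrix.sub_apply, Matrix.mul_apply, Matrix.map_apply, Fin.sum_univ_two, map_sub,
      map_add, map_mul]
  rw [e]
  exact h

theorem isUnit_of_sub_mem {a b : A} (hb : IsUnit b) (h : a - b ∈ maximalIdeal A) : IsUnit a := by
  have : a = b + (a - b) := by ring
  rw [this]
  exact isUnit_add_of_mem hb h

/-- Congruence of matrices modulo the maximal ideal is compatible with products. -/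
theorem mul_sub_mul_mem {X X' Y Y' : M2 A}
    (hX : ∀ i j, X i j - X' i j ∈ maximalIdeal A) (hY : ∀ i j, Y i j - Y' i j ∈ maximalIdeal A)
    (i j : Fin 2) : (X * Y) i j - (X' * Y') i j ∈ maximalIdeal A := by
  rw [Matrix.mul_apply, Matrix.mul_apply, ← Finset.sum_sub_distrib]
  refine Ideal.sum_mem _ fun l _ => ?_
  have : X i l * Y l j - X' i l * Y' l j = (X i l - X' i l) * Y l j + X' i l * (Y l j - Y' l j) := by
    ring
  rw [this]
  exact Ideal.add_mem _ (Ideal.mul_mem_right _ _ (hX i l)) (Ideal.mul_mem_left _ _ (hY l j))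

theorem IsNFMat.isUnit_comm {x : GQ →* M2 A} (h : IsNFMat D x) :
    IsUnit ((x D.g1 * x D.g0 - x D.g0 * x D.g1) D.i0 D.j0) := by
  have hu : IsUnit (algebraMap 𝒪 A
      ((D.m0 D.g1 * D.m0 D.g0 - D.m0 D.g0 * D.m0 D.g1) D.i0 D.j0)) := D.isUnit_comm.map _
  refine isUnit_of_sub_mem hu ?_
  have e : algebraMap 𝒪 A ((D.m0 D.g1 * D.m0 D.g0 - D.m0 D.g0 * D.m0 D.g1) D.i0 D.j0) =
      (((D.m0 D.g1).map (algebraMap 𝒪 A)) * ((D.m0 D.g0).map (algebraMap 𝒪 A)) -
        ((D.m0 D.g0).map (algebraMap 𝒪 A)) * ((D.m0 D.g1).map (algebraMap 𝒪 A))) D.i0 D.j0 := by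
    simp only [Matrix.sub_apply, Matrix.mul_apply, Matrix.map_apply, Fin.sum_univ_two, map_sub,
      map_add, map_mul]
  rw [e, Matrix.sub_apply, Matrix.sub_apply]
  have h1 := mul_sub_mul_mem (X := x D.g1) (X' := (D.m0 D.g1).map (algebraMap 𝒪 A))
    (Y := x D.g0) (Y' := (D.m0 D.g0).map (algebraMap 𝒪 A)) (fun i j => h.lift _ i j)
    (fun i j => h.lift _ i j) D.i0 D.j0
  have h2 := mul_sub_mul_mem (X := x D.g0) (X' := (D.m0 D.g0).map (algebraMap 𝒪 A))
    (Y := x D.g1) (Y' := (D.m0 D.g1).map (algebraMap 𝒪 A)) (fun i j => h.lift _ i j)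
    (fun i j => h.lift _ i j) D.i0 D.j0
  have := Ideal.sub_mem _ h1 h2
  convert this using 1
  ring

theorem IsNFMat.red_eq {x x' : GQ →* M2 A} (h : IsNFMat D x) (h' : IsNFMat D x') (σ : GQ) :
    red (x σ) = red (x' σ) := by
  ext i j
  rw [red_apply, red_apply, ← sub_eq_zero, ← map_sub, IsLocalRing.residue_eq_zero_iff]
  have := Ideal.sub_mem _ (h.lift σ i j) (h'.lift σ i j)
  convert this using 1
  ring

/-- **Rigidity**: conjugate normal form lifts are equal. -/
theorem IsNFMat.eq_of_conj {x x' : GQ →* M2 A} (h : IsNFMat D x) (h' : IsNFMat D x')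
    (u : (M2 A)ˣ) (hu : ∀ σ, (u : M2 A) * x σ = x' σ * u) : x = x' := by
  have hcomm : ∀ σ, red (u : M2 A) * red (x' σ) = red (x' σ) * red (u : M2 A) := by
    intro σ
    rw [← h.red_eq h' σ, ← map_mul, hu σ, map_mul, h.red_eq h' σ]
  have h00 : red (x' D.g0) 0 0 = 0 := by rw [red_apply, h'.nf00, map_zero]
  have h10 : red (x' D.g0) 1 0 = 1 := by rw [red_apply, h'.nf10, map_one]
  have hunit : IsUnit ((red (x' D.g1) * red (x' D.g0) - red (x' D.g0) * red (x' D.g1))
      D.i0 D.j0) := by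
    have e : red (x' D.g1) * red (x' D.g0) - red (x' D.g0) * red (x' D.g1) =
        red (x' D.g1 * x' D.g0 - x' D.g0 * x' D.g1) := by
      rw [map_sub, map_mul red, map_mul red]
    rw [e, red_apply]
    exact h'.isUnit_comm.map _
  have hsc := scalar_of_commute (red (x' D.g0)) (red (x' D.g1)) (red (u : M2 A)) h00 h10
    D.i0 D.j0 hunit (hcomm D.g0) (hcomm D.g1)
  have hu10 : (u : M2 A) 1 0 ∈ maximalIdeal A := by
    rw [← IsLocalRing.residue_eq_zero_iff, ← red_apply, hsc]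
    simp
  have hdet : IsUnit (u : M2 A).det := (Matrix.isUnit_iff_isUnit_det _).mp u.isUnit
  exact (nf_rigid x x' D.g0 D.g1 D.i0 D.j0 _ ⟨h.nf00, h.nf10, h.nf1⟩ ⟨h'.nf00, h'.nf10, h'.nf1⟩
    h'.isUnit_comm (u : M2 A) hdet hu10 hu).2.2

theorem IsNFMat.eq_of_isEquiv {x x' : GQ →* M2 A} (h : IsNFMat D x) (h' : IsNFMat D x')
    (he : (ofMat x h.cont).IsEquiv (ofMat x' h'.cont)) : x = x' := by
  obtain ⟨u, hu⟩ := exists_conj_of_isEquiv_ofMat h.cont h'.cont he
  exact h.eq_of_conj h' u hu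

end Rigid

section Existence

variable {𝒪 : Type} [CommRing 𝒪] [IsLocalRing 𝒪]
  {ρbar : ResidualGaloisRep (ResidueField 𝒪)} (D : NFData 𝒪 ρbar)
  {A : Type} [CommRing A] [IsLocalRing A] [Algebra 𝒪 A]

omit [IsLocalRing A] in
theorem entries_mem_of_mul_mul (I : Ideal A) (P X Q : M2 A) (hX : ∀ i j, X i j ∈ I) (i j : Fin 2) :
    (P * X * Q) i j ∈ I := by
  rw [Matrix.mul_apply]
  refine Ideal.sum_mem _ fun l _ => Ideal.mul_mem_right _ _ ?_
  rw [Matrix.mul_apply]
  exact Ideal.sum_mem _ fun l' _ => Ideal.mul_mem_left _ _ (hX l' l)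

theorem matCont_conjHom {y : GQ →* M2 A} (hy : MatCont y) (U : (M2 A)ˣ) :
    MatCont (conjHom U y) := by
  intro n
  obtain ⟨L, hL, h⟩ := hy n
  refine ⟨L, hL, fun σ hσ i j => ?_⟩
  have e : conjHom U y σ - 1 = ((U⁻¹ : (M2 A)ˣ) : M2 A) * (y σ - 1) * (U : M2 A) := by
    rw [conjHom_apply, mul_sub, sub_mul, mul_one, Units.inv_mul]
  rw [e]
  exact entries_mem_of_mul_mul _ _ _ _ (h σ hσ) i j

theorem isEquiv_ofMat_conjHom {y : GQ →* M2 A} (hy : MatCont y) (U : (M2 A)ˣ) :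
    (ofMat y hy).IsEquiv (ofMat (conjHom U y) (matCont_conjHom hy U)) := by
  refine isEquiv_ofMat_of_conj hy _ U⁻¹ fun σ => ?_
  rw [conjHom_apply, mul_assoc, mul_assoc, Units.mul_inv, mul_one]

/-- **Existence of normal forms** for representations lifting the residual one. -/
theorem exists_isNFMat_of_residual_isEquiv [HenselianLocalRing A] [IsLocalHom (algebraMap 𝒪 A)]
    (ρ : GaloisRepAdic A)
    (h : ρ.residual.IsEquiv
      (ρbar.baseChangeAlong (IsLocalRing.ResidueField.map (algebraMap 𝒪 A)))) :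
    ∃ (xm : GQ →* M2 A) (hx : IsNFMat D xm), ρ.IsEquiv (ofMat xm hx.cont) := by
  obtain ⟨b, hb⟩ := exists_basis_of_residual_isEquiv ρ ρbar D.b _ h
  set y := matOf ρ b with hy
  have hyc : MatCont y := matCont_matOf ρ b
  have hlift : ∀ σ i j, y σ i j - algebraMap 𝒪 A (D.m0 σ i j) ∈ maximalIdeal A := by
    intro σ i j
    rw [← IsLocalRing.residue_eq_zero_iff, map_sub, sub_eq_zero]
    have h1 := congrFun (congrFun (hb σ) i) j
    rw [Matrix.map_apply, Matrix.map_apply] at h1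
    rw [h1, ← D.hm0 σ, Matrix.map_apply, IsLocalRing.ResidueField.map_residue]
  have hm00 : algebraMap 𝒪 A (D.m0 D.g0 0 0) ∈ maximalIdeal A := by
    have h1 : residue 𝒪 (D.m0 D.g0 0 0) = 0 := by
      have := D.h00
      rw [← D.hm0, Matrix.map_apply] at this
      exact this
    rw [IsLocalRing.residue_eq_zero_iff] at h1
    exact map_nonunit (algebraMap 𝒪 A) _ h1
  have hm10 : algebraMap 𝒪 A (D.m0 D.g0 1 0) - 1 ∈ maximalIdeal A := by
    have h1 : residue 𝒪 (D.m0 D.g0 1 0 - 1) = 0 := by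
      have := D.h10
      rw [← D.hm0, Matrix.map_apply] at this
      rw [map_sub, this, map_one, sub_self]
    rw [IsLocalRing.residue_eq_zero_iff] at h1
    have := map_nonunit (algebraMap 𝒪 A) _ h1
    rwa [map_sub, map_one] at this
  have h00 : y D.g0 0 0 ∈ maximalIdeal A := by
    have := Ideal.add_mem _ (hlift D.g0 0 0) hm00
    rwa [sub_add_cancel] at this
  have h10 : y D.g0 1 0 - 1 ∈ maximalIdeal A := by
    have := Ideal.add_mem _ (hlift D.g0 1 0) hm10
    convert this using 1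
    ring
  have hcomm : IsUnit ((y D.g1 * y D.g0 - y D.g0 * y D.g1) D.i0 D.j0) := by
    have hu : IsUnit (algebraMap 𝒪 A
        ((D.m0 D.g1 * D.m0 D.g0 - D.m0 D.g0 * D.m0 D.g1) D.i0 D.j0)) := D.isUnit_comm.map _
    refine isUnit_of_sub_mem hu ?_
    have e : algebraMap 𝒪 A ((D.m0 D.g1 * D.m0 D.g0 - D.m0 D.g0 * D.m0 D.g1) D.i0 D.j0) =
        (((D.m0 D.g1).map (algebraMap 𝒪 A)) * ((D.m0 D.g0).map (algebraMap 𝒪 A)) -
          ((D.m0 D.g0).map (algebraMap 𝒪 A)) * ((D.m0 D.g1).map (algebraMap 𝒪 A))) D.i0 D.j0 := by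
      simp only [Matrix.sub_apply, Matrix.mul_apply, Matrix.map_apply, Fin.sum_univ_two, map_sub,
        map_add, map_mul]
    rw [e, Matrix.sub_apply, Matrix.sub_apply]
    have h1 := mul_sub_mul_mem (X := y D.g1) (X' := (D.m0 D.g1).map (algebraMap 𝒪 A))
      (Y := y D.g0) (Y' := (D.m0 D.g0).map (algebraMap 𝒪 A)) (fun i j => hlift _ i j)
      (fun i j => hlift _ i j) D.i0 D.j0
    have h2 := mul_sub_mul_mem (X := y D.g0) (X' := (D.m0 D.g0).map (algebraMap 𝒪 A))
      (Y := y D.g1) (Y' := (D.m0 D.g1).map (algebraMap 𝒪 A)) (fun i j => hlift _ i j)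
      (fun i j => hlift _ i j) D.i0 D.j0
    have := Ideal.sub_mem _ h1 h2
    convert this using 1
    ring
  obtain ⟨U, hU, hnf⟩ := exists_nf y D.g0 D.g1 D.i0 D.j0
    (algebraMap 𝒪 A (D.m0 D.g1 D.i0 D.j0)) h00 h10 hcomm (hlift _ _ _)
  have hxnf : IsNFMat D (conjHom U y) :=
    { cont := matCont_conjHom hyc U
      lift := fun σ i j => by
        have h1 : conjHom U y σ i j - y σ i j ∈ maximalIdeal A :=
          mem_maximalIdeal_of_red_eq (by rw [conjHom_apply, red_conj U hU]) i j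
        have := Ideal.add_mem _ h1 (hlift σ i j)
        convert this using 1
        ring
      nf00 := hnf.col0
      nf10 := hnf.col1
      nf1 := hnf.pin }
  exact ⟨conjHom U y, hxnf,
    isEquiv_trans (isEquiv_ofMat_matOf ρ b) (isEquiv_ofMat_conjHom hyc U)⟩

end Existence

section ResidualPoint

variable {𝒪 : Type} [CommRing 𝒪] [IsLocalRing 𝒪]
  {ρbar : ResidualGaloisRep (ResidueField 𝒪)} (D : NFData 𝒪 ρbar)
  (𝒟 : ∀ ⦃A : Type⦄ [CommRing A] [IsLocalRing A] [Algebra 𝒪 A], GaloisRepAdic A → Prop)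

open GaloisRep

theorem isArtinianTestAlgebra_residueField : IsArtinianTestAlgebra 𝒪 (ResidueField 𝒪) where
  isLocalHom := by
    rw [IsLocalRing.ResidueField.algebraMap_eq]
    infer_instance
  residue_surjective := by
    rw [IsLocalRing.ResidueField.algebraMap_eq]
    exact (IsLocalRing.residue_surjective (R := ResidueField 𝒪)).comp
      (IsLocalRing.residue_surjective (R := 𝒪))
  isArtinian := inferInstance

theorem matCont_resMatOf : MatCont (resMatOf ρbar D.b) := by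
  obtain ⟨L, hL, h⟩ := ρbar.factorsThroughFiniteLevel
  refine (matCont_iff_of_artinian _).mpr ⟨L, hL, fun σ hσ => ?_⟩
  rw [resMatOf_apply, h σ hσ]
  exact LinearMap.toMatrix_one D.b

theorem isNFMat_resMatOf : IsNFMat D (resMatOf ρbar D.b) where
  cont := matCont_resMatOf D
  lift σ i j := by
    rw [IsLocalRing.ResidueField.algebraMap_eq, ← D.hm0 σ, Matrix.map_apply, sub_self]
    exact Ideal.zero_mem _
  nf00 := D.h00
  nf10 := D.h10
  nf1 := by
    rw [IsLocalRing.ResidueField.algebraMap_eq, ← D.hm0 D.g1, Matrix.map_apply]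

theorem isEquiv_ofResidualGaloisRep :
    (GaloisRepAdic.ofResidualGaloisRep ρbar).IsEquiv
      (ofMat (resMatOf ρbar D.b) (matCont_resMatOf D)) := by
  let b' : Module.Basis (Fin 2) (ResidueField 𝒪) (GaloisRepAdic.ofResidualGaloisRep ρbar).V := D.b
  refine isEquiv_of_matOf_eq b' (Pi.basisFun _ (Fin 2)) fun σ => ?_
  rw [matOf_ofMat]
  rfl

/-- The coordinates of the residual representation. -/
noncomputable def resCoord : Coord → ResidueField 𝒪 := fun c => resMatOf ρbar D.b c.1 c.2.1 c.2.2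

variable {𝒟}

theorem isNFLift_resCoord (h𝒟 : IsDeformationCondition 𝒪 𝒟)
    (hbar : 𝒟 (GaloisRepAdic.ofResidualGaloisRep ρbar)) : IsNFLift D 𝒟 (resCoord D) :=
  ⟨resMatOf ρbar D.b, fun _ _ _ => rfl, isNFMat_resMatOf D,
    h𝒟.of_isEquiv isArtinianTestAlgebra_residueField (isEquiv_ofResidualGaloisRep D) hbar⟩

theorem eq_resCoord_of_isNFLift {y : Coord → ResidueField 𝒪} (hy : IsNFLift D 𝒟 y) :
    y = resCoord D := by
  obtain ⟨ym, hym, hnf, -⟩ := hy
  funext ⟨σ, i, j⟩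
  have h1 := hnf.lift σ i j
  have h2 : maximalIdeal (ResidueField 𝒪) = ⊥ :=
    (Ideal.eq_bot_or_top _).resolve_right (Ideal.IsMaximal.ne_top inferInstance)
  rw [h2, Ideal.mem_bot, sub_eq_zero, IsLocalRing.ResidueField.algebraMap_eq] at h1
  rw [← hym, h1, resCoord, ← D.hm0 σ, Matrix.map_apply]

end ResidualPoint

section Tangent

variable {𝒪 : Type} [CommRing 𝒪] [IsLocalRing 𝒪]
  {ρbar : ResidualGaloisRep (ResidueField 𝒪)} (D : NFData 𝒪 ρbar)
  (𝒟 : ∀ ⦃A : Type⦄ [CommRing A] [IsLocalRing A] [Algebra 𝒪 A], GaloisRepAdic A → Prop)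

open GaloisRep

/-- The algebra structure on the dual numbers used in `GaloisRep.TangentFinite`. -/
@[reducible] noncomputable def dualNumberAlgebra (𝒪 : Type) [CommRing 𝒪] [IsLocalRing 𝒪] :
    Algebra 𝒪 (DualNumber (ResidueField 𝒪)) :=
  ((algebraMap (ResidueField 𝒪) (DualNumber (ResidueField 𝒪))).comp
      (algebraMap 𝒪 (ResidueField 𝒪))).toAlgebra

theorem finite_isNFLift_dualNumber (hfin : TangentFinite 𝒪 ρbar 𝒟) :
    letI := dualNumberAlgebra 𝒪
    Finite {t : Coord → DualNumber (ResidueField 𝒪) // IsNFLift D 𝒟 t} := by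
  letI := dualNumberAlgebra 𝒪
  unfold TangentFinite at hfin
  -- choose matrix forms
  have hex : ∀ t : {t : Coord → DualNumber (ResidueField 𝒪) // IsNFLift D 𝒟 t},
      ∃ xm : GQ →* M2 (DualNumber (ResidueField 𝒪)),
        (∀ σ i j, xm σ i j = t.1 (σ, i, j)) ∧ ∃ h : IsNFMat D xm, 𝒟 (ofMat xm h.cont) := fun t => t.2
  choose xm hxm hnf hd using hex
  have hres : ∀ t, (ofMat (xm t) (hnf t).cont).residual.IsEquiv
      (ρbar.baseChangeAlong ((IsLocalRing.residue (DualNumber (ResidueField 𝒪))).comp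
        (algebraMap (ResidueField 𝒪) (DualNumber (ResidueField 𝒪))))) := by
    intro t
    refine residual_isEquiv_of_lift _ (Pi.basisFun _ (Fin 2)) ρbar D.b _ fun σ => ?_
    rw [matOf_ofMat]
    ext i j
    rw [Matrix.map_apply, Matrix.map_apply, ← D.hm0 σ, Matrix.map_apply]
    have h1 := (hnf t).lift σ i j
    rw [← IsLocalRing.residue_eq_zero_iff, map_sub, sub_eq_zero] at h1
    rw [h1]
    rfl
  letI alg2 : Algebra (ResidueField 𝒪) (ResidueField (DualNumber (ResidueField 𝒪))) :=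
    ((IsLocalRing.residue (DualNumber (ResidueField 𝒪))).comp
      (algebraMap (ResidueField 𝒪) (DualNumber (ResidueField 𝒪)))).toAlgebra
  let S : Setoid {ρ : GaloisRepAdic (DualNumber (ResidueField 𝒪)) //
      𝒟 ρ ∧ ρ.residual.IsEquiv (ρbar.baseChange (ResidueField (DualNumber (ResidueField 𝒪))))} :=
    ⟨fun ρ ρ' => ρ.1.IsEquiv ρ'.1, ⟨fun ρ => ⟨GaloisRepAdic.Equiv.refl ρ.1⟩,
      fun ⟨e⟩ => ⟨e.symm⟩, fun ⟨e⟩ ⟨e'⟩ => ⟨e.trans e'⟩⟩⟩
  have hfin' : Finite (Quotient S) := hfin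
  let Φ : {t : Coord → DualNumber (ResidueField 𝒪) // IsNFLift D 𝒟 t} → Quotient S :=
    fun t => Quotient.mk S ⟨ofMat (xm t) (hnf t).cont, hd t, hres t⟩
  have hΦ : Function.Injective Φ := by
    intro t t' htt
    have h1 := Quotient.exact htt
    have h2 : (ofMat (xm t) (hnf t).cont).IsEquiv (ofMat (xm t') (hnf t').cont) := h1
    have h3 := (hnf t).eq_of_isEquiv (hnf t') h2
    apply Subtype.ext
    funext ⟨σ, i, j⟩
    rw [← hxm t, ← hxm t', h3]
  exact Finite.of_injective Φ hΦ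

end Tangent

end Fermat.Agent.S53.H53
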