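import Fermat.Prelude.Def_GaloisRep_DeformationRingData
import Fermat.Prelude.Def_GaloisRep_DeformationCondition

set_option autoImplicit false

open scoped TensorProduct

namespace Fermat.Agent.S53.H56

/-- The absolute Galois group of `ℚ`. -/
abbrev Gal : Type := AlgebraicClosure ℚ ≃ₐ[ℚ] AlgebraicClosure ℚ

/-- Two by two matrices. -/
abbrev M2 (A : Type) : Type := Matrix (Fin 2) (Fin 2) A

section Basic

variable {A : Type} [CommRing A] [IsLocalRing A]

/-- Adic continuity of a matrix valued representation. -/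
def IsContMat (x : Gal →* M2 A) : Prop :=
  ∀ n : ℕ, ∃ L : IntermediateField ℚ (AlgebraicClosure ℚ), FiniteDimensional ℚ L ∧
    ∀ σ : Gal, (∀ y ∈ L, σ y = y) → ∀ i j, (x σ - 1) i j ∈ IsLocalRing.maximalIdeal A ^ n

theorem IsContMat.of_factors {x : Gal →* M2 A}
    (h : ∃ L : IntermediateField ℚ (AlgebraicClosure ℚ), FiniteDimensional ℚ L ∧
      ∀ σ : Gal, (∀ y ∈ L, σ y = y) → x σ = 1) : IsContMat x := by
  intro n
  obtain ⟨L, hL, h1⟩ := h
  refine ⟨L, hL, fun σ hσ i j => ?_⟩
  rw [h1 σ hσ, sub_self]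
  exact Submodule.zero_mem _

theorem IsContMat.factors_of_pow_eq_bot {x : Gal →* M2 A} (hx : IsContMat x) {N : ℕ}
    (hN : IsLocalRing.maximalIdeal A ^ N = ⊥) :
    ∃ L : IntermediateField ℚ (AlgebraicClosure ℚ), FiniteDimensional ℚ L ∧
      ∀ σ : Gal, (∀ y ∈ L, σ y = y) → x σ = 1 := by
  obtain ⟨L, hL, h1⟩ := hx N
  refine ⟨L, hL, fun σ hσ => ?_⟩
  have h2 : x σ - 1 = 0 := by
    ext i j
    have := h1 σ hσ i j
    rw [hN, Submodule.mem_bot] at this
    simpa using this
  exact sub_eq_zero.mp h2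

theorem isContMat_iff_of_pow_eq_bot {x : Gal →* M2 A} {N : ℕ}
    (hN : IsLocalRing.maximalIdeal A ^ N = ⊥) :
    IsContMat x ↔ ∃ L : IntermediateField ℚ (AlgebraicClosure ℚ), FiniteDimensional ℚ L ∧
      ∀ σ : Gal, (∀ y ∈ L, σ y = y) → x σ = 1 :=
  ⟨fun h => h.factors_of_pow_eq_bot hN, IsContMat.of_factors⟩

omit [IsLocalRing A] in
/-- A vector all of whose coordinates lie in `I` lies in `I • ⊤`. -/
theorem mem_smul_top_of_forall_mem {ι : Type} [Fintype ι] [DecidableEq ι] (I : Ideal A)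
    (w : ι → A) (hw : ∀ i, w i ∈ I) : w ∈ I • (⊤ : Submodule A (ι → A)) := by
  have hsum : w = ∑ i, w i • (Pi.single i (1 : A) : ι → A) := by
    ext j
    simp [Finset.sum_apply, Pi.single_apply]
  rw [hsum]
  exact Submodule.sum_mem _ fun i _ => Submodule.smul_mem_smul (hw i) Submodule.mem_top

omit [IsLocalRing A] in
/-- Coordinates (in any basis) of an element of `I • ⊤` lie in `I`. -/
theorem repr_mem_of_mem_smul_top {ι V : Type} [AddCommGroup V] [Module A V]
    (b : Module.Basis ι A V) (I : Ideal A) {v : V} (hv : v ∈ I • (⊤ : Submodule A V)) (i : ι) :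
    b.repr v i ∈ I := by
  refine Submodule.smul_induction_on (p := fun v => b.repr v i ∈ I) hv ?_ ?_
  · intro a ha w _
    rw [map_smul, Finsupp.smul_apply, smul_eq_mul]
    exact I.mul_mem_right _ ha
  · intro v w hv hw
    rw [map_add, Finsupp.add_apply]
    exact I.add_mem hv hw

/-- The representation attached to a continuous matrix valued homomorphism. -/
noncomputable def ofMat (x : Gal →* M2 A) (hx : IsContMat x) : GaloisRepAdic A where
  V := Fin 2 → A
  finrank_eq := by simp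
  ρ :=
    { toFun := fun σ => Matrix.toLin' (x σ)
      map_one' := by rw [map_one, Matrix.toLin'_one]; rfl
      map_mul' := fun σ τ => by rw [map_mul, Matrix.toLin'_mul]; rfl }
  isAdicContinuous := by
    intro n
    obtain ⟨L, hL, h1⟩ := hx n
    refine ⟨L, hL, fun σ hσ v => ?_⟩
    apply mem_smul_top_of_forall_mem
    intro i
    have hv : Matrix.toLin' (x σ) v - v = (x σ - 1).mulVec v := by
      rw [Matrix.toLin'_apply, Matrix.sub_mulVec, Matrix.one_mulVec]
    show (Matrix.toLin' (x σ) v - v) i ∈ _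
    rw [hv]
    simp only [Matrix.mulVec, dotProduct]
    exact Ideal.sum_mem _ fun j _ => Ideal.mul_mem_right _ _ (h1 σ hσ i j)

theorem ofMat_V (x : Gal →* M2 A) (hx : IsContMat x) : (ofMat x hx).V = (Fin 2 → A) := rfl

theorem ofMat_ρ (x : Gal →* M2 A) (hx : IsContMat x) (σ : Gal) :
    (ofMat x hx).ρ σ = Matrix.toLin' (x σ) := rfl

theorem ofMat_ρ_apply (x : Gal →* M2 A) (hx : IsContMat x) (σ : Gal)
    (v : Fin 2 → A) : (ofMat x hx).ρ σ v = (x σ).mulVec v := rfl


/-- The matrix valued homomorphism of a representation in a basis. -/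
noncomputable def matOf (ρ : GaloisRepAdic A) (b : Module.Basis (Fin 2) A ρ.V) : Gal →* M2 A where
  toFun σ := LinearMap.toMatrix b b (ρ.ρ σ)
  map_one' := by rw [map_one]; exact LinearMap.toMatrix_one b
  map_mul' σ τ := by rw [map_mul]; exact LinearMap.toMatrix_mul b _ _

theorem matOf_apply (ρ : GaloisRepAdic A) (b : Module.Basis (Fin 2) A ρ.V) (σ : Gal) :
    matOf ρ b σ = LinearMap.toMatrix b b (ρ.ρ σ) := rfl

theorem isContMat_matOf (ρ : GaloisRepAdic A) (b : Module.Basis (Fin 2) A ρ.V) :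
    IsContMat (matOf ρ b) := by
  intro n
  obtain ⟨L, hL, h1⟩ := ρ.isAdicContinuous n
  refine ⟨L, hL, fun σ hσ i j => ?_⟩
  have h2 : matOf ρ b σ - 1 = LinearMap.toMatrix b b (ρ.ρ σ - 1) := by
    rw [map_sub, LinearMap.toMatrix_one, matOf_apply]
  rw [h2, LinearMap.toMatrix_apply, LinearMap.sub_apply, Module.End.one_apply]
  exact repr_mem_of_mem_smul_top b _ (h1 σ hσ (b j)) i

/-- A basis of the underlying module of a representation. -/
noncomputable def someBasis (ρ : GaloisRepAdic A) : Module.Basis (Fin 2) A ρ.V :=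
  Module.finBasisOfFinrankEq A ρ.V ρ.finrank_eq

/-- Every representation is equivalent to the one given by its matrices in a basis. -/
noncomputable def equivOfMatMatOf (ρ : GaloisRepAdic A) (b : Module.Basis (Fin 2) A ρ.V) :
    GaloisRepAdic.Equiv ρ (ofMat (matOf ρ b) (isContMat_matOf ρ b)) where
  toLinearEquiv := b.equivFun
  map_apply σ v := by
    show b.equivFun (ρ.ρ σ v) = (LinearMap.toMatrix b b (ρ.ρ σ)).mulVec (b.equivFun v)
    have := LinearMap.toMatrix_mulVec_repr b b (ρ.ρ σ) v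
    funext i
    rw [Module.Basis.equivFun_apply]
    rw [← this]
    rfl

theorem isEquiv_ofMat_matOf (ρ : GaloisRepAdic A) (b : Module.Basis (Fin 2) A ρ.V) :
    ρ.IsEquiv (ofMat (matOf ρ b) (isContMat_matOf ρ b)) :=
  ⟨equivOfMatMatOf ρ b⟩

theorem exists_ofMat_isEquiv (ρ : GaloisRepAdic A) :
    ∃ (x : Gal →* M2 A) (hx : IsContMat x), ρ.IsEquiv (ofMat x hx) :=
  ⟨_, _, isEquiv_ofMat_matOf ρ (someBasis ρ)⟩

theorem isEquiv_refl (ρ : GaloisRepAdic A) : ρ.IsEquiv ρ :=
  ⟨GaloisRepAdic.Equiv.refl ρ⟩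

theorem isEquiv_symm {ρ₁ ρ₂ : GaloisRepAdic A} (h : ρ₁.IsEquiv ρ₂) :
    ρ₂.IsEquiv ρ₁ := by
  obtain ⟨e⟩ := h
  exact ⟨e.symm⟩

theorem isEquiv_trans {ρ₁ ρ₂ ρ₃ : GaloisRepAdic A} (h : ρ₁.IsEquiv ρ₂)
    (h' : ρ₂.IsEquiv ρ₃) : ρ₁.IsEquiv ρ₃ := by
  obtain ⟨e⟩ := h
  obtain ⟨e'⟩ := h'
  exact ⟨e.trans e'⟩

omit [IsLocalRing A] in
/-- The linear automorphism of `Fin 2 → A` given by an invertible matrix. -/
noncomputable def unitLinearEquiv (u : (M2 A)ˣ) : (Fin 2 → A) ≃ₗ[A] (Fin 2 → A) :=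
  LinearEquiv.ofLinearMap (Matrix.toLin' (u : M2 A)) (Matrix.toLin' ((u⁻¹ : (M2 A)ˣ) : M2 A))
    (by rw [← Matrix.toLin'_mul, Units.mul_inv, Matrix.toLin'_one])
    (by rw [← Matrix.toLin'_mul, Units.inv_mul, Matrix.toLin'_one])

omit [IsLocalRing A] in
theorem unitLinearEquiv_apply (u : (M2 A)ˣ) (v : Fin 2 → A) :
    unitLinearEquiv u v = (u : M2 A).mulVec v := rfl

/-- Conjugate matrix representations give equivalent representations. -/
noncomputable def equivOfConj {x x' : Gal →* M2 A} (hx : IsContMat x) (hx' : IsContMat x')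
    (u : (M2 A)ˣ) (hu : ∀ g, (u : M2 A) * x g = x' g * (u : M2 A)) :
    GaloisRepAdic.Equiv (ofMat x hx) (ofMat x' hx') where
  toLinearEquiv := unitLinearEquiv u
  map_apply σ v := by
    show (u : M2 A).mulVec ((x σ).mulVec v) = (x' σ).mulVec ((u : M2 A).mulVec v)
    rw [Matrix.mulVec_mulVec, Matrix.mulVec_mulVec, hu σ]

theorem ofMat_isEquiv_iff {x x' : Gal →* M2 A} (hx : IsContMat x) (hx' : IsContMat x') :
    (ofMat x hx).IsEquiv (ofMat x' hx') ↔
      ∃ u : (M2 A)ˣ, ∀ g, (u : M2 A) * x g = x' g * (u : M2 A) := by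
  constructor
  · rintro ⟨e⟩
    let f : (Fin 2 → A) ≃ₗ[A] (Fin 2 → A) := e.toLinearEquiv
    have hf : ∀ σ v, f ((x σ).mulVec v) = (x' σ).mulVec (f v) := fun σ v => e.map_apply σ v
    refine ⟨⟨LinearMap.toMatrix' (f : (Fin 2 → A) →ₗ[A] (Fin 2 → A)),
      LinearMap.toMatrix' (f.symm : (Fin 2 → A) →ₗ[A] (Fin 2 → A)), ?_, ?_⟩, ?_⟩
    · rw [← LinearMap.toMatrix'_comp, LinearEquiv.comp_coe, LinearEquiv.symm_trans_self,
        LinearEquiv.refl_toLinearMap, LinearMap.toMatrix'_id]
    · rw [← LinearMap.toMatrix'_comp, LinearEquiv.comp_coe, LinearEquiv.self_trans_symm,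
        LinearEquiv.refl_toLinearMap, LinearMap.toMatrix'_id]
    · intro g
      apply Matrix.toLin'.injective
      show Matrix.toLin' (LinearMap.toMatrix' (f : (Fin 2 → A) →ₗ[A] (Fin 2 → A)) * x g) =
        Matrix.toLin' (x' g * LinearMap.toMatrix' (f : (Fin 2 → A) →ₗ[A] (Fin 2 → A)))
      rw [Matrix.toLin'_mul, Matrix.toLin'_mul, Matrix.toLin'_toMatrix']
      refine LinearMap.ext fun v => ?_
      rw [LinearMap.comp_apply, LinearMap.comp_apply, Matrix.toLin'_apply, Matrix.toLin'_apply]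
      exact hf g v
  · rintro ⟨u, hu⟩
    exact ⟨equivOfConj hx hx' u hu⟩

end Basic

section MapMat

variable {A B C : Type} [CommRing A] [CommRing B] [CommRing C]

/-- Push a matrix valued homomorphism forward along a ring homomorphism. -/
noncomputable def mapMat (φ : A →+* B) (x : Gal →* M2 A) : Gal →* M2 B :=
  (φ.mapMatrix : M2 A →+* M2 B).toMonoidHom.comp x

theorem mapMat_apply (φ : A →+* B) (x : Gal →* M2 A) (σ : Gal) :
    mapMat φ x σ = (x σ).map φ := rfl

theorem mapMat_apply_apply (φ : A →+* B) (x : Gal →* M2 A) (σ : Gal) (i j : Fin 2) :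
    mapMat φ x σ i j = φ (x σ i j) := rfl

theorem mapMat_comp (ψ : B →+* C) (φ : A →+* B) (x : Gal →* M2 A) :
    mapMat (ψ.comp φ) x = mapMat ψ (mapMat φ x) := by
  ext σ i j
  rfl

theorem mapMat_id (x : Gal →* M2 A) : mapMat (RingHom.id A) x = x := by
  ext σ i j
  rfl

theorem mapMat_eq_one_iff {φ : A →+* B} (hφ : Function.Injective φ) (x : Gal →* M2 A) (σ : Gal) :
    mapMat φ x σ = 1 ↔ x σ = 1 := by
  constructor
  · intro h
    ext i j
    apply hφ
    have := congrFun (congrFun h i) j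
    rw [mapMat_apply_apply] at this
    rw [this]
    by_cases hij : i = j
    · subst hij; simp
    · simp [Matrix.one_apply_ne hij]
  · intro h
    rw [mapMat_apply, h]
    ext i j
    by_cases hij : i = j
    · subst hij; simp
    · simp [Matrix.one_apply_ne hij]

theorem map_sub_one_apply (φ : A →+* B) (M : M2 A) (i j : Fin 2) :
    (M.map φ - 1) i j = φ ((M - 1) i j) := by
  rw [Matrix.sub_apply, Matrix.sub_apply, map_sub, Matrix.map_apply]
  congr 1
  by_cases hij : i = j
  · subst hij; simp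
  · simp [Matrix.one_apply_ne hij]

end MapMat

section BaseChange

variable {A B : Type} [CommRing A] [IsLocalRing A] [CommRing B] [IsLocalRing B]

theorem map_maximalIdeal_pow_le (φ : A →+* B) (hφ : IsLocalHom φ) (n : ℕ) :
    (IsLocalRing.maximalIdeal A ^ n).map φ ≤ IsLocalRing.maximalIdeal B ^ n := by
  rw [Ideal.map_pow]
  exact Ideal.pow_right_mono (Ideal.map_le_iff_le_comap.mpr fun a ha =>
    Ideal.mem_comap.mpr (haveI := hφ; map_nonunit φ a ha)) n

theorem IsContMat.map {x : Gal →* M2 A} (hx : IsContMat x) (φ : A →+* B) (hφ : IsLocalHom φ) :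
    IsContMat (mapMat φ x) := by
  intro n
  obtain ⟨L, hL, h1⟩ := hx n
  refine ⟨L, hL, fun σ hσ i j => ?_⟩
  rw [mapMat_apply, map_sub_one_apply]
  exact map_maximalIdeal_pow_le φ hφ n (Ideal.mem_map_of_mem φ (h1 σ hσ i j))

theorem IsContMat.of_map_injective {x : Gal →* M2 A} {φ : A →+* B} (hφ : Function.Injective φ)
    {N : ℕ} (hN : IsLocalRing.maximalIdeal B ^ N = ⊥) (h : IsContMat (mapMat φ x)) :
    IsContMat x := by
  obtain ⟨L, hL, h1⟩ := h.factors_of_pow_eq_bot hN
  exact IsContMat.of_factors ⟨L, hL, fun σ hσ => (mapMat_eq_one_iff hφ x σ).mp (h1 σ hσ)⟩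

omit [IsLocalRing A] [IsLocalRing B] in
/-- Key computation: `piScalarRight` intertwines base change of `toLin' M` with the mapped
matrix. -/
theorem piScalarRight_baseChange_toLin' [Algebra A B] (M : M2 A) (w : B ⊗[A] (Fin 2 → A)) :
    TensorProduct.piScalarRight A B B (Fin 2) ((Matrix.toLin' M).baseChange B w) =
      (M.map (algebraMap A B)).mulVec (TensorProduct.piScalarRight A B B (Fin 2) w) := by
  induction w using TensorProduct.induction_on with
  | zero => simp only [map_zero, Matrix.mulVec_zero]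
  | tmul b v =>
    rw [LinearMap.baseChange_tmul, TensorProduct.piScalarRight_apply,
      TensorProduct.piScalarRightHom_tmul, TensorProduct.piScalarRight_apply,
      TensorProduct.piScalarRightHom_tmul]
    funext i
    simp only [Matrix.toLin'_apply, Matrix.mulVec, dotProduct, Matrix.map_apply,
      Algebra.smul_def, map_sum, map_mul, Finset.sum_mul, mul_assoc]
  | add w₁ w₂ h₁ h₂ => simp only [map_add, Matrix.mulVec_add, h₁, h₂]

/-- Base change of `ofMat x` is `ofMat` of the pushed forward matrices. -/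
noncomputable def baseChangeEquiv (φ : A →+* B) (hφ : IsLocalHom φ) {x : Gal →* M2 A}
    (hx : IsContMat x) :
    GaloisRepAdic.Equiv ((ofMat x hx).baseChangeAlong φ hφ)
      (ofMat (mapMat φ x) (hx.map φ hφ)) :=
  letI : Algebra A B := φ.toAlgebra
  { toLinearEquiv := TensorProduct.piScalarRight A B B (Fin 2)
    map_apply := fun σ w => piScalarRight_baseChange_toLin' (x σ) w }

theorem baseChangeAlong_ofMat_isEquiv (φ : A →+* B) (hφ : IsLocalHom φ) {x : Gal →* M2 A}
    (hx : IsContMat x) :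
    ((ofMat x hx).baseChangeAlong φ hφ).IsEquiv (ofMat (mapMat φ x) (hx.map φ hφ)) :=
  ⟨baseChangeEquiv φ hφ hx⟩

end BaseChange

section Residual

variable {k : Type} [Field k]

/-- The residual representation attached to a matrix valued homomorphism over a field. -/
noncomputable def ofMatRes (xbar : Gal →* M2 k) (h : GaloisFactorsThroughFiniteLevel xbar) :
    ResidualGaloisRep k where
  V := Fin 2 → k
  finrank_eq := by simp
  ρ :=
    { toFun := fun σ => Matrix.toLin' (xbar σ)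
      map_one' := by rw [map_one, Matrix.toLin'_one]; rfl
      map_mul' := fun σ τ => by rw [map_mul, Matrix.toLin'_mul]; rfl }
  factorsThroughFiniteLevel := by
    obtain ⟨L, hL, h1⟩ := h
    refine ⟨L, hL, fun σ hσ => ?_⟩
    show Matrix.toLin' (xbar σ) = 1
    rw [h1 σ hσ, Matrix.toLin'_one]
    rfl

theorem ofMatRes_ρ_apply (xbar : Gal →* M2 k) (h : GaloisFactorsThroughFiniteLevel xbar)
    (σ : Gal) (v : Fin 2 → k) : (ofMatRes xbar h).ρ σ v = (xbar σ).mulVec v := rfl

/-- The matrix valued homomorphism of a residual representation in a basis. -/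
noncomputable def matOfRes (ρ : ResidualGaloisRep k) (b : Module.Basis (Fin 2) k ρ.V) :
    Gal →* M2 k where
  toFun σ := LinearMap.toMatrix b b (ρ.ρ σ)
  map_one' := by rw [map_one]; exact LinearMap.toMatrix_one b
  map_mul' σ τ := by rw [map_mul]; exact LinearMap.toMatrix_mul b _ _

theorem matOfRes_apply (ρ : ResidualGaloisRep k) (b : Module.Basis (Fin 2) k ρ.V) (σ : Gal) :
    matOfRes ρ b σ = LinearMap.toMatrix b b (ρ.ρ σ) := rfl

theorem factors_matOfRes (ρ : ResidualGaloisRep k) (b : Module.Basis (Fin 2) k ρ.V) :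
    GaloisFactorsThroughFiniteLevel (matOfRes ρ b) := by
  obtain ⟨L, hL, h1⟩ := ρ.factorsThroughFiniteLevel
  refine ⟨L, hL, fun σ hσ => ?_⟩
  rw [matOfRes_apply, h1 σ hσ]
  exact LinearMap.toMatrix_one b

/-- Every residual representation is equivalent to the one given by its matrices in a basis. -/
noncomputable def resEquivOfMatRes (ρ : ResidualGaloisRep k) (b : Module.Basis (Fin 2) k ρ.V) :
    ResidualGaloisRep.Equiv ρ (ofMatRes (matOfRes ρ b) (factors_matOfRes ρ b)) where
  toLinearEquiv := b.equivFun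
  map_apply σ v := by
    show b.equivFun (ρ.ρ σ v) = (LinearMap.toMatrix b b (ρ.ρ σ)).mulVec (b.equivFun v)
    have := LinearMap.toMatrix_mulVec_repr b b (ρ.ρ σ) v
    funext i
    rw [Module.Basis.equivFun_apply]
    rw [← this]
    rfl

theorem isEquiv_ofMatRes_matOfRes (ρ : ResidualGaloisRep k) (b : Module.Basis (Fin 2) k ρ.V) :
    ρ.IsEquiv (ofMatRes (matOfRes ρ b) (factors_matOfRes ρ b)) :=
  ⟨resEquivOfMatRes ρ b⟩

/-- A basis of the underlying space of a residual representation. -/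
noncomputable def someBasisRes (ρ : ResidualGaloisRep k) : Module.Basis (Fin 2) k ρ.V :=
  Module.finBasisOfFinrankEq k ρ.V ρ.finrank_eq

theorem resIsEquiv_refl (ρ : ResidualGaloisRep k) : ρ.IsEquiv ρ :=
  ⟨ResidualGaloisRep.Equiv.refl ρ⟩

theorem resIsEquiv_symm {ρ₁ ρ₂ : ResidualGaloisRep k} (h : ρ₁.IsEquiv ρ₂) :
    ρ₂.IsEquiv ρ₁ := by
  obtain ⟨e⟩ := h
  exact ⟨e.symm⟩

theorem resIsEquiv_trans {ρ₁ ρ₂ ρ₃ : ResidualGaloisRep k} (h : ρ₁.IsEquiv ρ₂)
    (h' : ρ₂.IsEquiv ρ₃) : ρ₁.IsEquiv ρ₃ := by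
  obtain ⟨e⟩ := h
  obtain ⟨e'⟩ := h'
  exact ⟨e.trans e'⟩

/-- Conjugate matrix homomorphisms give equivalent residual representations. -/
noncomputable def resEquivOfConj {x x' : Gal →* M2 k} (hx : GaloisFactorsThroughFiniteLevel x)
    (hx' : GaloisFactorsThroughFiniteLevel x')
    (u : (M2 k)ˣ) (hu : ∀ g, (u : M2 k) * x g = x' g * (u : M2 k)) :
    ResidualGaloisRep.Equiv (ofMatRes x hx) (ofMatRes x' hx') where
  toLinearEquiv := unitLinearEquiv u
  map_apply σ v := by
    show (u : M2 k).mulVec ((x σ).mulVec v) = (x' σ).mulVec ((u : M2 k).mulVec v)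
    rw [Matrix.mulVec_mulVec, Matrix.mulVec_mulVec, hu σ]

theorem ofMatRes_isEquiv_iff {x x' : Gal →* M2 k} (hx : GaloisFactorsThroughFiniteLevel x)
    (hx' : GaloisFactorsThroughFiniteLevel x') :
    (ofMatRes x hx).IsEquiv (ofMatRes x' hx') ↔
      ∃ u : (M2 k)ˣ, ∀ g, (u : M2 k) * x g = x' g * (u : M2 k) := by
  constructor
  · rintro ⟨e⟩
    let f : (Fin 2 → k) ≃ₗ[k] (Fin 2 → k) := e.toLinearEquiv
    have hf : ∀ σ v, f ((x σ).mulVec v) = (x' σ).mulVec (f v) := fun σ v => e.map_apply σ v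
    refine ⟨⟨LinearMap.toMatrix' (f : (Fin 2 → k) →ₗ[k] (Fin 2 → k)),
      LinearMap.toMatrix' (f.symm : (Fin 2 → k) →ₗ[k] (Fin 2 → k)), ?_, ?_⟩, ?_⟩
    · rw [← LinearMap.toMatrix'_comp, LinearEquiv.comp_coe, LinearEquiv.symm_trans_self,
        LinearEquiv.refl_toLinearMap, LinearMap.toMatrix'_id]
    · rw [← LinearMap.toMatrix'_comp, LinearEquiv.comp_coe, LinearEquiv.self_trans_symm,
        LinearEquiv.refl_toLinearMap, LinearMap.toMatrix'_id]
    · intro g
      apply Matrix.toLin'.injective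
      show Matrix.toLin' (LinearMap.toMatrix' (f : (Fin 2 → k) →ₗ[k] (Fin 2 → k)) * x g) =
        Matrix.toLin' (x' g * LinearMap.toMatrix' (f : (Fin 2 → k) →ₗ[k] (Fin 2 → k)))
      rw [Matrix.toLin'_mul, Matrix.toLin'_mul, Matrix.toLin'_toMatrix']
      refine LinearMap.ext fun v => ?_
      rw [LinearMap.comp_apply, LinearMap.comp_apply, Matrix.toLin'_apply, Matrix.toLin'_apply]
      exact hf g v
  · rintro ⟨u, hu⟩
    exact ⟨resEquivOfConj hx hx' u hu⟩

theorem factors_mapMat {k' : Type} [Field k'] (ψ : k →+* k') {x : Gal →* M2 k}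
    (hx : GaloisFactorsThroughFiniteLevel x) : GaloisFactorsThroughFiniteLevel (mapMat ψ x) := by
  obtain ⟨L, hL, h1⟩ := hx
  exact ⟨L, hL, fun σ hσ => (mapMat_eq_one_iff ψ.injective x σ).mpr (h1 σ hσ)⟩

/-- Base change of `ofMatRes x` is `ofMatRes` of the pushed forward matrices. -/
noncomputable def resBaseChangeEquiv {k' : Type} [Field k'] (ψ : k →+* k') {x : Gal →* M2 k}
    (hx : GaloisFactorsThroughFiniteLevel x) :
    ResidualGaloisRep.Equiv ((ofMatRes x hx).baseChangeAlong ψ)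
      (ofMatRes (mapMat ψ x) (factors_mapMat ψ hx)) :=
  letI : Algebra k k' := ψ.toAlgebra
  { toLinearEquiv := TensorProduct.piScalarRight k k' k' (Fin 2)
    map_apply := fun σ w => piScalarRight_baseChange_toLin' (x σ) w }

theorem baseChangeAlong_ofMatRes_isEquiv {k' : Type} [Field k'] (ψ : k →+* k')
    {x : Gal →* M2 k} (hx : GaloisFactorsThroughFiniteLevel x) :
    ((ofMatRes x hx).baseChangeAlong ψ).IsEquiv (ofMatRes (mapMat ψ x) (factors_mapMat ψ hx)) :=
  ⟨resBaseChangeEquiv ψ hx⟩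

/-- `ofResidualGaloisRep` of `ofMatRes` is `ofMat`. -/
theorem ofResidualGaloisRep_ofMatRes (x : Gal →* M2 k) (hx : GaloisFactorsThroughFiniteLevel x) :
    GaloisRepAdic.ofResidualGaloisRep (ofMatRes x hx) = ofMat x (IsContMat.of_factors hx) := rfl

end Residual

section ResidualOfAdic

variable {A : Type} [CommRing A] [IsLocalRing A]

theorem factors_residue_of_isContMat {x : Gal →* M2 A} (hx : IsContMat x) :
    GaloisFactorsThroughFiniteLevel (mapMat (IsLocalRing.residue A) x) := by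
  obtain ⟨L, hL, h1⟩ := hx 1
  refine ⟨L, hL, fun σ hσ => ?_⟩
  rw [mapMat_apply]
  have h2 : (x σ).map (IsLocalRing.residue A) - 1 = 0 := by
    ext i j
    rw [map_sub_one_apply]
    have := h1 σ hσ i j
    rw [pow_one] at this
    simpa using (IsLocalRing.residue_eq_zero_iff _).mpr this
  exact sub_eq_zero.mp h2

/-- The residual representation of `ofMat x` is `ofMatRes` of the reduced matrices. -/
noncomputable def residualEquiv {x : Gal →* M2 A} (hx : IsContMat x) :
    ResidualGaloisRep.Equiv (ofMat x hx).residual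
      (ofMatRes (mapMat (IsLocalRing.residue A) x) (factors_residue_of_isContMat hx)) where
  toLinearEquiv :=
    TensorProduct.piScalarRight A (IsLocalRing.ResidueField A) (IsLocalRing.ResidueField A) (Fin 2)
  map_apply := fun σ w => piScalarRight_baseChange_toLin' (x σ) w

theorem residual_ofMat_isEquiv {x : Gal →* M2 A} (hx : IsContMat x) :
    (ofMat x hx).residual.IsEquiv
      (ofMatRes (mapMat (IsLocalRing.residue A) x) (factors_residue_of_isContMat hx)) :=
  ⟨residualEquiv hx⟩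

end ResidualOfAdic

end Fermat.Agent.S53.H56
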