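import Fermat.Agent.S53.H53_Functor

/-!
# Gluing matrix families along the quotients `A ⧸ 𝔪 ^ n` (helper92, for the `S53` assembly)

A coordinate family `u : Coord → A` with values in a separated local ring whose images in a
tower of local quotients `q n : A → B n` (`ker (q n) ≤ 𝔪 ^ n`) are (continuous, normal form)
homomorphisms is itself a (continuous, normal form) homomorphism.

Main statements (namespace `Fermat.Agent.S53.H92`):
* `exists_monoidHom_of_family`   : multiplicativity glues along a jointly injective family;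
* `matCont_of_family`            : `MatCont` glues along a tower;
* `isNFMat_of_family`            : `IsNFMat D` glues along a tower;
* `exists_isNFMat_of_family`     : the three together, general tower;
* `isLocalRing_quotient_pow`, `isArtinianRing_quotient_pow`, `isArtinianTestAlgebra_quotient_pow`:
  the quotients `A ⧸ 𝔪 ^ (n + 1)` are Artinian test algebras;
* `exists_isNFMat_of_quotients`  : the special case `B n = A ⧸ 𝔪 ^ (n + 1)`.
-/

set_option autoImplicit false

open IsLocalRing
open Fermat.Agent.S53.H53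

namespace Fermat.Agent.S53.H92

section Family

variable {A : Type} [CommRing A]

/-- A coordinate family whose images under a jointly injective family of ring homomorphisms are
multiplicative is multiplicative. -/
theorem exists_monoidHom_of_family {ι : Type} {B : ι → Type} [∀ n, CommRing (B n)]
    (q : ∀ n, A →+* B n) (hq : ∀ a : A, (∀ n, q n a = 0) → a = 0) (u : Coord → A)
    (y : ∀ n, GQ →* M2 (B n)) (hy : ∀ n σ i j, y n σ i j = q n (u (σ, i, j))) :
    ∃ um : GQ →* M2 A, (∀ σ i j, um σ i j = u (σ, i, j)) ∧ ∀ n, mapMat (q n) um = y n := by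
  have hinj' : ∀ a b : A, (∀ n, q n a = q n b) → a = b := by
    intro a b h
    have := hq (a - b) fun n => by rw [map_sub, h n, sub_self]
    exact sub_eq_zero.mp this
  have hY : ∀ n σ, (toMatFam u σ).map (q n) = y n σ := by
    intro n σ; ext i j; rw [Matrix.map_apply, toMatFam_apply, hy]
  have hinj : ∀ M N : M2 A, (∀ n, M.map (q n) = N.map (q n)) → M = N := by
    intro M N h
    ext i j
    apply hinj'
    intro n
    have := congrFun (congrFun (h n) i) j
    simpa [Matrix.map_apply] using this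
  have h1 : toMatFam u 1 = 1 := by
    apply hinj
    intro n
    rw [hY, map_one]; exact (RingHom.map_one (q n).mapMatrix).symm
  have hmul : ∀ σ τ, toMatFam u (σ * τ) = toMatFam u σ * toMatFam u τ := by
    intro σ τ
    apply hinj
    intro n
    rw [hY, map_mul, Matrix.map_mul, hY, hY]
  refine ⟨⟨⟨toMatFam u, h1⟩, hmul⟩, fun σ i j => rfl, fun n => ?_⟩
  ext σ i j
  rw [mapMat_apply, Matrix.map_apply, hy]; rfl

end Family

section Tower

variable {A : Type} [CommRing A] [IsLocalRing A]

/-- A surjective local homomorphism maps the maximal ideal onto the maximal ideal. -/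
theorem map_maximalIdeal_of_surjective {B : Type} [CommRing B] [IsLocalRing B] (q : A →+* B)
    (hq : IsLocalHom q) (hsurj : Function.Surjective q) :
    (maximalIdeal A).map q = maximalIdeal B := by
  apply le_antisymm
  · exact Ideal.map_le_iff_le_comap.mpr fun a ha =>
      Ideal.mem_comap.mpr (haveI := hq; map_nonunit q a ha)
  · intro b hb
    obtain ⟨a, rfl⟩ := hsurj b
    exact Ideal.mem_map_of_mem q ((mem_maximalIdeal_iff_of_isLocalHom q hq a).mpr hb)

/-- Pulling back powers of the maximal ideal along a surjective local homomorphism with small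
kernel. -/
theorem mem_pow_of_map_mem_pow {B : Type} [CommRing B] [IsLocalRing B] (q : A →+* B)
    (hq : IsLocalHom q) (hsurj : Function.Surjective q) (n : ℕ)
    (hker : RingHom.ker q ≤ maximalIdeal A ^ n) {a : A}
    (ha : q a ∈ maximalIdeal B ^ n) : a ∈ maximalIdeal A ^ n := by
  rw [← map_maximalIdeal_of_surjective q hq hsurj, ← Ideal.map_pow] at ha
  obtain ⟨b, hb, hba⟩ := (Ideal.mem_map_iff_of_surjective q hsurj).mp ha
  have h1 : a - b ∈ RingHom.ker q := by
    rw [RingHom.mem_ker, map_sub, hba, sub_self]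
  have h2 := Ideal.add_mem _ (hker h1) hb
  rwa [sub_add_cancel] at h2

/-- Continuity glues along a tower of local quotients. -/
theorem matCont_of_family {B : ℕ → Type} [∀ n, CommRing (B n)] [∀ n, IsLocalRing (B n)]
    (q : ∀ n, A →+* B n) (hq : ∀ n, IsLocalHom (q n)) (hsurj : ∀ n, Function.Surjective (q n))
    (hker : ∀ n, RingHom.ker (q n) ≤ maximalIdeal A ^ n)
    (um : GQ →* M2 A) (h : ∀ n, MatCont (mapMat (q n) um)) : MatCont um := by
  intro n
  obtain ⟨L, hL, hx⟩ := h n n
  refine ⟨L, hL, fun σ hσ i j => ?_⟩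
  apply mem_pow_of_map_mem_pow (q n) (hq n) (hsurj n) n (hker n)
  have h1 : (mapMat (q n) um σ - 1) i j = q n ((um σ - 1) i j) := by
    rw [mapMat_apply, Matrix.sub_apply, Matrix.sub_apply, Matrix.map_apply, map_sub,
      Matrix.one_apply, Matrix.one_apply]
    split_ifs <;> simp
  rw [← h1]
  exact hx σ hσ i j

variable {𝒪 : Type} [CommRing 𝒪] [IsLocalRing 𝒪]
  {ρbar : ResidualGaloisRep (ResidueField 𝒪)} (D : NFData 𝒪 ρbar) [Algebra 𝒪 A]

/-- The normal form conditions glue along a tower of local quotients of a separated local ring. -/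
theorem isNFMat_of_family (hA : ⨅ n : ℕ, maximalIdeal A ^ n = ⊥)
    {B : ℕ → Type} [∀ n, CommRing (B n)] [∀ n, IsLocalRing (B n)] [∀ n, Algebra 𝒪 (B n)]
    (q : ∀ n, A →ₐ[𝒪] B n) (hq : ∀ n, IsLocalHom (q n : A →+* B n))
    (hsurj : ∀ n, Function.Surjective (q n))
    (hker : ∀ n, RingHom.ker (q n : A →+* B n) ≤ maximalIdeal A ^ n)
    (um : GQ →* M2 A) (h : ∀ n, IsNFMat D (mapMat (q n : A →+* B n) um)) : IsNFMat D um := by
  have hinj : ∀ a b : A, (∀ n, q n a = q n b) → a = b := by
    intro a b hab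
    have h1 : a - b ∈ ⨅ n : ℕ, maximalIdeal A ^ n := by
      rw [Ideal.mem_iInf]
      intro n
      apply hker n
      rw [RingHom.mem_ker, map_sub]
      exact sub_eq_zero.mpr (hab n)
    rw [hA, Ideal.mem_bot] at h1
    exact sub_eq_zero.mp h1
  refine ⟨?_, ?_, ?_, ?_, ?_⟩
  · exact matCont_of_family (fun n => (q n : A →+* B n)) hq hsurj hker um fun n => (h n).cont
  · intro σ i j
    have h1 : mapMat (q 0 : A →+* B 0) um σ i j - algebraMap 𝒪 (B 0) (D.m0 σ i j) =
        (q 0 : A →+* B 0) (um σ i j - algebraMap 𝒪 A (D.m0 σ i j)) := by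
      rw [mapMat_apply, Matrix.map_apply, map_sub]
      congr 1
      exact (AlgHom.commutes (q 0) _).symm
    have := (h 0).lift σ i j
    rw [h1] at this
    exact (mem_maximalIdeal_iff_of_isLocalHom _ (hq 0) _).mpr this
  · apply hinj
    intro n
    have := (h n).nf00
    rw [mapMat_apply, Matrix.map_apply] at this
    rw [map_zero]; exact this
  · apply hinj
    intro n
    have := (h n).nf10
    rw [mapMat_apply, Matrix.map_apply] at this
    rw [map_one]; exact this
  · apply hinj
    intro n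
    have := (h n).nf1
    rw [mapMat_apply, Matrix.map_apply] at this
    rw [AlgHom.commutes]; exact this

/-- **Glue**, general tower: a coordinate family in a separated local ring whose images in a
tower of local quotients are normal form homomorphisms is a normal form homomorphism. -/
theorem exists_isNFMat_of_family (hA : ⨅ n : ℕ, maximalIdeal A ^ n = ⊥)
    {B : ℕ → Type} [∀ n, CommRing (B n)] [∀ n, IsLocalRing (B n)] [∀ n, Algebra 𝒪 (B n)]
    (q : ∀ n, A →ₐ[𝒪] B n) (hq : ∀ n, IsLocalHom (q n : A →+* B n))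
    (hsurj : ∀ n, Function.Surjective (q n))
    (hker : ∀ n, RingHom.ker (q n : A →+* B n) ≤ maximalIdeal A ^ n)
    (u : Coord → A)
    (h : ∀ n, ∃ y : GQ →* M2 (B n), (∀ σ i j, y σ i j = q n (u (σ, i, j))) ∧ IsNFMat D y) :
    ∃ um : GQ →* M2 A, (∀ σ i j, um σ i j = u (σ, i, j)) ∧ IsNFMat D um ∧
      ∀ n (y : GQ →* M2 (B n)), (∀ σ i j, y σ i j = q n (u (σ, i, j))) →
        mapMat (q n : A →+* B n) um = y := by
  choose y hy hnf using h
  have hq0 : ∀ a : A, (∀ n, (q n : A →+* B n) a = 0) → a = 0 := by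
    intro a ha
    have h1 : a ∈ ⨅ n : ℕ, maximalIdeal A ^ n := by
      rw [Ideal.mem_iInf]
      intro n
      exact hker n (ha n)
    rwa [hA, Ideal.mem_bot] at h1
  obtain ⟨um, hum, hmap⟩ := exists_monoidHom_of_family (fun n => (q n : A →+* B n)) hq0 u y hy
  refine ⟨um, hum, ?_, ?_⟩
  · apply isNFMat_of_family D hA q hq hsurj hker um
    intro n
    rw [hmap n]
    exact hnf n
  · intro n y' hy'
    ext σ i j
    rw [mapMat_apply, Matrix.map_apply, hum, hy']
    rfl

end Tower

section Quotients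

variable {A : Type} [CommRing A] [IsLocalRing A]

/-- The quotient of a local ring by a positive power of its maximal ideal is local. -/
theorem isLocalRing_quotient_pow (n : ℕ) : IsLocalRing (A ⧸ maximalIdeal A ^ (n + 1)) := by
  have hne : maximalIdeal A ^ (n + 1) ≠ ⊤ := by
    intro h
    have h1 : maximalIdeal A ^ (n + 1) ≤ maximalIdeal A := Ideal.pow_le_self (by omega)
    rw [h] at h1
    exact (maximalIdeal.isMaximal A).ne_top (top_le_iff.mp h1)
  haveI : Nontrivial (A ⧸ maximalIdeal A ^ (n + 1)) := Ideal.Quotient.nontrivial_iff.mpr hne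
  exact IsLocalRing.of_surjective' (Ideal.Quotient.mk (maximalIdeal A ^ (n + 1)))
    Ideal.Quotient.mk_surjective

/-- The quotient map to a nontrivial quotient of a local ring is a local homomorphism. -/
theorem isLocalHom_quotient_mk (I : Ideal A) (hI : I ≠ ⊤) :
    IsLocalHom (Ideal.Quotient.mk I) := by
  constructor
  intro a ha
  by_contra hna
  have h1 : a ∈ maximalIdeal A := (mem_maximalIdeal a).mpr hna
  have h2 : I ≤ maximalIdeal A := IsLocalRing.le_maximalIdeal hI
  obtain ⟨b, hb⟩ := ha.exists_right_inv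
  obtain ⟨b', rfl⟩ := Ideal.Quotient.mk_surjective b
  rw [← map_mul, ← map_one (Ideal.Quotient.mk I), Ideal.Quotient.eq] at hb
  have h3 : (1 : A) ∈ maximalIdeal A := by
    have := Ideal.sub_mem _ (Ideal.mul_mem_right b' _ h1) (h2 hb)
    rwa [sub_sub_cancel] at this
  exact (maximalIdeal.isMaximal A).ne_top ((Ideal.eq_top_iff_one _).mpr h3)

theorem pow_succ_ne_top (n : ℕ) : maximalIdeal A ^ (n + 1) ≠ ⊤ := by
  intro h
  have h1 : maximalIdeal A ^ (n + 1) ≤ maximalIdeal A := Ideal.pow_le_self (by omega)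
  rw [h] at h1
  exact (maximalIdeal.isMaximal A).ne_top (top_le_iff.mp h1)

/-- The quotient of a Noetherian local ring by a positive power of its maximal ideal is
Artinian. -/
theorem isArtinianRing_quotient_pow [IsNoetherianRing A] (n : ℕ) :
    IsArtinianRing (A ⧸ maximalIdeal A ^ (n + 1)) := by
  haveI := isLocalRing_quotient_pow (A := A) n
  rw [isArtinianRing_iff_isNilpotent_maximalIdeal]
  refine ⟨n + 1, ?_⟩
  have hq := isLocalHom_quotient_mk _ (pow_succ_ne_top (A := A) n)
  have h1 : (maximalIdeal A).map (Ideal.Quotient.mk (maximalIdeal A ^ (n + 1))) =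
      maximalIdeal (A ⧸ maximalIdeal A ^ (n + 1)) :=
    map_maximalIdeal_of_surjective _ hq Ideal.Quotient.mk_surjective
  rw [← h1, ← Ideal.map_pow, Ideal.zero_eq_bot, Ideal.map_eq_bot_iff_le_ker, Ideal.mk_ker]

variable {𝒪 : Type} [CommRing 𝒪] [IsLocalRing 𝒪] [Algebra 𝒪 A]

open GaloisRep in
/-- A nontrivial Artinian quotient of a local `𝒪`-algebra with local structure map and residue
field generated by `𝒪` is an Artinian test algebra. -/
theorem isArtinianTestAlgebra_quotient (I : Ideal A) (hI : I ≠ ⊤) [IsLocalRing (A ⧸ I)]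
    [IsArtinianRing (A ⧸ I)] (hloc : IsLocalHom (algebraMap 𝒪 A))
    (hres : Function.Surjective (residue A ∘ algebraMap 𝒪 A)) :
    IsArtinianTestAlgebra 𝒪 (A ⧸ I) where
  isLocalHom := by
    have hq := isLocalHom_quotient_mk I hI
    have : algebraMap 𝒪 (A ⧸ I) = (Ideal.Quotient.mk I).comp (algebraMap 𝒪 A) := rfl
    rw [this]
    exact RingHom.isLocalHom_comp _ _
  residue_surjective := by
    have hq := isLocalHom_quotient_mk I hI
    intro x
    obtain ⟨b, rfl⟩ := residue_surjective x
    obtain ⟨a, rfl⟩ := Ideal.Quotient.mk_surjective b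
    obtain ⟨o, ho⟩ := hres (residue A a)
    refine ⟨o, ?_⟩
    simp only [Function.comp_apply] at ho ⊢
    rw [← sub_eq_zero, ← map_sub, residue_eq_zero_iff] at ho ⊢
    have h2 : algebraMap 𝒪 (A ⧸ I) o - Ideal.Quotient.mk I a =
        Ideal.Quotient.mk I (algebraMap 𝒪 A o - a) := by
      rw [map_sub]; rfl
    rw [h2]
    exact (mem_maximalIdeal_iff_of_isLocalHom _ hq _).mp ho
  isArtinian := inferInstance

open GaloisRep in
/-- The quotients `A ⧸ 𝔪 ^ (n + 1)` of a Noetherian local `𝒪`-algebra are Artinian test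
algebras. -/
theorem isArtinianTestAlgebra_quotient_pow [IsNoetherianRing A]
    (hloc : IsLocalHom (algebraMap 𝒪 A))
    (hres : Function.Surjective (residue A ∘ algebraMap 𝒪 A)) (n : ℕ)
    [IsLocalRing (A ⧸ maximalIdeal A ^ (n + 1))] :
    IsArtinianTestAlgebra 𝒪 (A ⧸ maximalIdeal A ^ (n + 1)) := by
  haveI := isArtinianRing_quotient_pow (A := A) n
  exact isArtinianTestAlgebra_quotient _ (pow_succ_ne_top n) hloc hres

variable {ρbar : ResidualGaloisRep (ResidueField 𝒪)} (D : NFData 𝒪 ρbar)

/-- **Glue**, the tower `A ⧸ 𝔪 ^ (n + 1)`: a coordinate family in a Noetherian local ring whose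
reductions modulo all positive powers of the maximal ideal are normal form homomorphisms is a
normal form homomorphism. -/
theorem exists_isNFMat_of_quotients [IsNoetherianRing A]
    [∀ n : ℕ, IsLocalRing (A ⧸ maximalIdeal A ^ (n + 1))] (u : Coord → A)
    (h : ∀ n : ℕ, ∃ y : GQ →* M2 (A ⧸ maximalIdeal A ^ (n + 1)),
      (∀ σ i j, y σ i j = Ideal.Quotient.mk (maximalIdeal A ^ (n + 1)) (u (σ, i, j))) ∧
        IsNFMat D y) :
    ∃ um : GQ →* M2 A, (∀ σ i j, um σ i j = u (σ, i, j)) ∧ IsNFMat D um ∧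
      ∀ n (y : GQ →* M2 (A ⧸ maximalIdeal A ^ (n + 1))),
        (∀ σ i j, y σ i j = Ideal.Quotient.mk (maximalIdeal A ^ (n + 1)) (u (σ, i, j))) →
          mapMat (Ideal.Quotient.mk (maximalIdeal A ^ (n + 1))) um = y := by
  have hA : ⨅ n : ℕ, maximalIdeal A ^ n = ⊥ :=
    Ideal.iInf_pow_eq_bot_of_isLocalRing _ (maximalIdeal.isMaximal A).ne_top
  exact exists_isNFMat_of_family D hA
    (B := fun n => A ⧸ maximalIdeal A ^ (n + 1))
    (fun n => Ideal.Quotient.mkₐ 𝒪 (maximalIdeal A ^ (n + 1)))
    (fun n => isLocalHom_quotient_mk _ (pow_succ_ne_top n))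
    (fun n => Ideal.Quotient.mk_surjective)
    (fun n => by
      show RingHom.ker (Ideal.Quotient.mk (maximalIdeal A ^ (n + 1))) ≤ _
      rw [Ideal.mk_ker]
      exact Ideal.pow_le_pow_right (Nat.le_succ n))
    u h

end Quotients

section Universal

variable {𝒪 : Type} [CommRing 𝒪] [IsLocalRing 𝒪]
  {ρbar : ResidualGaloisRep (ResidueField 𝒪)} {D : NFData 𝒪 ρbar}
  {𝒟 : ∀ ⦃A : Type⦄ [CommRing A] [IsLocalRing A] [Algebra 𝒪 A], GaloisRepAdic A → Prop}

open GaloisRep in
/-- **Universal matrix family** (steps (A) and (B) of the assembly): if all Artinian quotients of a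
coordinate family `u` with values in a complete Noetherian local `𝒪`-algebra `R` are normal form
lifts of type `𝒟`, then `u` is the coordinate family of a continuous normal form homomorphism
`um : GQ →* M2 R`, and `ofMat um` is of type `𝒟`. -/
theorem exists_isNFMat_isOfType (h𝒟 : IsDeformationCondition 𝒪 𝒟)
    {R : Type} [CommRing R] [IsLocalRing R] [IsNoetherianRing R]
    [IsAdicComplete (maximalIdeal R) R] [Algebra 𝒪 R]
    (hloc : IsLocalHom (algebraMap 𝒪 R))
    (hres : Function.Surjective (residue R ∘ algebraMap 𝒪 R)) (u : Coord → R)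
    (h1 : ∀ ⦃B : Type⦄ [CommRing B] [IsLocalRing B] [Algebra 𝒪 B], IsArtinianTestAlgebra 𝒪 B →
      ∀ q : R →ₐ[𝒪] B, IsLocalHom (q : R →+* B) → Function.Surjective q →
        IsNFLift D 𝒟 (q ∘ u)) :
    ∃ um : GQ →* M2 R, (∀ σ i j, um σ i j = u (σ, i, j)) ∧
      ∃ h : IsNFMat D um, 𝒟 (ofMat um h.cont) := by
  haveI : ∀ n : ℕ, IsLocalRing (R ⧸ maximalIdeal R ^ (n + 1)) := isLocalRing_quotient_pow
  have hq : ∀ n : ℕ, ∃ y : GQ →* M2 (R ⧸ maximalIdeal R ^ (n + 1)),
      (∀ σ i j, y σ i j = Ideal.Quotient.mk (maximalIdeal R ^ (n + 1)) (u (σ, i, j))) ∧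
        IsNFMat D y := by
    intro n
    obtain ⟨y, hy, hnf, -⟩ := h1 (isArtinianTestAlgebra_quotient_pow hloc hres n)
      (Ideal.Quotient.mkₐ 𝒪 (maximalIdeal R ^ (n + 1)))
      (isLocalHom_quotient_mk _ (pow_succ_ne_top n)) Ideal.Quotient.mk_surjective
    exact ⟨y, hy, hnf⟩
  obtain ⟨um, hum, hnf, -⟩ := exists_isNFMat_of_quotients D u hq
  refine ⟨um, hum, hnf, ?_⟩
  rw [h𝒟.iff_forall_surjective hloc hres]
  intro B _ _ _ hB q hq hsurj
  obtain ⟨y, hy, hnfy, hdy⟩ := h1 hB q hq hsurj
  have hyq : y = mapMat (q : R →+* B) um := by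
    ext σ i j
    rw [hy, mapMat_apply, Matrix.map_apply, hum]
    rfl
  subst hyq
  exact h𝒟.of_isEquiv hB (isEquiv_symm (baseChangeAlong_ofMat_isEquiv _ hq um hnf.cont)) hdy

end Universal

end Fermat.Agent.S53.H92
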